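import Mathlib
import Fermat.Agent.S24.PlacesInt
import Fermat.Agent.S24.PlacesDict
import Fermat.Agent.S24.PlacesCenter
import Fermat.Agent.G.Red.Val

/-!
# Program TT (S33) : points of an affine chart of a function field (prefix `ttal`)

Owner: helper29.  Namespace `Fermat.Agent.TT`.  Main only (S24 places dictionary + `GrdVal`).

`Fk / k` a function field, `t` a separating coordinate, `R = intRing k t` the integral closure of
`k[t]` (a Dedekind domain), `Q` a place of the chart (`t ∈ 𝒪_Q`).

* `ttal_exists_unif`  : `R` contains a uniformiser at `Q`;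
* `ttal_exists_sep`   : `R` separates two distinct places of the chart;
* `ttal_int_val`      : the elements of `R` have values in `k` at `Q` (`k` algebraically closed).
-/

set_option autoImplicit false
set_option linter.unusedSectionVars false
set_option linter.unusedVariables false
set_option linter.style.haveILetI false

noncomputable section

namespace Fermat.Agent.TT

open AlgebraicCurve IsDedekindDomain WithZero IsLocalRing Fermat.Agent.S24 Fermat.Agent.G

variable {k Fk : Type*} [Field k] [Field Fk] [Algebra k Fk] {t : Fk}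

/-- the chart ring contains a uniformiser at every place of the chart. -/
theorem ttal_exists_unif (ht : IsSepGen k t) (Q : Place k Fk) (hQ : t ∈ Q.toValuationSubring) :
    ∃ f : ↥(intRing k t), Q.ord (f : Fk) = 1 := by
  haveI : Fact (IsSepGen k t) := ⟨ht⟩
  haveI := intRing_isDedekindDomain ht
  haveI := intRing_isFractionRing ht
  obtain ⟨w, rfl⟩ := exists_eq_ofHeightOneSpectrum_intRing Q hQ
  obtain ⟨π, hπ⟩ := w.intValuation_exists_uniformizer
  refine ⟨π, ?_⟩
  have h1 : w.valuation Fk (algebraMap ↥(intRing k t) Fk π) = exp (-1 : ℤ) := by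
    rw [HeightOneSpectrum.valuation_of_algebraMap, hπ]
  have h2 := ord_ofHeightOneSpectrum (K := k) w (algebraMap ↥(intRing k t) Fk π)
  rw [h1, log_exp] at h2
  rw [show ((π : ↥(intRing k t)) : Fk) = algebraMap ↥(intRing k t) Fk π from rfl, h2]
  norm_num

/-- the chart ring separates the places of the chart. -/
theorem ttal_exists_sep (ht : IsSepGen k t) (Q Q' : Place k Fk) (hQ : t ∈ Q.toValuationSubring)
    (hQ' : t ∈ Q'.toValuationSubring) (hne : Q ≠ Q') :
    ∃ f : ↥(intRing k t), GrdVal Q (f : Fk) 0 ∧ ¬ GrdVal Q' (f : Fk) 0 := by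
  haveI : Fact (IsSepGen k t) := ⟨ht⟩
  haveI := intRing_isDedekindDomain ht
  haveI := intRing_isFractionRing ht
  obtain ⟨w, rfl⟩ := exists_eq_ofHeightOneSpectrum_intRing Q hQ
  obtain ⟨w', rfl⟩ := exists_eq_ofHeightOneSpectrum_intRing Q' hQ'
  have hww' : w ≠ w' := fun h => hne (by rw [h])
  have hnle : ¬ w.asIdeal ≤ w'.asIdeal := by
    intro hle
    apply hww'
    have hmax : w.asIdeal.IsMaximal := w.isMaximal
    have := hmax.eq_of_le w'.isPrime.ne_top hle
    exact HeightOneSpectrum.ext this
  obtain ⟨f, hf, hf'⟩ := Set.not_subset.1 hnle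
  refine ⟨f, ?_, ?_⟩
  · rw [grdg_val_zero_iff, ValuationSubring.mem_nonunits_iff]
    show (w.valuation Fk).valuationSubring.valuation (algebraMap ↥(intRing k t) Fk f) < 1
    rw [← Valuation.isEquiv_valuation_valuationSubring (w.valuation Fk) |>.lt_one_iff_lt_one]
    exact (w.valuation_lt_one_iff_mem f).2 hf
  · rw [grdg_val_zero_iff, ValuationSubring.mem_nonunits_iff]
    show ¬ (w'.valuation Fk).valuationSubring.valuation (algebraMap ↥(intRing k t) Fk f) < 1
    rw [← Valuation.isEquiv_valuation_valuationSubring (w'.valuation Fk) |>.lt_one_iff_lt_one]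
    exact fun h => hf' ((w'.valuation_lt_one_iff_mem f).1 h)

/-- the elements of the chart ring have values in `k` at the places of the chart. -/
theorem ttal_int_val [IsAlgClosed k] (ht : IsSepGen k t) (Q : Place k Fk)
    (hQ : t ∈ Q.toValuationSubring) (f : ↥(intRing k t)) : ∃ c : k, GrdVal Q (f : Fk) c :=
  grdg_val_exists ht Q (intRing_le_place Q hQ f)

end Fermat.Agent.TT
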