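import Mathlib
import Fermat.Agent.G.Red.Val
import Fermat.Agent.TT.Red2.Into
import Fermat.Agent.TT.Red2.IntoNode

/-!
# Program TT (S33), (R-in) = INTO : the local package `TtriPt` at EVERY closed point of a chart,
by the INTRINSIC centre (prefix `ttal`)

Owner: helper29 (TT-PM R34(4): the one-branch bad points).  Namespace `Fermat.Agent.TT`.
Abstract, hypothesis-first; imports helper23's `TT/Red2/Into.lean` and helper3's
`TT/Red2/IntoNode.lean` (for `ttruCen`, `ttru_loc`, `ttru_val_branch`).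

`K ⊇ A`, `F / K`, `B ≤ O2` the chart ring, `u ∈ B` the chart coordinate, `red : O2 →+* Fk` one of
the two reductions, `Q` a place of `Fk / k` of the chart (`red B ⊂ 𝒪_Q`, with values in `k`).

* `ttalN O2 B hBO red Q : Ideal B` : the closed point `𝔫_Q = {b ∈ B | (red b)(Q) = 0}` of the chart
  below `Q` (hypothesis-free definition, `ttal_mem_N_iff`);
* `ttal_N_rat` : `B = A + 𝔫_Q` (rationality of the closed point);
* `ttal_cen_val` : value compatibility at a place centred at `𝔫_Q` (field `val` of `TtriPt`);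
* **`ttal_pt_of_cen`** : the package `TtriPt A O2 B hBO red (ttruCen A B u 𝔫_Q) Q`, for a good point,
  an ordinary `F_{p²}`-point, a cusp in the chart of `u⁻¹` OR a branch of a node alike: the only
  input from the special fibre is `red B ⊂ 𝒪_Q` with values in `k`, and a uniformiser in `red B`;
* `ttal_pt_congr_cen` : change of the centre predicate;
* `ttal_cen_of_rel` : a place with value compatibility towards `Q` is centred at `𝔫_Q`;
* `ttal_cen_unique` : a place is centred at `𝔫_Q` for at most one `Q` separated by `red B`;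
* `ttal_not_cen_of_unit` : a place where an element of `ker red ∩ B` is a unit is centred at no
  `𝔫_Q` (the places of the OTHER component).
-/

set_option autoImplicit false
set_option linter.unusedSectionVars false
set_option linter.unusedVariables false

noncomputable section

namespace Fermat.Agent.TT

open AlgebraicCurve IsLocalRing Fermat.Agent.G Fermat.Agent.S24 Fermat.Agent.FF

section IntoBad

variable {K F : Type*} [Field K] [Field F] [Algebra K F] {A : ValuationSubring K}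
  {Fk : Type*} [Field Fk] [Algebra (ResidueField A) Fk]

/-- the closed point `𝔫_Q` of the chart `B` below the place `Q` of the component :
`b ∈ 𝔫_Q` iff `(red (c b))(Q) = 0` for all `c ∈ B` (= `(red b)(Q) = 0` once `red B ⊂ 𝒪_Q`). -/
def ttalN (O2 B : Subring F) (hBO : B ≤ O2) (red : O2 →+* Fk)
    (Q : Place (ResidueField A) Fk) : Ideal ↥B where
  carrier := {b | ∀ c : ↥B, GrdVal Q (red ⟨((c * b : ↥B) : F), hBO (c * b).2⟩) 0}
  add_mem' := by
    intro a b ha hb c
    have h1 : (⟨((c * (a + b) : ↥B) : F), hBO (c * (a + b)).2⟩ : O2) =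
        ⟨((c * a : ↥B) : F), hBO (c * a).2⟩ + ⟨((c * b : ↥B) : F), hBO (c * b).2⟩ := by
      apply Subtype.ext
      show (c : F) * ((a : F) + (b : F)) = (c : F) * (a : F) + (c : F) * (b : F)
      ring
    rw [h1, map_add]
    have := grdg_val_add Q (ha c) (hb c)
    rwa [add_zero] at this
  zero_mem' := by
    intro c
    have h1 : (⟨((c * 0 : ↥B) : F), hBO (c * 0).2⟩ : O2) = 0 := by
      apply Subtype.ext
      show (c : F) * (0 : F) = 0
      ring
    rw [h1, map_zero]
    exact (grdg_val_zero_iff Q 0).2 (zero_mem _)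
  smul_mem' := by
    intro d b hb c
    have h1 : (⟨((c * (d • b) : ↥B) : F), hBO (c * (d • b)).2⟩ : O2) =
        ⟨(((c * d) * b : ↥B) : F), hBO ((c * d) * b).2⟩ := by
      apply Subtype.ext
      show (c : F) * ((d : F) * (b : F)) = ((c : F) * (d : F)) * (b : F)
      ring
    rw [h1]
    exact hb (c * d)

variable (O2 B : Subring F) (hBO : B ≤ O2) (red : O2 →+* Fk) (Q : Place (ResidueField A) Fk)

theorem ttal_mem_N (b : ↥B) (hb : b ∈ ttalN O2 B hBO red Q) :
    GrdVal Q (red ⟨b, hBO b.2⟩) 0 := by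
  have h := hb 1
  have h1 : (⟨((1 * b : ↥B) : F), hBO (1 * b).2⟩ : O2) = ⟨b, hBO b.2⟩ := by
    apply Subtype.ext
    show (1 : F) * (b : F) = b
    ring
  rwa [h1] at h

theorem ttal_mem_N_iff (hreg : ∀ b : ↥B, red ⟨b, hBO b.2⟩ ∈ Q.toValuationSubring) (b : ↥B) :
    b ∈ ttalN O2 B hBO red Q ↔ GrdVal Q (red ⟨b, hBO b.2⟩) 0 := by
  refine ⟨ttal_mem_N O2 B hBO red Q b, fun h c => ?_⟩
  have h1 : (⟨((c * b : ↥B) : F), hBO (c * b).2⟩ : O2) = ⟨c, hBO c.2⟩ * ⟨b, hBO b.2⟩ := rfl
  rw [h1, map_mul, grdg_val_zero_iff]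
  exact ttri_mul_mem_nonunits Q (hreg c) ((grdg_val_zero_iff Q _).1 h)

/-- **rationality of the closed point `𝔫_Q`** : `B = A + 𝔫_Q`, from `red B ⊂ 𝒪_Q` with values in
`k` (`Q` a `k`-rational place). -/
theorem ttal_N_rat (hconst : ∀ a : A, algebraMap K F (a : K) ∈ B)
    (hrc : ∀ (a : A) (h : algebraMap K F (a : K) ∈ O2),
      red ⟨algebraMap K F (a : K), h⟩ = algebraMap (ResidueField A) Fk (residue A a))
    (hvalQ : ∀ b : ↥B, ∃ c : ResidueField A, GrdVal Q (red ⟨b, hBO b.2⟩) c) (b : ↥B) :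
    ∃ a : A, b - ⟨algebraMap K F (a : K), hconst a⟩ ∈ ttalN O2 B hBO red Q := by
  have hreg : ∀ b : ↥B, red ⟨b, hBO b.2⟩ ∈ Q.toValuationSubring := fun b => by
    obtain ⟨c, hc⟩ := hvalQ b
    exact grdg_val_mem Q hc
  obtain ⟨c, hc⟩ := hvalQ b
  obtain ⟨a, rfl⟩ := residue_surjective (R := A) c
  refine ⟨a, (ttal_mem_N_iff O2 B hBO red Q hreg _).2 ?_⟩
  have h2 : (⟨((b - ⟨algebraMap K F (a : K), hconst a⟩ : ↥B) : F), hBO (b - _).2⟩ : O2)
      = ⟨b, hBO b.2⟩ - ⟨algebraMap K F (a : K), hBO (hconst a)⟩ := rfl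
  rw [h2, map_sub, hrc]
  have := ttri_val_sub Q hc (grdg_val_algebraMap Q (residue A a))
  rwa [sub_self] at this

/-- **value compatibility at a place centred at `𝔫_Q`** (the field `val` of `TtriPt`). -/
theorem ttal_cen_val (u : F) (hconst : ∀ a : A, algebraMap K F (a : K) ∈ B)
    (hrc : ∀ (a : A) (h : algebraMap K F (a : K) ∈ O2),
      red ⟨algebraMap K F (a : K), h⟩ = algebraMap (ResidueField A) Fk (residue A a))
    (hvalQ : ∀ b : ↥B, ∃ c : ResidueField A, GrdVal Q (red ⟨b, hBO b.2⟩) c)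
    (v : Place K F) (hv : ttruCen A B u (ttalN O2 B hBO red Q) v) (b : ↥B) :
    ∃ a : A, GrdVal v (b : F) (a : K) ∧ GrdVal Q (red ⟨b, hBO b.2⟩) (residue A a) := by
  obtain ⟨a, ha⟩ := ttal_N_rat O2 B hBO red Q hconst hrc hvalQ b
  obtain ⟨m, hm, hmv⟩ := hv.2 _ ha
  refine ⟨a + m, ?_, ?_⟩
  · have h1 := grdg_val_add v hmv (grdg_val_algebraMap v (a : K))
    have h2 : ((b - ⟨algebraMap K F (a : K), hconst a⟩ : ↥B) : F) + algebraMap K F (a : K)
        = (b : F) := by
      show ((b : F) - algebraMap K F (a : K)) + algebraMap K F (a : K) = b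
      ring
    rw [h2, add_comm] at h1
    exact h1
  · have h3 : residue A (a + m) = residue A a := by
      rw [map_add, (residue_eq_zero_iff _).2 hm, add_zero]
    rw [h3]
    exact ttru_val_branch O2 B hBO red Q (ttalN O2 B hBO red Q) hconst hrc
      (ttal_mem_N O2 B hBO red Q) b a ha

/-- **THE LOCAL PACKAGE AT A CLOSED POINT OF THE CHART, BY THE INTRINSIC CENTRE.**
`Q` a place of the component `Fk` of the chart `(B, u)` (i.e. `red B ⊂ 𝒪_Q`, values in `k`) with
a uniformiser in `red B`.  Then `TtriPt` holds at `Q` with `cen := ` the places of `F / K` centred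
at the closed point `𝔫_Q` of `B`.  No goodness of the point is used: ordinary `F_{p²}`-points and
cusps (chart of `u⁻¹`) are covered. -/
theorem ttal_pt_of_cen [HasPrincipalDivisors K F] (u : F) (hu : u ∈ B)
    (hBreg : ∀ b ∈ B, ∀ v : Place K F, u ∈ v.toValuationSubring → b ∈ v.toValuationSubring)
    (hsat : ∀ x ∈ O2, (∀ v : Place K F, u ∈ v.toValuationSubring → x ∈ v.toValuationSubring) →
      x ∈ B)
    (hconst : ∀ a : A, algebraMap K F (a : K) ∈ B)
    (hrc : ∀ (a : A) (h : algebraMap K F (a : K) ∈ O2),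
      red ⟨algebraMap K F (a : K), h⟩ = algebraMap (ResidueField A) Fk (residue A a))
    (hvalK : ∀ (v : Place K F) (x : F), x ∈ v.toValuationSubring → ∃ c : K, GrdVal v x c)
    (hvalA : ∀ v : Place K F, (∃ a : A, GrdVal v u (a : K)) → ∀ b : ↥B, ∀ c : K,
      GrdVal v (b : F) c → c ∈ A)
    (hvalQ : ∀ b : ↥B, ∃ c : ResidueField A, GrdVal Q (red ⟨b, hBO b.2⟩) c)
    (hunif : ∃ t : ↥B, Q.ord (red ⟨t, hBO t.2⟩) = 1) :
    TtriPt A O2 B hBO red (ttruCen A B u (ttalN O2 B hBO red Q)) Q where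
  loc := ttru_loc O2 B hBO red Q u hu (ttalN O2 B hBO red Q) hBreg hsat hconst hrc hvalK hvalA
    (ttal_N_rat O2 B hBO red Q hconst hrc hvalQ) (ttal_mem_N O2 B hBO red Q)
  reg := fun b => by
    obtain ⟨c, hc⟩ := hvalQ b
    exact grdg_val_mem Q hc
  val := fun v hv b => ttal_cen_val O2 B hBO red Q u hconst hrc hvalQ v hv b
  const := hconst
  red_const := hrc
  unif := hunif

/-- change of the centre predicate in a package. -/
theorem ttal_pt_congr_cen {cen cen' : Place K F → Prop} {O2 B : Subring F} {hBO : B ≤ O2}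
    {red : O2 →+* Fk} {Q : Place (ResidueField A) Fk}
    (h : TtriPt A O2 B hBO red cen Q) (hc : ∀ v, cen' v ↔ cen v) :
    TtriPt A O2 B hBO red cen' Q where
  loc := fun x hx hv => h.loc x hx fun v hcv => hv v ((hc v).2 hcv)
  reg := h.reg
  val := fun v hv => h.val v ((hc v).1 hv)
  const := h.const
  red_const := h.red_const
  unif := h.unif

/-- a place of the chart with value compatibility towards `Q` is centred at `𝔫_Q`
(good places: `hrel` = helper6's `ttrp_rel`). -/
theorem ttal_cen_of_rel (u : F) (v : Place K F) (hvu : ∃ a : A, GrdVal v u (a : K))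
    (hrel : ∀ b : ↥B, ∃ a : A, GrdVal v (b : F) (a : K) ∧
      GrdVal Q (red ⟨b, hBO b.2⟩) (residue A a)) :
    ttruCen A B u (ttalN O2 B hBO red Q) v := by
  refine ⟨hvu, fun b hb => ?_⟩
  obtain ⟨a, ha, haQ⟩ := hrel b
  refine ⟨a, ?_, ha⟩
  have h0 := grdg_val_unique Q haQ (ttal_mem_N O2 B hBO red Q b hb)
  exact (residue_eq_zero_iff _).1 h0

/-- **uniqueness of the centre** : a place of `F / K` is centred at `𝔫_Q` for at most one place
`Q` of the chart, among places separated by `red B`. -/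
theorem ttal_cen_unique (u : F) (hconst : ∀ a : A, algebraMap K F (a : K) ∈ B)
    (hrc : ∀ (a : A) (h : algebraMap K F (a : K) ∈ O2),
      red ⟨algebraMap K F (a : K), h⟩ = algebraMap (ResidueField A) Fk (residue A a))
    (Q' : Place (ResidueField A) Fk)
    (hvalQ : ∀ b : ↥B, ∃ c : ResidueField A, GrdVal Q (red ⟨b, hBO b.2⟩) c)
    (hvalQ' : ∀ b : ↥B, ∃ c : ResidueField A, GrdVal Q' (red ⟨b, hBO b.2⟩) c)
    (v : Place K F) (hv : ttruCen A B u (ttalN O2 B hBO red Q) v)
    (hv' : ttruCen A B u (ttalN O2 B hBO red Q') v) (b : ↥B)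
    (hb : GrdVal Q (red ⟨b, hBO b.2⟩) 0) : GrdVal Q' (red ⟨b, hBO b.2⟩) 0 := by
  obtain ⟨a, ha, haQ⟩ := ttal_cen_val O2 B hBO red Q u hconst hrc hvalQ v hv b
  obtain ⟨a', ha', haQ'⟩ := ttal_cen_val O2 B hBO red Q' u hconst hrc hvalQ' v hv' b
  have h1 : (a : K) = a' := grdg_val_unique v ha ha'
  have h2 : a = a' := Subtype.ext h1
  have h3 : residue A a = 0 := grdg_val_unique Q haQ hb
  rw [← h2, h3] at haQ'
  exact haQ'

/-- a place at which an element of `B ∩ ker red` has a unit value is centred at NO point of the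
component (`red s = 0`, `s(v) ∈ A^×` : the good places of the other component, with `s = u₁` resp.
`u₂`). -/
theorem ttal_not_cen_of_unit (u : F) (v : Place K F) (s : ↥B) (hs : red ⟨s, hBO s.2⟩ = 0)
    (a : A) (ha : GrdVal v (s : F) (a : K)) (hau : a ∉ maximalIdeal A) :
    ¬ ttruCen A B u (ttalN O2 B hBO red Q) v := by
  rintro ⟨-, hcen⟩
  have hsN : s ∈ ttalN O2 B hBO red Q := by
    intro c
    have h1 : (⟨((c * s : ↥B) : F), hBO (c * s).2⟩ : O2) = ⟨c, hBO c.2⟩ * ⟨s, hBO s.2⟩ := rfl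
    rw [h1, map_mul, hs, mul_zero]
    exact (grdg_val_zero_iff Q 0).2 (zero_mem _)
  obtain ⟨m, hm, hmv⟩ := hcen s hsN
  have h1 : (a : K) = m := grdg_val_unique v ha hmv
  have h2 : a = m := Subtype.ext h1
  exact hau (h2 ▸ hm)

end IntoBad

end Fermat.Agent.TT
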