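import Mathlib
import Fermat.Agent.G.Red.Gauss
import Fermat.Agent.G.Red.Lift
import Fermat.Agent.V.Div.Modular
import Fermat.Agent.TT.Alpha.IntoBad
import Fermat.Agent.TT.Alpha.IntPts

/-!
# Program TT (S33), (R-in) = INTO : the package `TtriPt` at every closed point of a chart of
`X₀(M p)`, ONE INDEX at a time (prefix `ttal`)

Owner: helper29 (TT-PM R34(4)).  Namespace `Fermat.Agent.TT`.

The one-index interface of Layer B (helper6 `TtrpChart`, fields `base_mem`, `red_base`,
`int_mem`) : `φ : F_ℚ̄(M) →ₐ F_ℚ̄(M p)` (`α` or `β`), `V ⊂ F_ℚ̄(M p)` a subring with a reduction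
`red : V →+* F_k(M)` such that `φ (grdO M 𝔸) ⊂ V`, `red ∘ φ = grdRed M 𝔸`, and the chart ring
`B = grdB (M p) 𝔸 (φ u₀) ≤ V`, `u₀ = grdQ M hc.mem` for a chart `hc : GrdChart M 𝔸 υ` of level `M`.

* `ttal_chart_red_int` : `red B ⊂ intRing k ū` (INTO);
* `ttal_chart_lift`    : `intRing k ū ⊂ red B` (ONTO, main `grd_lift`);
* `ttal_chart_valQ`, `ttal_chart_unif`, `ttal_chart_sep` : values, a uniformiser, separation at the
  places `Q` of the chart (`ū ∈ 𝒪_Q`);
* **`ttal_pt_chart`** : `TtriPt 𝔸 O2 B hBO (red ∘ incl) (ttruCen 𝔸 B (φ u₀) 𝔫_Q) Q` for EVERY place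
  `Q` of the chart, from the two inputs of (LOC) (`hBreg`, `hsat`), `K`-rationality of places
  (`hvalK`) and integrality of values (`hvalA`);
* `ttal_chart_cen_unique` : a place of `F_ℚ̄(M p)` is centred at `𝔫_Q` for at most one `Q`.
-/

set_option autoImplicit false
set_option linter.unusedSectionVars false
set_option linter.unusedVariables false
set_option linter.style.haveILetI false
set_option synthInstance.maxHeartbeats 400000

noncomputable section

namespace Fermat.Agent.TT

open ModularCurve AlgebraicCurve IsLocalRing Polynomial Fermat.Agent.S18 Fermat.Agent.S24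
  Fermat.Agent.G Fermat.Agent.FF

local notation "Qb" => AlgebraicClosure ℚ

section Chart

variable {M p : ℕ} [NeZero M] [NeZero (M * p)] {A : ValuationSubring Qb}
variable (φ : modularFunctionFieldBar M →ₐ[Qb] modularFunctionFieldBar (M * p))
variable {υ : LaurentSeries ℤ} (hυ : GrdSerMem M υ)
variable (V : Subring (modularFunctionFieldBar (M * p)))
variable (red : ↥V →+* modularFunctionFieldFullC (ResidueField A) M)
variable (base_mem : ∀ y ∈ grdO M A, φ y ∈ V)
variable (red_base : ∀ (y : modularFunctionFieldBar M) (hy : y ∈ grdO M A),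
    red ⟨φ y, base_mem y hy⟩ = grdRed M A ⟨y, hy⟩)

/-- `φ` commutes with the constants of `𝔸`. -/
theorem ttal_chart_incl (a : A) : φ (grdInclA M A a) = grdInclA (M * p) A a := by
  show φ (algebraMap Qb (modularFunctionFieldBar M) (a : Qb)) =
    algebraMap Qb (modularFunctionFieldBar (M * p)) (a : Qb)
  exact φ.commutes _

/-- `φ ∘ (a ↦ a(u₀)) = (a ↦ a(φ u₀))`. -/
theorem ttal_chart_eval (u₀ : modularFunctionFieldBar M) :
    (φ : modularFunctionFieldBar M →+* modularFunctionFieldBar (M * p)).comp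
      (eval₂RingHom (grdInclA M A) u₀) = eval₂RingHom (grdInclA (M * p) A) (φ u₀) := by
  apply Polynomial.ringHom_ext
  · intro a
    rw [RingHom.comp_apply, coe_eval₂RingHom, eval₂_C, coe_eval₂RingHom, eval₂_C]
    exact ttal_chart_incl φ a
  · rw [RingHom.comp_apply, coe_eval₂RingHom, eval₂_X, coe_eval₂RingHom, eval₂_X]
    rfl

/-- `φ` maps the chart ring of `u₀` into the chart ring of `φ u₀`. -/
theorem ttal_chart_map_isInt {u₀ x : modularFunctionFieldBar M} (hx : GrdIsInt M A u₀ x) :
    GrdIsInt (M * p) A (φ u₀) (φ x) := by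
  obtain ⟨P, hP, hPx⟩ := hx
  refine ⟨P, hP, ?_⟩
  rw [← ttal_chart_eval φ u₀]
  have := Polynomial.hom_eval₂ P (eval₂RingHom (grdInclA M A) u₀)
    (φ : modularFunctionFieldBar M →+* modularFunctionFieldBar (M * p)) x
  rw [hPx, map_zero] at this
  exact this.symm

/-- constants lie in the chart ring. -/
theorem ttal_chart_const (u : modularFunctionFieldBar (M * p)) (a : A) :
    algebraMap Qb (modularFunctionFieldBar (M * p)) (a : Qb) ∈ grdB (M * p) A u := by
  refine ⟨X - C (C a), monic_X_sub_C _, ?_⟩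
  rw [eval₂_sub, eval₂_X, eval₂_C, coe_eval₂RingHom, eval₂_C]
  exact sub_self _

/-- the coordinate lies in its chart ring. -/
theorem ttal_chart_u_mem (u : modularFunctionFieldBar (M * p)) : u ∈ grdB (M * p) A u := by
  refine ⟨X - C X, monic_X_sub_C _, ?_⟩
  rw [eval₂_sub, eval₂_X, eval₂_C, coe_eval₂RingHom, eval₂_X]
  exact sub_self _

include red_base in
/-- `red` of a constant is its residue. -/
theorem ttal_chart_rc (a : A)
    (h : algebraMap Qb (modularFunctionFieldBar (M * p)) (a : Qb) ∈ V) :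
    red ⟨algebraMap Qb (modularFunctionFieldBar (M * p)) (a : Qb), h⟩ =
      algebraMap (ResidueField A) (modularFunctionFieldFullC (ResidueField A) M)
        (residue A a) := by
  have h1 : (⟨algebraMap Qb (modularFunctionFieldBar (M * p)) (a : Qb), h⟩ : ↥V) =
      ⟨φ (algebraMap Qb (modularFunctionFieldBar M) (a : Qb)),
        base_mem _ (grdO_algebraMap_mem M A a)⟩ := Subtype.ext (φ.commutes _).symm
  rw [h1, red_base _ (grdO_algebraMap_mem M A a), grdRed_algebraMap]

include red_base in
/-- **INTO** : `red B ⊂ intRing k ū`. -/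
theorem ttal_chart_red_int (x : ↥V)
    (hx : GrdIsInt (M * p) A (φ (grdQ M hυ)) (x : modularFunctionFieldBar (M * p))) :
    (red x : modularFunctionFieldFullC (ResidueField A) M) ∈
      intRing (ResidueField A) (grdK M A hυ) := by
  obtain ⟨P, hP, hPx⟩ := hx
  have hu := grdQ_mem_grdO M A hυ
  have hmem : ∀ a : A[X], eval₂RingHom (grdInclA (M * p) A) (φ (grdQ M hυ)) a ∈ V := by
    intro a
    rw [← ttal_chart_eval φ (grdQ M hυ), RingHom.comp_apply]
    exact base_mem _ (grdga_eval_mem M A hu a)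
  let φ' : A[X] →+* ↥V :=
    (eval₂RingHom (grdInclA (M * p) A) (φ (grdQ M hυ))).codRestrict V hmem
  let ū' : ↥(Algebra.adjoin (ResidueField A) {grdK M A hυ}) :=
    ⟨grdK M A hυ, Algebra.subset_adjoin rfl⟩
  let ψ : A[X] →+* ↥(Algebra.adjoin (ResidueField A) {grdK M A hυ}) :=
    eval₂RingHom ((algebraMap (ResidueField A)
      ↥(Algebra.adjoin (ResidueField A) {grdK M A hυ})).comp (residue A)) ū'
  have hcomp : red.comp φ' =
      (algebraMap ↥(Algebra.adjoin (ResidueField A) {grdK M A hυ})
        (modularFunctionFieldFullC (ResidueField A) M)).comp ψ := by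
    apply Polynomial.ringHom_ext
    · intro a
      have hcV : algebraMap Qb (modularFunctionFieldBar (M * p)) (a : Qb) ∈ V := by
        rw [← φ.commutes]
        exact base_mem _ (grdO_algebraMap_mem M A a)
      have h1 : φ' (C a) = ⟨algebraMap Qb (modularFunctionFieldBar (M * p)) (a : Qb), hcV⟩ := by
        apply Subtype.ext
        show eval₂RingHom (grdInclA (M * p) A) (φ (grdQ M hυ)) (C a) = _
        rw [coe_eval₂RingHom, eval₂_C]
        rfl
      rw [RingHom.comp_apply, h1, ttal_chart_rc φ V red base_mem red_base, RingHom.comp_apply]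
      show _ = algebraMap _ _ (eval₂ _ ū' (C a))
      rw [eval₂_C]
      rfl
    · have h1 : φ' X = ⟨φ (grdQ M hυ), base_mem _ hu⟩ := by
        apply Subtype.ext
        show eval₂RingHom (grdInclA (M * p) A) (φ (grdQ M hυ)) X = _
        rw [coe_eval₂RingHom, eval₂_X]
      rw [RingHom.comp_apply, h1, red_base _ hu, grdRed_grdQ, RingHom.comp_apply]
      show _ = algebraMap _ _ (eval₂ _ ū' X)
      rw [eval₂_X]
      rfl
  have hzero : eval₂ φ' x P = 0 := by
    apply Subtype.ext
    have := Polynomial.hom_eval₂ P φ' V.subtype x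
    rw [show (V.subtype (eval₂ φ' x P) : modularFunctionFieldBar (M * p)) =
      ((eval₂ φ' x P : ↥V) : modularFunctionFieldBar (M * p)) from rfl] at this
    rw [this]
    have hc : V.subtype.comp φ' =
        eval₂RingHom (grdInclA (M * p) A) (φ (grdQ M hυ)) := by
      ext <;> rfl
    rw [hc]
    exact hPx
  refine ⟨P.map ψ, hP.map _, ?_⟩
  rw [eval₂_map, ← hcomp, ← Polynomial.hom_eval₂, hzero, map_zero]

end Chart

section Points

variable {M : ℕ} [NeZero M] {p : ℕ} [Fact p.Prime] [NeZero (M * p)] {A : ValuationSubring Qb}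
variable (φ : modularFunctionFieldBar M →ₐ[Qb] modularFunctionFieldBar (M * p))
variable {υ : LaurentSeries ℤ} (hc : GrdChart M A υ)
variable (V : Subring (modularFunctionFieldBar (M * p)))
variable (red : ↥V →+* modularFunctionFieldFullC (ResidueField A) M)
variable (base_mem : ∀ y ∈ grdO M A, φ y ∈ V)
variable (red_base : ∀ (y : modularFunctionFieldBar M) (hy : y ∈ grdO M A),
    red ⟨φ y, base_mem y hy⟩ = grdRed M A ⟨y, hy⟩)
variable (int_mem : grdB (M * p) A (φ (grdQ M hc.mem)) ≤ V)

include red_base in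
/-- **ONTO** : `intRing k ū ⊂ red B` (main `grd_lift` : normality of the special fibre of the
chart of level `M`). -/
theorem ttal_chart_lift (hpM : ¬ p ∣ M) (hA : A.LiesOverPrime p)
    (c : ↥(intRing (ResidueField A) (grdK M A hc.mem))) :
    ∃ (t : modularFunctionFieldBar (M * p)) (ht : t ∈ grdB (M * p) A (φ (grdQ M hc.mem))),
      red ⟨t, int_mem ht⟩ = (c : modularFunctionFieldFullC (ResidueField A) M) := by
  obtain ⟨x₀, hx₀, hred⟩ := grd_lift M A hpM hA hc c
  refine ⟨φ (x₀ : modularFunctionFieldBar M), ttal_chart_map_isInt φ hx₀, ?_⟩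
  rw [← hred]
  exact red_base _ x₀.2

include red_base in
/-- the elements of `red B` have values in `k` at the places of the chart. -/
theorem ttal_chart_valQ
    (Q : Place (ResidueField A) (modularFunctionFieldFullC (ResidueField A) M))
    (hQ : grdK M A hc.mem ∈ Q.toValuationSubring)
    (b : ↥(grdB (M * p) A (φ (grdQ M hc.mem)))) :
    ∃ c : ResidueField A, GrdVal Q (red ⟨b, int_mem b.2⟩) c := by
  haveI := grd_isAlgClosed_residue A
  exact ttal_int_val hc.sepK Q hQ
    ⟨_, ttal_chart_red_int φ hc.mem V red base_mem red_base ⟨b, int_mem b.2⟩ b.2⟩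

include red_base in
/-- `red B` contains a uniformiser at every place of the chart. -/
theorem ttal_chart_unif (hpM : ¬ p ∣ M) (hA : A.LiesOverPrime p)
    (Q : Place (ResidueField A) (modularFunctionFieldFullC (ResidueField A) M))
    (hQ : grdK M A hc.mem ∈ Q.toValuationSubring) :
    ∃ t : ↥(grdB (M * p) A (φ (grdQ M hc.mem))), Q.ord (red ⟨t, int_mem t.2⟩) = 1 := by
  obtain ⟨f, hf⟩ := ttal_exists_unif hc.sepK Q hQ
  obtain ⟨t, ht, htf⟩ := ttal_chart_lift φ hc V red base_mem red_base int_mem hpM hA f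
  exact ⟨⟨t, ht⟩, by rw [htf]; exact hf⟩

include red_base in
/-- `red B` separates the places of the chart. -/
theorem ttal_chart_sep (hpM : ¬ p ∣ M) (hA : A.LiesOverPrime p)
    (Q Q' : Place (ResidueField A) (modularFunctionFieldFullC (ResidueField A) M))
    (hQ : grdK M A hc.mem ∈ Q.toValuationSubring)
    (hQ' : grdK M A hc.mem ∈ Q'.toValuationSubring) (hne : Q ≠ Q') :
    ∃ b : ↥(grdB (M * p) A (φ (grdQ M hc.mem))), GrdVal Q (red ⟨b, int_mem b.2⟩) 0 ∧
      ¬ GrdVal Q' (red ⟨b, int_mem b.2⟩) 0 := by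
  obtain ⟨f, hf, hf'⟩ := ttal_exists_sep hc.sepK Q Q' hQ hQ' hne
  obtain ⟨t, ht, htf⟩ := ttal_chart_lift φ hc V red base_mem red_base int_mem hpM hA f
  exact ⟨⟨t, ht⟩, by rw [htf]; exact hf, by rw [htf]; exact hf'⟩

variable (O2 : Subring (modularFunctionFieldBar (M * p))) (hOV : O2 ≤ V)
  (hBO : grdB (M * p) A (φ (grdQ M hc.mem)) ≤ O2)

include red_base int_mem in
/-- **THE LOCAL PACKAGE AT EVERY PLACE `Q` OF THE CHART** (good point, ordinary `F_{p²}`-point,
cusp in the chart of `u⁻¹` alike), with the intrinsic centre : from the two inputs of (LOC),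
`K`-rationality of places and integrality of values. -/
theorem ttal_pt_chart (hpM : ¬ p ∣ M) (hA : A.LiesOverPrime p)
    (hBreg : ∀ b ∈ grdB (M * p) A (φ (grdQ M hc.mem)),
      ∀ v : Place Qb (modularFunctionFieldBar (M * p)),
        φ (grdQ M hc.mem) ∈ v.toValuationSubring → b ∈ v.toValuationSubring)
    (hsat : ∀ x ∈ O2, (∀ v : Place Qb (modularFunctionFieldBar (M * p)),
      φ (grdQ M hc.mem) ∈ v.toValuationSubring → x ∈ v.toValuationSubring) →
        x ∈ grdB (M * p) A (φ (grdQ M hc.mem)))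
    (hvalK : ∀ (v : Place Qb (modularFunctionFieldBar (M * p)))
      (x : modularFunctionFieldBar (M * p)), x ∈ v.toValuationSubring → ∃ c : Qb, GrdVal v x c)
    (hvalA : ∀ v : Place Qb (modularFunctionFieldBar (M * p)),
      (∃ a : A, GrdVal v (φ (grdQ M hc.mem)) (a : Qb)) →
        ∀ b : ↥(grdB (M * p) A (φ (grdQ M hc.mem))), ∀ c : Qb,
          GrdVal v (b : modularFunctionFieldBar (M * p)) c → c ∈ A)
    (Q : Place (ResidueField A) (modularFunctionFieldFullC (ResidueField A) M))
    (hQ : grdK M A hc.mem ∈ Q.toValuationSubring) :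
    TtriPt A O2 (grdB (M * p) A (φ (grdQ M hc.mem))) hBO (red.comp (Subring.inclusion hOV))
      (ttruCen A (grdB (M * p) A (φ (grdQ M hc.mem))) (φ (grdQ M hc.mem))
        (ttalN O2 (grdB (M * p) A (φ (grdQ M hc.mem))) hBO
          (red.comp (Subring.inclusion hOV)) Q)) Q := by
  haveI := Fermat.Agent.V.v27dv_isCurveOver_modular (M * p)
  haveI : HasPrincipalDivisors Qb ↥(modularFunctionFieldBar (M * p)) :=
    IsCurveOver.hasPrincipalDivisors
  refine ttal_pt_of_cen O2 _ hBO (red.comp (Subring.inclusion hOV)) Q (φ (grdQ M hc.mem))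
    (ttal_chart_u_mem _) hBreg hsat (ttal_chart_const _) ?_ hvalK hvalA ?_ ?_
  · intro a h
    exact ttal_chart_rc φ V red base_mem red_base a (hOV h)
  · intro b
    exact ttal_chart_valQ φ hc V red base_mem red_base int_mem Q hQ b
  · exact ttal_chart_unif φ hc V red base_mem red_base int_mem hpM hA Q hQ

include red_base int_mem in
/-- **uniqueness of the centre** : a place of `F_ℚ̄(M p)` is centred at `𝔫_Q` for at most one
place `Q` of the chart. -/
theorem ttal_chart_cen_unique (hpM : ¬ p ∣ M) (hA : A.LiesOverPrime p)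
    (Q Q' : Place (ResidueField A) (modularFunctionFieldFullC (ResidueField A) M))
    (hQ : grdK M A hc.mem ∈ Q.toValuationSubring)
    (hQ' : grdK M A hc.mem ∈ Q'.toValuationSubring)
    (v : Place Qb (modularFunctionFieldBar (M * p)))
    (hv : ttruCen A (grdB (M * p) A (φ (grdQ M hc.mem))) (φ (grdQ M hc.mem))
      (ttalN O2 (grdB (M * p) A (φ (grdQ M hc.mem))) hBO
        (red.comp (Subring.inclusion hOV)) Q) v)
    (hv' : ttruCen A (grdB (M * p) A (φ (grdQ M hc.mem))) (φ (grdQ M hc.mem))
      (ttalN O2 (grdB (M * p) A (φ (grdQ M hc.mem))) hBO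
        (red.comp (Subring.inclusion hOV)) Q') v) : Q = Q' := by
  by_contra hne
  obtain ⟨b, hb, hb'⟩ := ttal_chart_sep φ hc V red base_mem red_base int_mem hpM hA Q Q' hQ hQ' hne
  refine hb' (ttal_cen_unique O2 _ hBO (red.comp (Subring.inclusion hOV)) Q (φ (grdQ M hc.mem))
    (ttal_chart_const _) ?_ Q' ?_ ?_ v hv hv' b hb)
  · intro a h
    exact ttal_chart_rc φ V red base_mem red_base a (hOV h)
  · intro b
    exact ttal_chart_valQ φ hc V red base_mem red_base int_mem Q hQ b
  · intro b
    exact ttal_chart_valQ φ hc V red base_mem red_base int_mem Q' hQ' b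

end Points

end Fermat.Agent.TT
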