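/-
Program TT (S33), leaf ALPHA, field `const` of `TtalBridge`, part (V), ABSTRACT FORM.

Owner: helper15.  Prefix `ttalv`.  Imports Mathlib + main `G/Red/Val` (the value relation `GrdVal`).

`A` a valuation ring of `K`, `F / K` a function field, `B ≤ O2` subrings of `F` (chart ring and
two-valuation Gauss ring), `red : O2 →+* Fk` the reduction (`Fk` any commutative algebra over the
residue field `k` of `A`, e.g. `Fk₁ × Fk₂`).  `P` a place of `F / K` at which every element of `B`
has a value in `A`.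

(V) : if `x ∈ O2` reduces to a NONZERO CONSTANT `c` and is a fraction `b / s` with `b, s ∈ B`,
`s(P)` a unit of `A` (the output of (LOC) at the centre of `P`), then `x(P) ∈ A` and
`x(P) ≡ c mod 𝔪_A`; in particular `ord_P x = 0`.

The only input from the two-valuation layer is (A8)(iii) `ker (red|B) = 𝔪_A B`.
-/
import Mathlib
import Fermat.Agent.G.Red.Val

set_option autoImplicit false
set_option linter.unusedSectionVars false
set_option linter.unusedVariables false

noncomputable section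

namespace Fermat.Agent.TT

open AlgebraicCurve IsLocalRing Fermat.Agent.G Fermat.Agent.S24

section ConstV

variable {K F : Type*} [Field K] [Field F] [Algebra K F]

/-- a function with a nonzero value at `P` has valuation one. -/
theorem ttalv_valuation_eq_one (P : Place K F) {s : F} {σ : K} (h : GrdVal P s σ) (hσ : σ ≠ 0) :
    P.toValuationSubring.valuation s = 1 := by
  have h1 : P.toValuationSubring.valuation (s - algebraMap K F σ) < 1 :=
    (ValuationSubring.mem_nonunits_iff _).1 h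
  have h2 : P.toValuationSubring.valuation (algebraMap K F σ) = 1 :=
    grdv_valuation_algebraMap P hσ
  have h3 : s = algebraMap K F σ + (s - algebraMap K F σ) := by ring
  rw [h3, Valuation.map_add_eq_of_lt_left _ (by rw [h2]; exact h1), h2]

/-- the value of an inverse. -/
theorem ttalv_val_inv (P : Place K F) {s : F} {σ : K} (h : GrdVal P s σ) (hσ : σ ≠ 0) :
    GrdVal P s⁻¹ σ⁻¹ := by
  have hv : P.toValuationSubring.valuation s = 1 := ttalv_valuation_eq_one P h hσ
  have hs0 : s ≠ 0 := by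
    rintro rfl
    rw [map_zero] at hv
    exact zero_ne_one hv
  have hσF : algebraMap K F σ ≠ 0 := fun h0 =>
    hσ ((algebraMap K F).injective (by rw [h0, map_zero]))
  show s⁻¹ - algebraMap K F σ⁻¹ ∈ _
  have e : s⁻¹ - algebraMap K F σ⁻¹ =
      -(s - algebraMap K F σ) * (s⁻¹ * (algebraMap K F σ)⁻¹) := by
    rw [map_inv₀]
    field_simp
    ring
  rw [e, ValuationSubring.mem_nonunits_iff, map_mul, map_mul, Valuation.map_neg, map_inv₀,
    map_inv₀, hv, grdv_valuation_algebraMap P hσ, inv_one, mul_one, mul_one]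
  exact (ValuationSubring.mem_nonunits_iff _).1 h

/-- a function with a nonzero value at `P` has order zero at `P`. -/
theorem ttalv_ord_eq_zero (P : Place K F) {x : F} {a : K} (h : GrdVal P x a) (ha : a ≠ 0) :
    P.ord x = 0 := by
  have hv : P.toValuationSubring.valuation x = 1 := ttalv_valuation_eq_one P h ha
  have hx0 : x ≠ 0 := by
    rintro rfl
    rw [map_zero] at hv
    exact zero_ne_one hv
  have h1 : 0 ≤ P.ord x := (grdg_mem_iff_ord P hx0).1 (grdg_val_mem P h)
  by_contra hne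
  have hpos : 0 < P.ord x := lt_of_le_of_ne h1 (Ne.symm hne)
  have h0 : GrdVal P x 0 := (grdg_val_zero_iff_ord P hx0).2 hpos
  exact ha (grdg_val_unique P h h0)

variable {Fk : Type*} [CommRing Fk] (A : ValuationSubring K) [Algebra (ResidueField A) Fk]

/-- **(V), abstract form.** -/
theorem ttalv_val (O2 B : Subring F) (hBO : B ≤ O2) (red : ↥O2 →+* Fk)
    (hconst : ∀ a : A, algebraMap K F (a : K) ∈ B)
    (hredc : ∀ a : A, red ⟨algebraMap K F (a : K), hBO (hconst a)⟩ =
      algebraMap (ResidueField A) Fk (residue A a))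
    (hker : ∀ (y : F) (hy : y ∈ B), red ⟨y, hBO hy⟩ = 0 →
      ∃ π : K, π ∈ A.nonunits ∧ ∃ y' ∈ B, y = algebraMap K F π * y')
    (P : Place K F) (hval : ∀ b ∈ B, ∃ a : A, GrdVal P b (a : K))
    (x : F) (hx : x ∈ O2) (c : ResidueField A) (hc : c ≠ 0)
    (hred : red ⟨x, hx⟩ = algebraMap (ResidueField A) Fk c)
    (s : F) (hs : s ∈ B) (hsP : ¬ ∃ m : K, m ∈ A.nonunits ∧ GrdVal P s m)
    (hsx : s * x ∈ B) :
    ∃ a : A, residue A a = c ∧ GrdVal P x (a : K) := by
  -- a lift of `c`
  obtain ⟨ct, hct⟩ := residue_surjective (R := A) c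
  -- `b - c̃ s` reduces to zero
  have hcs : algebraMap K F (ct : K) * s ∈ B := B.mul_mem (hconst ct) hs
  have hy : s * x - algebraMap K F (ct : K) * s ∈ B := B.sub_mem hsx hcs
  have hy0 : red ⟨s * x - algebraMap K F (ct : K) * s, hBO hy⟩ = 0 := by
    have e : (⟨s * x - algebraMap K F (ct : K) * s, hBO hy⟩ : ↥O2) =
        ⟨s, hBO hs⟩ * ⟨x, hx⟩ - ⟨algebraMap K F (ct : K), hBO (hconst ct)⟩ * ⟨s, hBO hs⟩ := rfl
    rw [e, map_sub, map_mul, map_mul, hred, hredc, hct]
    ring
  obtain ⟨π, hπ, y', hy', hyy'⟩ := hker _ hy hy0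
  -- the values at `P`
  obtain ⟨σ, hσ⟩ := hval s hs
  obtain ⟨β', hβ'⟩ := hval y' hy'
  have hσu : (σ : K) ∉ A.nonunits := fun h => hsP ⟨σ, h, hσ⟩
  have hσ0 : (σ : K) ≠ 0 := by
    intro h0
    apply hσu
    rw [h0]
    exact (ValuationSubring.mem_nonunits_iff _).2 (by rw [map_zero]; exact zero_lt_one)
  -- `σ⁻¹ ∈ A`
  have hσinv : (σ : K)⁻¹ ∈ A := by
    rcases A.mem_or_inv_mem ((σ : K)⁻¹) with h | h
    · exact h
    · rw [inv_inv] at h
      by_contra hn
      apply hσu
      rw [ValuationSubring.mem_nonunits_iff_or]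
      exact Or.inr hn
  have hπA : π ∈ A := (A.mem_nonunits_iff_exists_mem_maximalIdeal.mp hπ).1
  -- `x = (c̃ s + π y') s⁻¹`
  have hs0 : s ≠ 0 := by
    rintro rfl
    apply hσ0
    have := grdg_val_unique P hσ (grdg_val_algebraMap P (0 : K) |> fun h => by simpa using h)
    exact this
  have hx' : x = (algebraMap K F (ct : K) * s + algebraMap K F π * y') * s⁻¹ := by
    rw [← hyy']
    field_simp
    ring
  have hv1 : GrdVal P (algebraMap K F (ct : K) * s + algebraMap K F π * y')
      ((ct : K) * σ + π * β') :=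
    grdg_val_add P (grdg_val_mul P (grdg_val_algebraMap P _) hσ)
      (grdg_val_mul P (grdg_val_algebraMap P _) hβ')
  have hv2 : GrdVal P x (((ct : K) * σ + π * β') * (σ : K)⁻¹) := by
    rw [hx']
    exact grdg_val_mul P hv1 (ttalv_val_inv P hσ hσ0)
  -- the value lies in `A` and reduces to `c`
  have hmem : ((ct : K) * σ + π * β') * (σ : K)⁻¹ ∈ A :=
    A.mul_mem _ _ (A.add_mem _ _ (A.mul_mem _ _ ct.2 σ.2) (A.mul_mem _ _ hπA β'.2)) hσinv
  refine ⟨⟨_, hmem⟩, ?_, hv2⟩
  rw [← hct]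
  rw [← sub_eq_zero, ← map_sub, residue_eq_zero_iff]
  have hπm : (⟨π, hπA⟩ : A) ∈ maximalIdeal A :=
    (A.mem_nonunits_iff_exists_mem_maximalIdeal.mp hπ).2
  have e : (⟨((ct : K) * σ + π * β') * (σ : K)⁻¹, hmem⟩ : A) - ct =
      ⟨π, hπA⟩ * (β' * ⟨(σ : K)⁻¹, hσinv⟩) := by
    apply Subtype.ext
    push_cast
    field_simp
    ring
  rw [e]
  exact Ideal.mul_mem_right _ _ hπm

/-- **(V), order form** : `ord_P x = 0`. -/
theorem ttalv_ord (O2 B : Subring F) (hBO : B ≤ O2) (red : ↥O2 →+* Fk)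
    (hconst : ∀ a : A, algebraMap K F (a : K) ∈ B)
    (hredc : ∀ a : A, red ⟨algebraMap K F (a : K), hBO (hconst a)⟩ =
      algebraMap (ResidueField A) Fk (residue A a))
    (hker : ∀ (y : F) (hy : y ∈ B), red ⟨y, hBO hy⟩ = 0 →
      ∃ π : K, π ∈ A.nonunits ∧ ∃ y' ∈ B, y = algebraMap K F π * y')
    (P : Place K F) (hval : ∀ b ∈ B, ∃ a : A, GrdVal P b (a : K))
    (x : F) (hx : x ∈ O2) (c : ResidueField A) (hc : c ≠ 0)
    (hred : red ⟨x, hx⟩ = algebraMap (ResidueField A) Fk c)
    (s : F) (hs : s ∈ B) (hsP : ¬ ∃ m : K, m ∈ A.nonunits ∧ GrdVal P s m)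
    (hsx : s * x ∈ B) : P.ord x = 0 := by
  obtain ⟨a, hac, hxa⟩ := ttalv_val A O2 B hBO red hconst hredc hker P hval x hx c hc hred s hs
    hsP hsx
  refine ttalv_ord_eq_zero P hxa ?_
  intro h0
  apply hc
  rw [← hac]
  have : a = 0 := Subtype.ext h0
  rw [this, map_zero]

end ConstV

end Fermat.Agent.TT
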