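/-
Program TT (S33), assembly field `TtgModel.const`, part (V) AT A BAD PLACE, from chart data.

Owner: helper15.  Prefix `ttalv`.  Imports my `ConstV` + helper23's `TT/Red2/Into` (`ttri_loc`).

`B ≤ O2` the chart ring of the coordinate `u`, `v` a place of the chart (`u(v) ∈ A`).  The closed
point of `v` on `B` is `𝔫_v = {b ∈ B | b(v) ∈ 𝔪_A}`; `cen v'` : `v'` is a place of the chart with
the same closed point.  (LOC) (`ttri_loc`) with `S = B ∖ 𝔫_v` needs NO input from the special
fibre : a chart place with another closed point is separated from `v` by a VALUE.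

`ttalv_bad_ord` : if every place with the closed point of `v` is bad, `x ∈ O2` has no pole at the
bad places and reduces to a nonzero constant, then `ord_v x = 0`  (= (V), the first conjunct of
`const`, at `v`).
-/
import Mathlib
import Fermat.Agent.TT.Alpha.ConstV
import Fermat.Agent.TT.Red2.Into

set_option autoImplicit false
set_option linter.unusedSectionVars false
set_option linter.unusedVariables false

noncomputable section

namespace Fermat.Agent.TT

open AlgebraicCurve IsLocalRing Fermat.Agent.G Fermat.Agent.S24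

section Nonunits

variable {K : Type*} [Field K] {A : ValuationSubring K}

theorem ttalv_nu_add {x y : K} (hx : x ∈ A.nonunits) (hy : y ∈ A.nonunits) :
    x + y ∈ A.nonunits := by
  rw [ValuationSubring.mem_nonunits_iff] at *
  exact lt_of_le_of_lt (A.valuation.map_add x y) (max_lt hx hy)

theorem ttalv_nu_mul {x y : K} (hx : x ∈ A.nonunits) (hy : y ∈ A) : x * y ∈ A.nonunits := by
  rw [ValuationSubring.mem_nonunits_iff] at *
  rw [← ValuationSubring.valuation_le_one_iff] at hy
  rw [map_mul]
  exact lt_of_le_of_lt (mul_le_of_le_one_right' hy) hx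

theorem ttalv_nu_zero : (0 : K) ∈ A.nonunits := by
  rw [ValuationSubring.mem_nonunits_iff, map_zero]
  exact zero_lt_one

theorem ttalv_one_not_nu : (1 : K) ∉ A.nonunits := by
  rw [ValuationSubring.mem_nonunits_iff, map_one]
  exact lt_irrefl _

/-- `a ∉ 𝔪`, `n ∈ 𝔪` ⟹ `a - n ∉ 𝔪`. -/
theorem ttalv_sub_not_nu {a n : K} (ha : a ∉ A.nonunits) (hn : n ∈ A.nonunits) :
    a - n ∉ A.nonunits := by
  intro h
  apply ha
  have := ttalv_nu_add h hn
  rwa [sub_add_cancel] at this

/-- a non-nonunit of `A` lying in `A` has its inverse in `A`. -/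
theorem ttalv_inv_mem {a : K} (ha : a ∉ A.nonunits) : a⁻¹ ∈ A := by
  by_contra hn
  exact ha ((ValuationSubring.mem_nonunits_iff_or A).2 (Or.inr hn))

/-- the product of two units of `A` is not in `𝔪`. -/
theorem ttalv_mul_not_nu {a b : K} (ha : a ∈ A) (hb : b ∈ A) (ha' : a ∉ A.nonunits)
    (hb' : b ∉ A.nonunits) : a * b ∉ A.nonunits := by
  intro h
  have h1 : a⁻¹ ∈ A := ttalv_inv_mem ha'
  have h2 : a * b * a⁻¹ ∈ A.nonunits := ttalv_nu_mul h h1
  have ha0 : a ≠ 0 := by
    rintro rfl
    exact ha' ttalv_nu_zero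
  have h3 : a * b * a⁻¹ = b := by field_simp
  rw [h3] at h2
  exact hb' h2

end Nonunits

section Bad

variable {K F : Type*} [Field K] [Field F] [Algebra K F]
variable {Fk : Type*} [CommRing Fk] (A : ValuationSubring K) [Algebra (ResidueField A) Fk]

/-- the value of an element of the chart ring at `v` lies in `𝔪_A`. -/
def TtalvIn (v : Place K F) (b : F) : Prop := ∃ m : K, m ∈ A.nonunits ∧ GrdVal v b m

/-- the multiplicative set `B ∖ 𝔫_v`. -/
def ttalvS (B : Subring F) (v : Place K F) (hval : ∀ b ∈ B, ∃ a : A, GrdVal v b (a : K)) :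
    Submonoid B where
  carrier := {s | ¬ TtalvIn A v (s : F)}
  one_mem' := by
    rintro ⟨m, hm, hv⟩
    have h1 : GrdVal v (1 : F) (1 : K) := by
      have := grdg_val_algebraMap v (1 : K)
      rwa [map_one] at this
    have : m = 1 := grdg_val_unique v hv h1
    rw [this] at hm
    exact ttalv_one_not_nu hm
  mul_mem' := by
    rintro s t hs ht ⟨m, hm, hv⟩
    obtain ⟨σ, hσ⟩ := hval s s.2
    obtain ⟨τ, hτ⟩ := hval t t.2
    have hσ' : (σ : K) ∉ A.nonunits := fun h => hs ⟨σ, h, hσ⟩
    have hτ' : (τ : K) ∉ A.nonunits := fun h => ht ⟨τ, h, hτ⟩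
    have h1 : GrdVal v ((s : F) * (t : F)) ((σ : K) * τ) := grdg_val_mul v hσ hτ
    have : m = (σ : K) * τ := grdg_val_unique v hv h1
    rw [this] at hm
    exact ttalv_mul_not_nu σ.2 τ.2 hσ' hτ' hm

/-- **(V) AT A BAD PLACE OF A CHART.** -/
theorem ttalv_bad_ord [HasPrincipalDivisors K F] (O2 B : Subring F) (hBO : B ≤ O2)
    (red : ↥O2 →+* Fk)
    (hconst : ∀ a : A, algebraMap K F (a : K) ∈ B)
    (hredc : ∀ a : A, red ⟨algebraMap K F (a : K), hBO (hconst a)⟩ =
      algebraMap (ResidueField A) Fk (residue A a))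
    (hker : ∀ (y : F) (hy : y ∈ B), red ⟨y, hBO hy⟩ = 0 →
      ∃ π : K, π ∈ A.nonunits ∧ ∃ y' ∈ B, y = algebraMap K F π * y')
    (u : F) (hu : u ∈ B)
    (hBreg : ∀ b ∈ B, ∀ v' : Place K F, u ∈ v'.toValuationSubring → b ∈ v'.toValuationSubring)
    (hsat : ∀ x ∈ O2, (∀ v' : Place K F, u ∈ v'.toValuationSubring → x ∈ v'.toValuationSubring) →
      x ∈ B)
    (hres : ∀ (v' : Place K F) (y : F), y ∈ v'.toValuationSubring → ∃ a : K, GrdVal v' y a)
    (hchart : ∀ v' : Place K F, (∃ a : A, GrdVal v' u (a : K)) →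
      ∀ b ∈ B, ∃ a : A, GrdVal v' b (a : K))
    (v : Place K F) (hv : ∃ a : A, GrdVal v u (a : K))
    (bad : Place K F → Prop)
    (hbadcen : ∀ v' : Place K F, (∃ a : A, GrdVal v' u (a : K)) →
      (∀ b ∈ B, TtalvIn A v' b ↔ TtalvIn A v b) → bad v')
    (x : F) (hx : x ∈ O2) (hxbad : ∀ v' : Place K F, bad v' → 0 ≤ v'.ord x)
    (c : ResidueField A) (hc : c ≠ 0) (hred : red ⟨x, hx⟩ = algebraMap (ResidueField A) Fk c) :
    v.ord x = 0 := by
  classical
  have hvalv := hchart v hv
  -- the centre predicate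
  set cen : Place K F → Prop := fun v' => (∃ a : A, GrdVal v' u (a : K)) ∧
    ∀ b ∈ B, TtalvIn A v' b ↔ TtalvIn A v b with hcen
  have hS0 : (0 : B) ∉ ttalvS A B v hvalv := by
    intro h
    apply h
    refine ⟨0, ttalv_nu_zero, ?_⟩
    have := grdg_val_algebraMap v (0 : K)
    rwa [map_zero] at this
  have hcu : ∀ v' : Place K F, cen v' → u ∈ v'.toValuationSubring := by
    rintro v' ⟨⟨a, ha⟩, -⟩
    exact grdg_val_mem v' ha
  -- the membership criterion at a chart place
  have hin : ∀ v' : Place K F, ∀ (b : F) (β : A), GrdVal v' b (β : K) →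
      (TtalvIn A v' b ↔ (β : K) ∈ A.nonunits) := by
    intro v' b β hβ
    constructor
    · rintro ⟨m, hm, hbm⟩
      rw [← grdg_val_unique v' hbm hβ]
      exact hm
    · intro h
      exact ⟨β, h, hβ⟩
  obtain ⟨av, hav⟩ := hv
  have hsep : ∀ v' : Place K F, ¬ cen v' → u ∈ v'.toValuationSubring →
      ∃ s : B, s ∈ ttalvS A B v hvalv ∧ (s : F) ∈ v'.toValuationSubring.nonunits := by
    intro v' hncen huv'
    obtain ⟨a', ha'⟩ := hres v' u huv'
    by_cases ha'A : a' ∈ A
    · -- `v'` is a place of the chart with another closed point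
      have hv'c : ∃ a : A, GrdVal v' u (a : K) := ⟨⟨a', ha'A⟩, ha'⟩
      have hvalv' := hchart v' hv'c
      have hnall : ¬ ∀ b ∈ B, TtalvIn A v' b ↔ TtalvIn A v b := fun h => hncen ⟨hv'c, h⟩
      have hex : ∃ b, ∃ _ : b ∈ B, ¬ (TtalvIn A v' b ↔ TtalvIn A v b) := by
        by_contra hcon
        apply hnall
        intro b hbB
        by_contra h
        exact hcon ⟨b, hbB, h⟩
      obtain ⟨b, hbB, hb⟩ := hex
      obtain ⟨β', hβ'⟩ := hvalv' b hbB
      obtain ⟨β, hβ⟩ := hvalv b hbB
      rw [hin v' b β' hβ', hin v b β hβ] at hb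
      by_cases hβ'm : (β' : K) ∈ A.nonunits
      · have hβm : (β : K) ∉ A.nonunits := fun h => hb ⟨fun _ => h, fun _ => hβ'm⟩
        refine ⟨⟨b - algebraMap K F (β' : K), B.sub_mem hbB (hconst β')⟩, ?_, ?_⟩
        · rintro ⟨m, hm, hsm⟩
          have h1 : GrdVal v (b - algebraMap K F (β' : K)) ((β : K) - β') :=
            ttri_val_sub v hβ (grdg_val_algebraMap v _)
          have : m = (β : K) - β' := grdg_val_unique v hsm h1
          rw [this] at hm
          exact ttalv_sub_not_nu hβm hβ'm hm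
        · exact hβ'
      · have hβm : (β : K) ∈ A.nonunits := by
          by_contra h
          exact hb ⟨fun h' => absurd h' hβ'm, fun h' => absurd h' h⟩
        have hinv : (β' : K)⁻¹ ∈ A := ttalv_inv_mem hβ'm
        have hβ'0 : (β' : K) ≠ 0 := by
          intro h0
          apply hβ'm
          rw [h0]
          exact ttalv_nu_zero
        refine ⟨⟨1 - algebraMap K F ((β' : K)⁻¹) * b,
          B.sub_mem B.one_mem (B.mul_mem (hconst ⟨_, hinv⟩) hbB)⟩, ?_, ?_⟩
        · rintro ⟨m, hm, hsm⟩
          have h1 : GrdVal v (1 - algebraMap K F ((β' : K)⁻¹) * b) (1 - (β' : K)⁻¹ * β) := by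
            have h2 : GrdVal v (1 : F) (1 : K) := by
              have := grdg_val_algebraMap v (1 : K)
              rwa [map_one] at this
            exact ttri_val_sub v h2 (grdg_val_mul v (grdg_val_algebraMap v _) hβ)
          have : m = 1 - (β' : K)⁻¹ * β := grdg_val_unique v hsm h1
          rw [this] at hm
          refine ttalv_sub_not_nu ttalv_one_not_nu ?_ hm
          rw [mul_comm]
          exact ttalv_nu_mul hβm hinv
        · show (1 - algebraMap K F ((β' : K)⁻¹) * b) ∈ _
          rw [← grdg_val_zero_iff]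
          have h2 : GrdVal v' (1 : F) (1 : K) := by
            have := grdg_val_algebraMap v' (1 : K)
            rwa [map_one] at this
          have h3 := ttri_val_sub v' h2 (grdg_val_mul v' (grdg_val_algebraMap v' ((β' : K)⁻¹)) hβ')
          rwa [inv_mul_cancel₀ hβ'0, sub_self] at h3
    · -- `u(v') ∉ A`
      have ha'0 : a' ≠ 0 := by
        rintro rfl
        exact ha'A A.zero_mem
      have hinvA : a'⁻¹ ∈ A := by
        rcases A.mem_or_inv_mem a' with h | h
        · exact absurd h ha'A
        · exact h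
      have hinvm : a'⁻¹ ∈ A.nonunits := by
        rw [ValuationSubring.mem_nonunits_iff_or, inv_inv]
        exact Or.inr ha'A
      refine ⟨⟨1 - algebraMap K F a'⁻¹ * u,
        B.sub_mem B.one_mem (B.mul_mem (hconst ⟨_, hinvA⟩) hu)⟩, ?_, ?_⟩
      · rintro ⟨m, hm, hsm⟩
        have h1 : GrdVal v (1 - algebraMap K F a'⁻¹ * u) (1 - a'⁻¹ * (av : K)) := by
          have h2 : GrdVal v (1 : F) (1 : K) := by
            have := grdg_val_algebraMap v (1 : K)
            rwa [map_one] at this
          exact ttri_val_sub v h2 (grdg_val_mul v (grdg_val_algebraMap v _) hav)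
        have : m = 1 - a'⁻¹ * (av : K) := grdg_val_unique v hsm h1
        rw [this] at hm
        exact ttalv_sub_not_nu ttalv_one_not_nu (ttalv_nu_mul hinvm av.2) hm
      · show (1 - algebraMap K F a'⁻¹ * u) ∈ _
        rw [← grdg_val_zero_iff]
        have h2 : GrdVal v' (1 : F) (1 : K) := by
          have := grdg_val_algebraMap v' (1 : K)
          rwa [map_one] at this
        have h3 := ttri_val_sub v' h2 (grdg_val_mul v' (grdg_val_algebraMap v' a'⁻¹) ha')
        rwa [inv_mul_cancel₀ ha'0, sub_self] at h3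
  have hxcen : ∀ v' : Place K F, cen v' → x ∈ v'.toValuationSubring := by
    rintro v' ⟨h1, h2⟩
    exact PlaceOrd.mem_of_ord_nonneg v' (hxbad v' (hbadcen v' h1 h2))
  obtain ⟨s, hsS, hsx⟩ := ttri_loc B O2 hBO u hBreg hsat (ttalvS A B v hvalv) hS0 cen hcu hsep hx
    hxcen
  exact ttalv_ord A O2 B hBO red hconst hredc hker v hvalv x hx c hc hred (s : F) s.2 hsS hsx

end Bad

end Fermat.Agent.TT
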