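import Mathlib
import Fermat.Agent.SS.Top.Kum

/-!
# Program TT (S33), leaf ALPHA, abstract part: the Kummer subgroup and `(σ - 1) J[n] ⊆ Γ₀`

Owner: helper29.  Namespace `Fermat.Agent.TT`, prefix `ttal`.  Mathlib + Prelude + `SS/Top/Kum`.

`F / K` a function field, `U ≤ Fˣ` a subgroup (in the application: the functions `f` with
`f ≡ 1` modulo the maximal ideals of BOTH Gauss valuation rings of `F_ℚ̄(pM)`), `n` a natural number.

* `ttalKum U n` : the classes `[D]` such that `n D = div f` for some `f ∈ U`, an additive subgroup of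
  `Pic⁰`, killed by `n` (`ttal_kum_torsion`);
* `ttal_kum_smul` : it is stable under every semilinear automorphism preserving `U`;
* `ttal_alpha` : **(α)**.  Let `U' ≤ Fˣ` be a subgroup (the common units of both valuation rings)
  such that every function is in `U'` up to an `n`-th power, and let `s` be a semilinear automorphism
  with `s u / u ∈ U` for all `u ∈ U'` (`s` preserves both valuations and acts trivially on both
  residue fields).  Then `s • x - x ∈ ttalKum U n` for every `x` with `n x = 0`.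
-/

set_option autoImplicit false
set_option linter.unusedSectionVars false
set_option linter.unusedVariables false

noncomputable section

namespace Fermat.Agent.TT

open AlgebraicCurve Fermat.Agent.SS

variable {K F : Type*} [Field K] [Field F] [Algebra K F]

/-- the Kummer condition: `n D = div f` with `f ∈ U`. -/
def TtalIsKum (U : Subgroup Fˣ) (n : ℕ) (D : Divisor.degZero (K := K) (F := F)) : Prop :=
  ∃ f : Fˣ, f ∈ U ∧ ∀ v : Place K F, v.ord (f : F) = (n : ℤ) * (D : Divisor K F) v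

theorem ttal_isKum_zero (U : Subgroup Fˣ) (n : ℕ) :
    TtalIsKum (K := K) U n (0 : Divisor.degZero (K := K) (F := F)) :=
  ⟨1, U.one_mem, fun v => by simp⟩

theorem ttal_isKum_add {U : Subgroup Fˣ} {n : ℕ} {D E : Divisor.degZero (K := K) (F := F)}
    (hD : TtalIsKum U n D) (hE : TtalIsKum U n E) : TtalIsKum U n (D + E) := by
  obtain ⟨f, hfU, hf⟩ := hD
  obtain ⟨g, hgU, hg⟩ := hE
  refine ⟨f * g, U.mul_mem hfU hgU, fun v => ?_⟩
  rw [Units.val_mul, Place.ord_mul v f.ne_zero g.ne_zero, hf v, hg v]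
  simp only [AddSubgroup.coe_add, Finsupp.coe_add, Pi.add_apply]
  ring

theorem ttal_isKum_neg {U : Subgroup Fˣ} {n : ℕ} {D : Divisor.degZero (K := K) (F := F)}
    (hD : TtalIsKum U n D) : TtalIsKum U n (-D) := by
  obtain ⟨f, hfU, hf⟩ := hD
  refine ⟨f⁻¹, U.inv_mem hfU, fun v => ?_⟩
  rw [Units.val_inv_eq_inv_val, Place.ord_inv, hf v]
  simp only [AddSubgroup.coe_neg, Finsupp.coe_neg, Pi.neg_apply]
  ring

/-- **the Kummer subgroup** `Γ₀ = {[D] | n D = div f, f ∈ U}`. -/
def ttalKum (U : Subgroup Fˣ) (n : ℕ) : AddSubgroup (Pic0 K F) where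
  carrier := {x | ∃ D : Divisor.degZero (K := K) (F := F), Pic0.mk D = x ∧ TtalIsKum U n D}
  zero_mem' := ⟨0, Pic0.mk_zero, ttal_isKum_zero U n⟩
  add_mem' := by
    rintro x y ⟨D, rfl, hD⟩ ⟨E, rfl, hE⟩
    exact ⟨D + E, Pic0.mk_add D E, ttal_isKum_add hD hE⟩
  neg_mem' := by
    rintro x ⟨D, rfl, hD⟩
    exact ⟨-D, rfl, ttal_isKum_neg hD⟩

theorem ttal_mem_kum {U : Subgroup Fˣ} {n : ℕ} {x : Pic0 K F} :
    x ∈ ttalKum (K := K) U n ↔
      ∃ D : Divisor.degZero (K := K) (F := F), Pic0.mk D = x ∧ TtalIsKum U n D := Iff.rfl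

/-- the Kummer subgroup is killed by `n`. -/
theorem ttal_kum_torsion {U : Subgroup Fˣ} {n : ℕ} {x : Pic0 K F}
    (hx : x ∈ ttalKum (K := K) U n) : (n : ℤ) • x = 0 := by
  obtain ⟨D, rfl, f, -, hf⟩ := hx
  have h1 : (n : ℤ) • Pic0.mk D = Pic0.mk ((n : ℤ) • D) :=
    (map_zsmul (QuotientAddGroup.mk' _) (n : ℤ) D).symm
  rw [h1]
  refine (QuotientAddGroup.eq_zero_iff _).mpr ?_
  rw [AddSubgroup.mem_addSubgroupOf]
  refine ⟨(f : F), f.ne_zero, fun v => ?_⟩
  rw [hf v]
  simp [Finsupp.smul_apply]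

theorem ttal_kum_mem_torsion {U : Subgroup Fˣ} {n : ℕ} {x : Pic0 K F}
    (hx : x ∈ ttalKum (K := K) U n) : x ∈ Pic0.torsion K F n :=
  Pic0.mem_torsion.mpr (ttal_kum_torsion hx)

/-- a semilinear automorphism acting on the units of `F`. -/
def ttalUnitMap (s : SemilinearAut K F) : Fˣ →* Fˣ :=
  Units.map ((SemilinearAut.toRingAut s : F ≃+* F) : F →* F)

@[simp] theorem ttalUnitMap_coe (s : SemilinearAut K F) (f : Fˣ) :
    ((ttalUnitMap s f : Fˣ) : F) = s • (f : F) := rfl

/-- the order of `s • f` in terms of the transported divisor. -/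
theorem ttal_ord_smul (s : SemilinearAut K F) {n : ℕ} {D : Divisor.degZero (K := K) (F := F)}
    {f : F} (hf : ∀ v : Place K F, v.ord f = (n : ℤ) * (D : Divisor K F) v) (v : Place K F) :
    v.ord (s • f) = (n : ℤ) * ((SemilinearAut.degZeroSMulHom s D : Divisor.degZero) :
      Divisor K F) v := by
  rw [sstk_ord_smul, hf, SemilinearAut.coe_degZeroSMulHom, SemilinearAut.divisor_smul_apply]

/-- the Kummer condition is transported by a semilinear automorphism preserving `U`. -/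
theorem ttal_isKum_smul {U : Subgroup Fˣ} {n : ℕ} (s : SemilinearAut K F)
    (hs : ∀ f ∈ U, ttalUnitMap s f ∈ U) {D : Divisor.degZero (K := K) (F := F)}
    (hD : TtalIsKum U n D) : TtalIsKum U n (SemilinearAut.degZeroSMulHom s D) := by
  obtain ⟨f, hfU, hf⟩ := hD
  exact ⟨ttalUnitMap s f, hs f hfU, fun v => by
    rw [ttalUnitMap_coe]; exact ttal_ord_smul s hf v⟩

/-- the Kummer subgroup is stable under a semilinear automorphism preserving `U`. -/
theorem ttal_kum_smul {U : Subgroup Fˣ} {n : ℕ} (s : SemilinearAut K F)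
    (hs : ∀ f ∈ U, ttalUnitMap s f ∈ U) {x : Pic0 K F} (hx : x ∈ ttalKum (K := K) U n) :
    s • x ∈ ttalKum (K := K) U n := by
  obtain ⟨D, rfl, hD⟩ := hx
  exact ⟨SemilinearAut.degZeroSMulHom s D, (SemilinearAut.pic0_smul_mk s D).symm,
    ttal_isKum_smul s hs hD⟩

/-- changing the Kummer function by an `n`-th power does not change the class. -/
theorem ttal_exists_normalised [HasPrincipalDivisors K F] (U' : Subgroup Fˣ) (n : ℕ)
    (hnorm : ∀ f : Fˣ, ∃ g : Fˣ, f * g ^ n ∈ U')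
    (x : Pic0 K F) (hx : (n : ℤ) • x = 0) :
    ∃ D : Divisor.degZero (K := K) (F := F), Pic0.mk D = x ∧ TtalIsKum U' n D := by
  obtain ⟨D, rfl⟩ := Pic0.mk_surjective x
  have hx' : n • Pic0.mk D = 0 := by
    rw [← hx, natCast_zsmul]
  obtain ⟨f, hf0, hf⟩ := sstk_exists_fun D n hx'
  obtain ⟨g, hg⟩ := hnorm (Units.mk0 f hf0)
  obtain ⟨E, hE, hE0⟩ := HasPrincipalDivisors.exists_divisor (K := K) (g : F) g.ne_zero
  set E' : Divisor.degZero (K := K) (F := F) := ⟨E, hE0⟩ with hE'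
  refine ⟨D + E', ?_, Units.mk0 f hf0 * g ^ n, hg, fun v => ?_⟩
  · rw [Pic0.mk_add]
    have : Pic0.mk E' = 0 := by
      refine (QuotientAddGroup.eq_zero_iff _).mpr ?_
      rw [AddSubgroup.mem_addSubgroupOf]
      exact ⟨(g : F), g.ne_zero, fun v => hE v⟩
    rw [this, add_zero]
  · rw [Units.val_mul, Units.val_pow_eq_pow_val, Units.val_mk0,
      Place.ord_mul v hf0 (pow_ne_zero n g.ne_zero), hf v, ← zpow_natCast, Place.ord_zpow,
      ← hE v]
    simp only [AddSubgroup.coe_add, Finsupp.coe_add, Pi.add_apply]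
    ring

/-- **(α), abstract form.**  `U ≤ U'`-type hypotheses: every function lies in `U'` up to an `n`-th
power, and `s u / u ∈ U` for `u ∈ U'`.  Then `(s - 1)` maps the `n`-torsion into the Kummer
subgroup of `U`. -/
theorem ttal_alpha [HasPrincipalDivisors K F] (U U' : Subgroup Fˣ) (n : ℕ)
    (hnorm : ∀ f : Fˣ, ∃ g : Fˣ, f * g ^ n ∈ U')
    (s : SemilinearAut K F) (hs : ∀ u ∈ U', ttalUnitMap s u * u⁻¹ ∈ U)
    (x : Pic0 K F) (hx : (n : ℤ) • x = 0) :
    s • x - x ∈ ttalKum (K := K) U n := by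
  obtain ⟨D, rfl, u, huU, hu⟩ := ttal_exists_normalised U' n hnorm x hx
  refine ⟨SemilinearAut.degZeroSMulHom s D - D, ?_, ttalUnitMap s u * u⁻¹, hs u huU, fun v => ?_⟩
  · rw [SemilinearAut.pic0_smul_mk]
    rfl
  · rw [Units.val_mul, Units.val_inv_eq_inv_val, ttalUnitMap_coe,
      Place.ord_mul v (sstk_smul_ne_zero s u.ne_zero) (inv_ne_zero u.ne_zero), Place.ord_inv,
      ttal_ord_smul s hu v, hu v]
    simp only [AddSubgroup.coe_sub, Finsupp.coe_sub, Pi.sub_apply]
    ring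

end Fermat.Agent.TT
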