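import Mathlib
import Fermat.Agent.TT.Alpha.Kummer
import Fermat.Agent.S24.PlaceOrd

/-!
# Program TT (S33), leaf ALPHA, abstract part 2: the BRIDGE
`Kummer-Γ₀ ⊆ origin domain of the engine`

Owner: helper29.  Namespace `Fermat.Agent.TT`, prefix `ttal`.

Abstract setting: `F / K` a function field, `V₁ V₂` two valuation rings of `F` (the two Gauss
valuation rings of `F_ℚ̄(pM)`), `red₁ : V₁ → Fk₁`, `red₂ : V₂ → Fk₂` their reductions (kernel = the
non-units), `n` (a power of `p`), `D₀ ≥ 0` the base divisor of the engine, `bad` a set of places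
(the places centred at the bad points of the special fibre), `cls` the residue-class map on places
(only its values on the places outside `bad` matter), `Ln = L̃(n D̃₀)`, `L1 = L̃(D̃₀)` the spaces of
sections of the special fibre (as sets of pairs).

* `ttalOne V₁ V₂` : the subgroup of `Fˣ` of the functions `≡ 1` at both valuations;
  `ttalUnits V₁ V₂` : the common units;  `ttal_one_of_units` : `s u / u ∈ ttalOne` for `u` a common
  unit when `s u - u` lies in both maximal ideals (the hypothesis `hs` of `ttal_alpha`);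
* `TtalBridge` : the five geometric inputs (S) `sec`, (N) `root`, (G) `gen`, (V)+(D) `const`,
  + scaling;
* **`ttal_bridge_all`** : EVERY `Dγ ≥ 0` with `[Dγ - D₀]` in the Kummer subgroup
  `ttalKum (ttalOne V₁ V₂) n` has `Dγ = 0` on `bad` and `cls_* Dγ = cls_* D₀`;
  `ttal_bridge` : the `∃` form (with Riemann's inequality in degree `deg D₀`).
-/

set_option autoImplicit false
set_option linter.unusedSectionVars false
set_option linter.unusedVariables false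

noncomputable section

namespace Fermat.Agent.TT

open AlgebraicCurve Fermat.Agent.SS Fermat.Agent.S24

variable {K F : Type*} [Field K] [Field F] [Algebra K F]

/-! ### non-units of a valuation subring -/

theorem ttal_nonunits_add {A : ValuationSubring F} {x y : F} (hx : x ∈ A.nonunits)
    (hy : y ∈ A.nonunits) : x + y ∈ A.nonunits := by
  rw [ValuationSubring.mem_nonunits_iff] at *
  exact lt_of_le_of_lt (A.valuation.map_add x y) (max_lt hx hy)

theorem ttal_nonunits_mul {A : ValuationSubring F} {x y : F} (hx : x ∈ A.nonunits)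
    (hy : y ∈ A) : x * y ∈ A.nonunits := by
  rw [ValuationSubring.mem_nonunits_iff] at *
  rw [← ValuationSubring.valuation_le_one_iff] at hy
  rw [map_mul]
  exact lt_of_le_of_lt (mul_le_of_le_one_right' hy) hx

theorem ttal_nonunits_neg {A : ValuationSubring F} {x : F} (hx : x ∈ A.nonunits) :
    -x ∈ A.nonunits := by
  rw [ValuationSubring.mem_nonunits_iff] at *
  rwa [Valuation.map_neg]

theorem ttal_nonunits_mem {A : ValuationSubring F} {x : F} (hx : x ∈ A.nonunits) : x ∈ A := by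
  rw [ValuationSubring.mem_nonunits_iff] at hx
  rw [← ValuationSubring.valuation_le_one_iff]
  exact hx.le

theorem ttal_zero_mem_nonunits (A : ValuationSubring F) : (0 : F) ∈ A.nonunits := by
  rw [ValuationSubring.mem_nonunits_iff, map_zero]
  exact zero_lt_one

/-- `1 + m` is a unit: its inverse lies in `A`. -/
theorem ttal_one_add_inv_mem {A : ValuationSubring F} {f : F} (hf : f - 1 ∈ A.nonunits) :
    f ∈ A ∧ f⁻¹ ∈ A := by
  have h1 : A.valuation (f - 1) < 1 := (ValuationSubring.mem_nonunits_iff A).mp hf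
  have hval : A.valuation f = 1 := by
    have h2 : A.valuation (f - 1 + 1) = 1 := by
      rw [add_comm]
      exact Valuation.map_one_add_of_lt A.valuation h1
    simpa using h2
  constructor
  · rw [← ValuationSubring.valuation_le_one_iff, hval]
  · rw [← ValuationSubring.valuation_le_one_iff, map_inv₀, hval, inv_one]

/-! ### the two subgroups of `Fˣ` -/

/-- the functions `≡ 1` modulo the maximal ideals of both `V₁` and `V₂`. -/
def ttalOne (V₁ V₂ : ValuationSubring F) : Subgroup Fˣ where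
  carrier := {f | (f : F) - 1 ∈ V₁.nonunits ∧ (f : F) - 1 ∈ V₂.nonunits}
  one_mem' := by
    simp only [Set.mem_setOf_eq, Units.val_one, sub_self]
    exact ⟨ttal_zero_mem_nonunits V₁, ttal_zero_mem_nonunits V₂⟩
  mul_mem' := by
    rintro f g ⟨hf1, hf2⟩ ⟨hg1, hg2⟩
    have key : ∀ A : ValuationSubring F, (f : F) - 1 ∈ A.nonunits → (g : F) - 1 ∈ A.nonunits →
        ((f * g : Fˣ) : F) - 1 ∈ A.nonunits := by
      intro A hf hg
      have e : ((f * g : Fˣ) : F) - 1 = ((f : F) - 1) * (g : F) + ((g : F) - 1) := by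
        rw [Units.val_mul]; ring
      rw [e]
      exact ttal_nonunits_add (ttal_nonunits_mul hf (ttal_one_add_inv_mem hg).1) hg
    exact ⟨key V₁ hf1 hg1, key V₂ hf2 hg2⟩
  inv_mem' := by
    rintro f ⟨hf1, hf2⟩
    have key : ∀ A : ValuationSubring F, (f : F) - 1 ∈ A.nonunits →
        ((f⁻¹ : Fˣ) : F) - 1 ∈ A.nonunits := by
      intro A hf
      have e : ((f⁻¹ : Fˣ) : F) - 1 = (-((f : F) - 1)) * (f : F)⁻¹ := by
        rw [Units.val_inv_eq_inv_val]
        field_simp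
        ring
      rw [e]
      exact ttal_nonunits_mul (ttal_nonunits_neg hf) (ttal_one_add_inv_mem hf).2
    exact ⟨key V₁ hf1, key V₂ hf2⟩

theorem ttal_mem_one {V₁ V₂ : ValuationSubring F} {f : Fˣ} :
    f ∈ ttalOne V₁ V₂ ↔ (f : F) - 1 ∈ V₁.nonunits ∧ (f : F) - 1 ∈ V₂.nonunits := Iff.rfl

/-- the common units of `V₁` and `V₂`. -/
def ttalUnits (V₁ V₂ : ValuationSubring F) : Subgroup Fˣ where
  carrier := {u | ((u : F) ∈ V₁ ∧ (u : F)⁻¹ ∈ V₁) ∧ ((u : F) ∈ V₂ ∧ (u : F)⁻¹ ∈ V₂)}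
  one_mem' := by
    simp only [Set.mem_setOf_eq, Units.val_one, inv_one]
    exact ⟨⟨V₁.one_mem, V₁.one_mem⟩, ⟨V₂.one_mem, V₂.one_mem⟩⟩
  mul_mem' := by
    rintro f g ⟨⟨a1, a2⟩, ⟨a3, a4⟩⟩ ⟨⟨b1, b2⟩, ⟨b3, b4⟩⟩
    simp only [Set.mem_setOf_eq, Units.val_mul, mul_inv]
    exact ⟨⟨V₁.mul_mem _ _ a1 b1, V₁.mul_mem _ _ a2 b2⟩, ⟨V₂.mul_mem _ _ a3 b3, V₂.mul_mem _ _ a4 b4⟩⟩
  inv_mem' := by
    rintro f ⟨⟨a1, a2⟩, ⟨a3, a4⟩⟩
    simp only [Set.mem_setOf_eq, Units.val_inv_eq_inv_val, inv_inv]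
    exact ⟨⟨a2, a1⟩, ⟨a4, a3⟩⟩

theorem ttal_mem_units {V₁ V₂ : ValuationSubring F} {u : Fˣ} :
    u ∈ ttalUnits V₁ V₂ ↔
      ((u : F) ∈ V₁ ∧ (u : F)⁻¹ ∈ V₁) ∧ ((u : F) ∈ V₂ ∧ (u : F)⁻¹ ∈ V₂) := Iff.rfl

/-- the hypothesis `hs` of `ttal_alpha`: an automorphism which moves every element of `V₁`, `V₂`
by an element of the maximal ideal (it preserves both valuations and acts trivially on both residue
fields) maps a common unit `u` to `u · (one-unit)`. -/
theorem ttal_one_of_units {V₁ V₂ : ValuationSubring F} (s : SemilinearAut K F)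
    (h₁ : ∀ x ∈ V₁, s • x - x ∈ V₁.nonunits) (h₂ : ∀ x ∈ V₂, s • x - x ∈ V₂.nonunits)
    (u : Fˣ) (hu : u ∈ ttalUnits V₁ V₂) : ttalUnitMap s u * u⁻¹ ∈ ttalOne V₁ V₂ := by
  obtain ⟨⟨a1, a2⟩, ⟨a3, a4⟩⟩ := hu
  have e : ((ttalUnitMap s u * u⁻¹ : Fˣ) : F) - 1 = (s • (u : F) - (u : F)) * (u : F)⁻¹ := by
    rw [Units.val_mul, Units.val_inv_eq_inv_val, ttalUnitMap_coe]
    have := u.ne_zero
    field_simp
  refine ⟨?_, ?_⟩
  · rw [e]; exact ttal_nonunits_mul (h₁ _ a1) a2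
  · rw [e]; exact ttal_nonunits_mul (h₂ _ a3) a4

/-! ### the bridge -/

variable {k Fk₁ Fk₂ : Type*} [Field k] [Field Fk₁] [Field Fk₂] [Algebra k Fk₁] [Algebra k Fk₂]
variable {ι : Type*}

/-- THE GEOMETRIC INPUTS of the bridge (all about ONE function with poles at good places only). -/
structure TtalBridge (V₁ V₂ : ValuationSubring F) (red₁ : V₁ →+* Fk₁) (red₂ : V₂ →+* Fk₂)
    (n : ℕ) (D₀ : Divisor K F) (bad : Set (Place K F)) (cls : Place K F → ι)
    (Ln L1 : Set (Fk₁ × Fk₂)) : Prop where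
  /-- the kernel of `red₁` is the maximal ideal -/
  ker₁ : ∀ x : V₁, red₁ x = 0 ↔ (x : F) ∈ V₁.nonunits
  /-- the kernel of `red₂` is the maximal ideal -/
  ker₂ : ∀ x : V₂, red₂ x = 0 ↔ (x : F) ∈ V₂.nonunits
  /-- SCALING: a constant multiple lies in both rings and is a unit of one of them -/
  scale : ∀ h : F, h ≠ 0 → ∃ c : K, c ≠ 0 ∧ algebraMap K F c * h ∈ V₁ ∧
    algebraMap K F c * h ∈ V₂ ∧
    (algebraMap K F c * h ∉ V₁.nonunits ∨ algebraMap K F c * h ∉ V₂.nonunits)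
  /-- (S) SECTIONS: the reduction of `L(n D₀) ∩ V₁ ∩ V₂` lies in `L̃(n D̃₀)` -/
  sec : ∀ (x : F) (h₁ : x ∈ V₁) (h₂ : x ∈ V₂), x ≠ 0 →
    (∀ v : Place K F, -((n : ℤ) * D₀ v) ≤ v.ord x) → (red₁ ⟨x, h₁⟩, red₂ ⟨x, h₂⟩) ∈ Ln
  /-- (N) `n`-TH ROOTS: the true node -/
  root : ∀ (a : Fk₁) (b : Fk₂), (a ^ n, b ^ n) ∈ Ln → (a, b) ∈ L1
  /-- (G) GENERICITY: `L̃(D̃₀)` consists of the constants -/
  gen : ∀ q ∈ L1, ∃ c : k, q = (algebraMap k Fk₁ c, algebraMap k Fk₂ c)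
  /-- `D₀` avoids the bad places -/
  bad₀ : ∀ v ∈ bad, D₀ v = 0
  /-- (V) + (D): a function without poles at the bad places which reduces to a nonzero constant
  has no zero at a bad place and divisor of degree zero on every good residue class -/
  const : ∀ (x : F) (h₁ : x ∈ V₁) (h₂ : x ∈ V₂) (c : k), c ≠ 0 → x ≠ 0 →
    (∀ v ∈ bad, 0 ≤ v.ord x) → red₁ ⟨x, h₁⟩ = algebraMap k Fk₁ c →
    red₂ ⟨x, h₂⟩ = algebraMap k Fk₂ c →
    ∀ Dx : Divisor K F, (∀ v : Place K F, Dx v = v.ord x) →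
      (∀ v ∈ bad, Dx v = 0) ∧ Finsupp.mapDomain cls Dx = 0

variable {V₁ V₂ : ValuationSubring F} {red₁ : V₁ →+* Fk₁} {red₂ : V₂ →+* Fk₂}
  {n : ℕ} {D₀ : Divisor K F} {bad : Set (Place K F)} {cls : Place K F → ι}
  {Ln L1 : Set (Fk₁ × Fk₂)}

/-- the reduction of a one-unit is `1`. -/
theorem ttal_red_one_unit {V : ValuationSubring F} {Fk : Type*} [Field Fk] (red : V →+* Fk)
    (hker : ∀ x : V, red x = 0 ↔ (x : F) ∈ V.nonunits) {f : F} (hf : f - 1 ∈ V.nonunits)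
    (hfV : f ∈ V) : red ⟨f, hfV⟩ = 1 := by
  have h0 : red (⟨f, hfV⟩ - 1) = 0 := (hker _).mpr (by simpa using hf)
  rw [map_sub, map_one, sub_eq_zero] at h0
  exact h0

/-- **THE BRIDGE, core form.**  `D` a degree-zero divisor with `n D = div f`, `f` a one-unit of
both valuations; `h ≠ 0` with `Dγ := D₀ + D + div h ≥ 0`.  Then `Dγ` vanishes at the bad places and
has the same residue classes as `D₀`. -/
theorem ttal_bridge_core
    (hB : TtalBridge (K := K) (k := k) V₁ V₂ red₁ red₂ n D₀ bad cls Ln L1) (hn : n ≠ 0)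
    (D : Divisor K F) (f : Fˣ) (hfU : f ∈ ttalOne V₁ V₂)
    (hf : ∀ v : Place K F, v.ord (f : F) = (n : ℤ) * D v)
    (h : F) (hh0 : h ≠ 0) (Dγ : Divisor K F)
    (hDγ_apply : ∀ v : Place K F, Dγ v = D₀ v + D v + v.ord h) (hpos : 0 ≤ Dγ) :
    (∀ v ∈ bad, Dγ v = 0) ∧ Finsupp.mapDomain cls Dγ = Finsupp.mapDomain cls D₀ := by
  classical
  obtain ⟨hf1, hf2⟩ := hfU
  have hnZ : (n : ℤ) ≠ 0 := by exact_mod_cast hn
  obtain ⟨c, hc0, hc1, hc2, hc3⟩ := hB.scale h hh0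
  set h' : F := algebraMap K F c * h with hh'
  have hcF : algebraMap K F c ≠ 0 := by simpa using hc0
  have hh'0 : h' ≠ 0 := mul_ne_zero hcF hh0
  have hordh' : ∀ v : Place K F, v.ord h' = v.ord h := fun v => by
    rw [hh', Place.ord_mul v hcF hh0, PlaceOrd.ord_algebraMap, zero_add]
  -- the function `x = f h'^n`
  obtain ⟨hfV1, -⟩ := ttal_one_add_inv_mem hf1
  obtain ⟨hfV2, -⟩ := ttal_one_add_inv_mem hf2
  set x : F := (f : F) * h' ^ n with hx
  have hx0 : x ≠ 0 := mul_ne_zero f.ne_zero (pow_ne_zero n hh'0)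
  have hxV1 : x ∈ V₁ := V₁.mul_mem _ _ hfV1 (pow_mem hc1 n)
  have hxV2 : x ∈ V₂ := V₂.mul_mem _ _ hfV2 (pow_mem hc2 n)
  have hordx : ∀ v : Place K F, v.ord x = (n : ℤ) * (Dγ v - D₀ v) := fun v => by
    rw [hx, Place.ord_mul v f.ne_zero (pow_ne_zero n hh'0), hf v, ← zpow_natCast, Place.ord_zpow,
      hordh' v, hDγ_apply v]
    ring
  have hredx1 : red₁ ⟨x, hxV1⟩ = (red₁ ⟨h', hc1⟩) ^ n := by
    have e : (⟨x, hxV1⟩ : V₁) = ⟨(f : F), hfV1⟩ * ⟨h', hc1⟩ ^ n := Subtype.ext (by simp [hx])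
    rw [e, map_mul, map_pow, ttal_red_one_unit red₁ hB.ker₁ hf1 hfV1, one_mul]
  have hredx2 : red₂ ⟨x, hxV2⟩ = (red₂ ⟨h', hc2⟩) ^ n := by
    have e : (⟨x, hxV2⟩ : V₂) = ⟨(f : F), hfV2⟩ * ⟨h', hc2⟩ ^ n := Subtype.ext (by simp [hx])
    rw [e, map_mul, map_pow, ttal_red_one_unit red₂ hB.ker₂ hf2 hfV2, one_mul]
  -- (S), (N), (G)
  have hsec := hB.sec x hxV1 hxV2 hx0 (fun v => by
    rw [hordx v]
    have := hpos v
    simp only [Finsupp.coe_zero, Pi.zero_apply] at this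
    have h2 : (0 : ℤ) ≤ (n : ℤ) * Dγ v := mul_nonneg (Int.natCast_nonneg n) this
    linarith)
  rw [hredx1, hredx2] at hsec
  obtain ⟨c', hc'⟩ := hB.gen _ (hB.root _ _ hsec)
  have hr1 : red₁ ⟨h', hc1⟩ = algebraMap k Fk₁ c' := (Prod.ext_iff.mp hc').1
  have hr2 : red₂ ⟨h', hc2⟩ = algebraMap k Fk₂ c' := (Prod.ext_iff.mp hc').2
  have hc'0 : c' ≠ 0 := by
    rintro rfl
    rw [map_zero] at hr1 hr2
    rcases hc3 with h3 | h3
    · exact h3 ((hB.ker₁ _).mp hr1)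
    · exact h3 ((hB.ker₂ _).mp hr2)
  -- (V) + (D)
  have hbadx : ∀ v ∈ bad, 0 ≤ v.ord x := fun v hv => by
    rw [hordx v, hB.bad₀ v hv, sub_zero]
    have := hpos v
    simp only [Finsupp.coe_zero, Pi.zero_apply] at this
    exact mul_nonneg (Int.natCast_nonneg n) this
  obtain ⟨hb, hm⟩ := hB.const x hxV1 hxV2 (c' ^ n) (pow_ne_zero n hc'0) hx0 hbadx
    (by rw [hredx1, hr1, map_pow]) (by rw [hredx2, hr2, map_pow]) ((n : ℤ) • (Dγ - D₀))
    (fun v => by
      rw [hordx v, Finsupp.smul_apply, Finsupp.sub_apply, smul_eq_mul])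
  refine ⟨fun v hv => ?_, ?_⟩
  · have := hb v hv
    rw [Finsupp.smul_apply, Finsupp.sub_apply, hB.bad₀ v hv, sub_zero, smul_eq_mul] at this
    exact (mul_eq_zero.mp this).resolve_left hnZ
  · have e : Finsupp.mapDomain cls ((n : ℤ) • (Dγ - D₀)) =
        (n : ℤ) • (Finsupp.mapDomain cls Dγ - Finsupp.mapDomain cls D₀) := by
      rw [Finsupp.mapDomain_smul, Finsupp.mapDomain_sub]
    rw [e] at hm
    have := (smul_eq_zero.mp hm).resolve_left hnZ
    exact sub_eq_zero.mp this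

/-- **THE BRIDGE, `∀` form** (the literal consumed by the origin-C5a): EVERY effective divisor
`Dγ` whose class `[Dγ - D₀]` lies in the Kummer subgroup of the one-units vanishes at the bad places
and has the same residue classes as `D₀`. -/
theorem ttal_bridge_all
    (hB : TtalBridge (K := K) (k := k) V₁ V₂ red₁ red₂ n D₀ bad cls Ln L1) (hn : n ≠ 0)
    (Dγ : Divisor K F) (hpos : 0 ≤ Dγ) (hdeg : Dγ - D₀ ∈ Divisor.degZero (K := K) (F := F))
    (hγ : Pic0.mk ⟨Dγ - D₀, hdeg⟩ ∈ ttalKum (K := K) (ttalOne V₁ V₂) n) :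
    (∀ v ∈ bad, Dγ v = 0) ∧ Finsupp.mapDomain cls Dγ = Finsupp.mapDomain cls D₀ := by
  obtain ⟨D, hD, f, hfU, hf⟩ := hγ
  -- `Dγ - D₀ - D` is principal
  have hprin : ((⟨Dγ - D₀, hdeg⟩ - D : Divisor.degZero (K := K) (F := F)) : Divisor K F) ∈
      Divisor.principal (K := K) (F := F) := by
    have h0 : Pic0.mk (⟨Dγ - D₀, hdeg⟩ - D) = 0 := by
      have : Pic0.mk (⟨Dγ - D₀, hdeg⟩ - D) = Pic0.mk ⟨Dγ - D₀, hdeg⟩ - Pic0.mk D := rfl
      rw [this, hD, sub_self]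
    have := (QuotientAddGroup.eq_zero_iff _).mp h0
    rwa [AddSubgroup.mem_addSubgroupOf] at this
  obtain ⟨h, hh0, hh⟩ := hprin
  refine ttal_bridge_core hB hn (D : Divisor K F) f hfU hf h hh0 Dγ (fun v => ?_) hpos
  have := hh v
  simp only [AddSubgroup.coe_sub, Finsupp.coe_sub, Pi.sub_apply] at this
  linarith

/-- **THE BRIDGE, `∃` form**: with Riemann's inequality in degree `deg D₀`, every class of the
Kummer subgroup is `[Dγ - D₀]` with `Dγ ≥ 0` as in `ttal_bridge_all`. -/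
theorem ttal_bridge [HasPrincipalDivisors K F]
    (hB : TtalBridge (K := K) (k := k) V₁ V₂ red₁ red₂ n D₀ bad cls Ln L1) (hn : n ≠ 0)
    (hrr : ∀ E : Divisor K F, Divisor.degree E = Divisor.degree D₀ →
      ∃ h : F, h ≠ 0 ∧ ∀ v : Place K F, -E v ≤ v.ord h)
    {γ : Pic0 K F} (hγ : γ ∈ ttalKum (K := K) (ttalOne V₁ V₂) n) :
    ∃ (Dγ : Divisor K F) (hdeg : Dγ - D₀ ∈ Divisor.degZero (K := K) (F := F)),
      0 ≤ Dγ ∧ Pic0.mk ⟨Dγ - D₀, hdeg⟩ = γ ∧ (∀ v ∈ bad, Dγ v = 0) ∧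
      Finsupp.mapDomain cls Dγ = Finsupp.mapDomain cls D₀ := by
  classical
  obtain ⟨D, rfl, hDk⟩ := hγ
  have hdegE : Divisor.degree (D₀ + (D : Divisor K F)) = Divisor.degree D₀ := by
    rw [map_add, (Divisor.mem_degZero).mp D.2, add_zero]
  obtain ⟨h, hh0, hh⟩ := hrr _ hdegE
  obtain ⟨Dh, hDh, hDh0⟩ := HasPrincipalDivisors.exists_divisor (K := K) h hh0
  set Dγ : Divisor K F := D₀ + (D : Divisor K F) + Dh with hDγ
  have hpos : 0 ≤ Dγ := by
    intro v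
    have := hh v
    rw [Finsupp.add_apply] at this
    rw [hDγ, Finsupp.add_apply, Finsupp.add_apply, hDh v]
    simp only [Finsupp.coe_zero, Pi.zero_apply]
    linarith
  have hsub : Dγ - D₀ = (D : Divisor K F) + Dh := by
    rw [hDγ]; abel
  have hdeg : Dγ - D₀ ∈ Divisor.degZero (K := K) (F := F) := by
    rw [hsub, Divisor.mem_degZero, map_add, (Divisor.mem_degZero).mp D.2, hDh0, add_zero]
  have hcls : Pic0.mk ⟨Dγ - D₀, hdeg⟩ = Pic0.mk D := by
    have e : (⟨Dγ - D₀, hdeg⟩ : Divisor.degZero (K := K) (F := F)) = D + ⟨Dh, hDh0⟩ :=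
      Subtype.ext hsub
    rw [e, Pic0.mk_add]
    have : Pic0.mk (⟨Dh, hDh0⟩ : Divisor.degZero (K := K) (F := F)) = 0 := by
      refine (QuotientAddGroup.eq_zero_iff _).mpr ?_
      rw [AddSubgroup.mem_addSubgroupOf]
      exact ⟨h, hh0, fun v => hDh v⟩
    rw [this, add_zero]
  obtain ⟨h1, h2⟩ := ttal_bridge_all hB hn Dγ hpos hdeg (by rw [hcls]; exact ⟨D, rfl, hDk⟩)
  exact ⟨Dγ, hdeg, hpos, hcls, h1, h2⟩

end Fermat.Agent.TT
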