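import Mathlib
import Fermat.Agent.TT.Alpha.Bridge

/-!
# Program TT (S33), leaf ALPHA, abstract part 3: NORMALISATION of Kummer functions

Owner: helper29.  Namespace `Fermat.Agent.TT`, prefix `ttal`.

`K` a field with a valuation subring `A`, `F / K` a field, `V₁ V₂` two valuation subrings of `F`
containing the constants of `A` and whose maximal ideals contain those of `𝔪_A`.

* `TtalIdem A V₁ V₂` : two "idempotents modulo the radical": `e₁ + e₂ = 1`, `e₂ = π₁ z₁` with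
  `π₁ ∈ 𝔪_A`, `z₁ ∈ V₁` and `e₁ = π₂ z₂` with `π₂ ∈ 𝔪_A`, `z₂ ∈ V₂` (the reduction of `e₁` is
  `(1, 0)`, that of `e₂` is `(0, 1)`);
* `ttal_approx` : for all constants `a b ≠ 0` there is `g ≠ 0` with `a g` a unit of `V₁` and `b g` a
  unit of `V₂` (the two valuations are independent), given `m`-th roots of constants and the
  RANK-ONE property of `A` in the form `hrk`;
* `ttal_hnorm` : the hypothesis `hnorm` of `ttal_alpha` : every `f ≠ 0` is a common unit of `V₁`,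
  `V₂` up to an `n`-th power, given in addition that each `V_i` has the value group of `A`
  (`hsc₁`, `hsc₂`).
-/

set_option autoImplicit false
set_option linter.unusedSectionVars false
set_option linter.unusedVariables false

noncomputable section

namespace Fermat.Agent.TT

open AlgebraicCurve

variable {K F : Type*} [Field K] [Field F] [Algebra K F]

/-- `x` is a unit of the valuation subring `V`. -/
def TtalIsU (V : ValuationSubring F) (x : F) : Prop := x ∈ V ∧ x⁻¹ ∈ V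

theorem ttal_isU_mul {V : ValuationSubring F} {x y : F} (hx : TtalIsU V x) (hy : TtalIsU V y) :
    TtalIsU V (x * y) :=
  ⟨V.mul_mem _ _ hx.1 hy.1, by rw [mul_inv]; exact V.mul_mem _ _ hx.2 hy.2⟩

theorem ttal_isU_pow {V : ValuationSubring F} {x : F} (hx : TtalIsU V x) (m : ℕ) :
    TtalIsU V (x ^ m) :=
  ⟨pow_mem hx.1 m, by rw [← inv_pow]; exact pow_mem hx.2 m⟩

/-- a one-unit is a unit. -/
theorem ttal_isU_of_one {V : ValuationSubring F} {x : F} (hx : x - 1 ∈ V.nonunits) :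
    TtalIsU V x := ttal_one_add_inv_mem hx

/-- the two orthogonal "idempotents modulo the radical". -/
structure TtalIdem (A : ValuationSubring K) (V₁ V₂ : ValuationSubring F) : Prop where
  /-- constants of `A` lie in `V₁` -/
  const₁ : ∀ a : K, a ∈ A → algebraMap K F a ∈ V₁
  /-- constants of `A` lie in `V₂` -/
  const₂ : ∀ a : K, a ∈ A → algebraMap K F a ∈ V₂
  /-- constants of `𝔪_A` lie in `𝔪_{V₁}` -/
  max₁ : ∀ a : K, a ∈ A.nonunits → algebraMap K F a ∈ V₁.nonunits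
  /-- constants of `𝔪_A` lie in `𝔪_{V₂}` -/
  max₂ : ∀ a : K, a ∈ A.nonunits → algebraMap K F a ∈ V₂.nonunits
  /-- the idempotents -/
  idem : ∃ (e₁ e₂ z₁ z₂ : F) (π₁ π₂ : K), e₁ + e₂ = 1 ∧ π₁ ≠ 0 ∧ π₂ ≠ 0 ∧
    π₁ ∈ A.nonunits ∧ π₂ ∈ A.nonunits ∧ z₁ ∈ V₁ ∧ z₂ ∈ V₂ ∧
    e₂ = algebraMap K F π₁ * z₁ ∧ e₁ = algebraMap K F π₂ * z₂

/-- **independence of the two valuations**: prescribed values at `V₁` and `V₂`. -/
theorem ttal_approx {A : ValuationSubring K} {V₁ V₂ : ValuationSubring F}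
    (hI : TtalIdem A V₁ V₂)
    (hroot : ∀ (a : K) (m : ℕ), a ≠ 0 → m ≠ 0 → ∃ a' : K, a' ^ m = a)
    (hrk : ∀ (c π₁ π₂ : K), c ≠ 0 → π₁ ≠ 0 → π₂ ≠ 0 → π₁ ∈ A.nonunits → π₂ ∈ A.nonunits →
      ∃ (m : ℕ) (d : K), m ≠ 0 ∧ d ^ m = c ∧ d * π₁ ∈ A.nonunits ∧ d⁻¹ * π₂ ∈ A.nonunits)
    (a b : K) (ha : a ≠ 0) (hb : b ≠ 0) :
    ∃ g : F, g ≠ 0 ∧ TtalIsU V₁ (algebraMap K F a * g) ∧ TtalIsU V₂ (algebraMap K F b * g) := by
  obtain ⟨e₁, e₂, z₁, z₂, π₁, π₂, hsum, hπ₁0, hπ₂0, hπ₁, hπ₂, hz₁, hz₂, he₂, he₁⟩ := hI.idem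
  obtain ⟨m, d, hm, hdm, hd1, hd2⟩ := hrk (a / b) π₁ π₂ (div_ne_zero ha hb) hπ₁0 hπ₂0 hπ₁ hπ₂
  have hd0 : d ≠ 0 := by
    rintro rfl
    rw [zero_pow hm] at hdm
    exact div_ne_zero ha hb hdm.symm
  obtain ⟨a', ha'⟩ := hroot a m ha hm
  have ha'0 : a' ≠ 0 := by
    rintro rfl
    rw [zero_pow hm] at ha'
    exact ha ha'.symm
  -- `b' := a' / d`, `b' ^ m = b`
  set b' : K := a' / d with hb'
  have hb'm : b' ^ m = b := by
    rw [hb', div_pow, ha', hdm]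
    field_simp
  have hb'0 : b' ≠ 0 := div_ne_zero ha'0 hd0
  -- `g' := a'⁻¹ e₁ + b'⁻¹ e₂`
  set g' : F := algebraMap K F a'⁻¹ * e₁ + algebraMap K F b'⁻¹ * e₂ with hg'
  have h1 : algebraMap K F a' * g' = e₁ + algebraMap K F (d * π₁) * z₁ := by
    rw [hg', he₂, hb']
    simp only [map_mul, map_inv₀, map_div₀]
    have : algebraMap K F a' ≠ 0 := by simpa using ha'0
    have hdF : algebraMap K F d ≠ 0 := by simpa using hd0
    field_simp
  have h2 : algebraMap K F b' * g' = algebraMap K F (d⁻¹ * π₂) * z₂ + e₂ := by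
    rw [hg', he₁, hb']
    simp only [map_mul, map_inv₀, map_div₀]
    have : algebraMap K F a' ≠ 0 := by simpa using ha'0
    have hdF : algebraMap K F d ≠ 0 := by simpa using hd0
    field_simp
  -- one-units
  have hu1 : algebraMap K F a' * g' - 1 ∈ V₁.nonunits := by
    have e : algebraMap K F a' * g' - 1 =
        algebraMap K F (d * π₁) * z₁ + -(algebraMap K F π₁ * z₁) := by
      rw [h1, ← he₂]
      linear_combination hsum
    rw [e]
    exact ttal_nonunits_add (ttal_nonunits_mul (hI.max₁ _ hd1) hz₁)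
      (ttal_nonunits_neg (ttal_nonunits_mul (hI.max₁ _ hπ₁) hz₁))
  have hu2 : algebraMap K F b' * g' - 1 ∈ V₂.nonunits := by
    have e : algebraMap K F b' * g' - 1 =
        algebraMap K F (d⁻¹ * π₂) * z₂ + -(algebraMap K F π₂ * z₂) := by
      rw [h2, ← he₁]
      linear_combination hsum
    rw [e]
    exact ttal_nonunits_add (ttal_nonunits_mul (hI.max₂ _ hd2) hz₂)
      (ttal_nonunits_neg (ttal_nonunits_mul (hI.max₂ _ hπ₂) hz₂))
  have hU1 := ttal_isU_of_one hu1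
  have hU2 := ttal_isU_of_one hu2
  have hg'0 : g' ≠ 0 := by
    rintro h0
    rw [h0, mul_zero] at hU1
    have := hU1.2
    rw [inv_zero] at this
    have h3 : (0 : F) - 1 ∈ V₁.nonunits := by rw [← mul_zero (algebraMap K F a'), ← h0]; exact hu1
    rw [zero_sub] at h3
    have h4 : (1 : F) ∈ V₁.nonunits := by
      have := ttal_nonunits_neg h3
      rwa [neg_neg] at this
    rw [ValuationSubring.mem_nonunits_iff, map_one] at h4
    exact lt_irrefl _ h4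
  refine ⟨g' ^ m, pow_ne_zero m hg'0, ?_, ?_⟩
  · have e : algebraMap K F a * g' ^ m = (algebraMap K F a' * g') ^ m := by
      rw [mul_pow, ← map_pow, ha']
    rw [e]
    exact ttal_isU_pow hU1 m
  · have e : algebraMap K F b * g' ^ m = (algebraMap K F b' * g') ^ m := by
      rw [mul_pow, ← map_pow, hb'm]
    rw [e]
    exact ttal_isU_pow hU2 m

/-- **the hypothesis `hnorm` of `ttal_alpha`**: every function is a common unit up to an `n`-th
power. -/
theorem ttal_hnorm {A : ValuationSubring K} {V₁ V₂ : ValuationSubring F}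
    (hI : TtalIdem A V₁ V₂)
    (hroot : ∀ (a : K) (m : ℕ), a ≠ 0 → m ≠ 0 → ∃ a' : K, a' ^ m = a)
    (hrk : ∀ (c π₁ π₂ : K), c ≠ 0 → π₁ ≠ 0 → π₂ ≠ 0 → π₁ ∈ A.nonunits → π₂ ∈ A.nonunits →
      ∃ (m : ℕ) (d : K), m ≠ 0 ∧ d ^ m = c ∧ d * π₁ ∈ A.nonunits ∧ d⁻¹ * π₂ ∈ A.nonunits)
    (hsc₁ : ∀ f : F, f ≠ 0 → ∃ c : K, c ≠ 0 ∧ TtalIsU V₁ (algebraMap K F c * f))
    (hsc₂ : ∀ f : F, f ≠ 0 → ∃ c : K, c ≠ 0 ∧ TtalIsU V₂ (algebraMap K F c * f))
    (n : ℕ) (hn : n ≠ 0) (f : Fˣ) : ∃ g : Fˣ, f * g ^ n ∈ ttalUnits V₁ V₂ := by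
  obtain ⟨c₁, hc₁0, hc₁⟩ := hsc₁ f f.ne_zero
  obtain ⟨c₂, hc₂0, hc₂⟩ := hsc₂ f f.ne_zero
  obtain ⟨a, ha⟩ := hroot c₁ n hc₁0 hn
  obtain ⟨b, hb⟩ := hroot c₂ n hc₂0 hn
  have ha0 : a ≠ 0 := by
    rintro rfl
    rw [zero_pow hn] at ha
    exact hc₁0 ha.symm
  have hb0 : b ≠ 0 := by
    rintro rfl
    rw [zero_pow hn] at hb
    exact hc₂0 hb.symm
  -- `g` with `a⁻¹ g`, `b⁻¹ g` units
  obtain ⟨g, hg0, hg1, hg2⟩ := ttal_approx hI hroot hrk a⁻¹ b⁻¹ (inv_ne_zero ha0) (inv_ne_zero hb0)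
  refine ⟨Units.mk0 g hg0, ?_⟩
  rw [ttal_mem_units]
  have haF : algebraMap K F a ≠ 0 := by simpa using ha0
  have hbF : algebraMap K F b ≠ 0 := by simpa using hb0
  have e1 : ((f * Units.mk0 g hg0 ^ n : Fˣ) : F) =
      (algebraMap K F c₁ * (f : F))⁻¹⁻¹ * (algebraMap K F a⁻¹ * g) ^ n *
        (algebraMap K F c₁)⁻¹ * (algebraMap K F a) ^ n := by
    rw [Units.val_mul, Units.val_pow_eq_pow_val, Units.val_mk0, inv_inv, mul_pow, map_inv₀, inv_pow]
    have hc : algebraMap K F c₁ ≠ 0 := by simpa using hc₁0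
    field_simp
  have e2 : ((f * Units.mk0 g hg0 ^ n : Fˣ) : F) =
      (algebraMap K F c₂ * (f : F))⁻¹⁻¹ * (algebraMap K F b⁻¹ * g) ^ n *
        (algebraMap K F c₂)⁻¹ * (algebraMap K F b) ^ n := by
    rw [Units.val_mul, Units.val_pow_eq_pow_val, Units.val_mk0, inv_inv, mul_pow, map_inv₀, inv_pow]
    have hc : algebraMap K F c₂ ≠ 0 := by simpa using hc₂0
    field_simp
  have k1 : (algebraMap K F c₁)⁻¹ * (algebraMap K F a) ^ n = 1 := by
    rw [← map_pow, ha]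
    have hc : algebraMap K F c₁ ≠ 0 := by simpa using hc₁0
    field_simp
  have k2 : (algebraMap K F c₂)⁻¹ * (algebraMap K F b) ^ n = 1 := by
    rw [← map_pow, hb]
    have hc : algebraMap K F c₂ ≠ 0 := by simpa using hc₂0
    field_simp
  constructor
  · have : TtalIsU V₁ ((f * Units.mk0 g hg0 ^ n : Fˣ) : F) := by
      rw [e1, mul_assoc, k1, mul_one, inv_inv]
      exact ttal_isU_mul hc₁ (ttal_isU_pow hg1 n)
    exact this
  · have : TtalIsU V₂ ((f * Units.mk0 g hg0 ^ n : Fˣ) : F) := by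
      rw [e2, mul_assoc, k2, mul_one, inv_inv]
      exact ttal_isU_mul hc₂ (ttal_isU_pow hg2 n)
    exact this

end Fermat.Agent.TT
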