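import Mathlib
import Fermat.Agent.TT.B2.Lattice
import Fermat.Agent.TT.Alpha.Norm

/-!
# Program TT (S33), leaves (α) + BRIDGE: the inputs from the reduction axioms `TtbRed`

Owner: helper29.  Namespace `Fermat.Agent.TT`, prefix `ttal`.
Imports helper26's `TT/B2/Lattice.lean` (`TtbRed A O red`: const_mem, red_const, ker, scale).

`V` a valuation subring of `F`, `red : V → Fk` with values in a FIELD, `h : TtbRed A V red`.

* `ttal_red_ker`      : `red x = 0 ↔ x ∈ 𝔪_V` (= `TtalBridge.ker₁/ker₂`);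
* `ttal_red_max`      : `𝔪_A ⊆ 𝔪_V`;
* `ttal_red_hsc`      : every `f ≠ 0` is a unit of `V` up to a constant (= `hsc₁/hsc₂` of `ttal_hnorm`);
* `ttal_red_idem`     : `TtalIdem A V₁ V₂` from two elements `e₁ + e₂ = 1`, `red₁ e₂ = 0`, `red₂ e₁ = 0`;
* `ttal_red_scale`    : `TtalBridge.scale`;
* `ttal_red_hnorm`    : `hnorm` of `ttal_alpha` from all of this + rank one.
-/

set_option autoImplicit false
set_option linter.unusedSectionVars false
set_option linter.unusedVariables false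

noncomputable section

namespace Fermat.Agent.TT

open IsLocalRing

variable {K : Type*} [Field K] {A : ValuationSubring K} {F : Type*} [Field F] [Algebra K F]

section One

variable {Fk : Type*} [Field Fk] [Algebra (ResidueField A) Fk]
variable {V : ValuationSubring F} {red : ↥V.toSubring →+* Fk}

/-- a unit of `V` has nonzero reduction (no axiom needed). -/
theorem ttal_red_mem_nonunits {x : ↥V.toSubring} (hx : red x = 0) : (x : F) ∈ V.nonunits := by
  rw [ValuationSubring.mem_nonunits_iff_or]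
  by_contra hcon
  push Not at hcon
  obtain ⟨hx0, hinv⟩ := hcon
  have h1 : x * ⟨(x : F)⁻¹, hinv⟩ = 1 := Subtype.ext (mul_inv_cancel₀ hx0)
  have h2 := congrArg red h1
  rw [map_mul, hx, zero_mul, map_one] at h2
  exact zero_ne_one h2

/-- the residue of a constant of the maximal ideal. -/
theorem ttal_red_const_zero (h : TtbRed A V.toSubring red) {c : K} (hc : c ∈ A.nonunits) :
    red ⟨algebraMap K F c, h.const_mem ⟨c, A.nonunits_subset hc⟩⟩ = 0 := by
  have e := h.red_const ⟨c, A.nonunits_subset hc⟩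
  have : residue A ⟨c, A.nonunits_subset hc⟩ = 0 := by
    rw [residue_eq_zero_iff, ValuationSubring.valuation_lt_one_iff]
    exact hc
  rw [this, map_zero] at e
  exact e

/-- `𝔪_A ⊆ 𝔪_V`. -/
theorem ttal_red_max (h : TtbRed A V.toSubring red) (c : K) (hc : c ∈ A.nonunits) :
    algebraMap K F c ∈ V.nonunits :=
  ttal_red_mem_nonunits (ttal_red_const_zero h hc)

/-- **the kernel of the reduction is the maximal ideal.** -/
theorem ttal_red_ker (h : TtbRed A V.toSubring red) (x : ↥V.toSubring) :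
    red x = 0 ↔ (x : F) ∈ V.nonunits := by
  refine ⟨ttal_red_mem_nonunits, fun hx => ?_⟩
  by_cases hx0 : (x : F) = 0
  · have : x = 0 := Subtype.ext hx0
    rw [this, map_zero]
  have hinv : (x : F)⁻¹ ∉ V := by
    rcases (V.mem_nonunits_iff_or).mp hx with h0 | h0
    · exact absurd h0 hx0
    · exact h0
  obtain ⟨c, hc0, hm, hr⟩ := h.scale (x : F)⁻¹ (inv_ne_zero hx0)
  -- `c ∈ 𝔪_A`
  have hcm : c ∈ A.nonunits := by
    rw [ValuationSubring.mem_nonunits_iff_or]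
    right
    intro hcinv
    apply hinv
    have e : (x : F)⁻¹ = algebraMap K F c⁻¹ * (algebraMap K F c * (x : F)⁻¹) := by
      rw [← mul_assoc, ← map_mul, inv_mul_cancel₀ hc0, map_one, one_mul]
    rw [e]
    exact V.mul_mem _ _ (h.const_mem ⟨c⁻¹, hcinv⟩) hm
  have h1 : (⟨algebraMap K F c, h.const_mem ⟨c, A.nonunits_subset hcm⟩⟩ : ↥V.toSubring) =
      ⟨algebraMap K F c * (x : F)⁻¹, hm⟩ * x := by
    apply Subtype.ext
    show algebraMap K F c = algebraMap K F c * (x : F)⁻¹ * (x : F)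
    rw [mul_assoc, inv_mul_cancel₀ hx0, mul_one]
  have h2 := congrArg red h1
  rw [ttal_red_const_zero h hcm, map_mul] at h2
  exact (mul_eq_zero.mp h2.symm).resolve_left hr

/-- **scaling into the units** (`hsc` of `ttal_hnorm`). -/
theorem ttal_red_hsc (h : TtbRed A V.toSubring red) (f : F) (hf : f ≠ 0) :
    ∃ c : K, c ≠ 0 ∧ TtalIsU V (algebraMap K F c * f) := by
  obtain ⟨c, hc0, hm, hr⟩ := h.scale f hf
  refine ⟨c, hc0, hm, ?_⟩
  by_contra hinv
  apply hr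
  rw [ttal_red_ker h]
  rw [ValuationSubring.mem_nonunits_iff_or]
  exact Or.inr hinv

end One

section Two

variable {Fk₁ Fk₂ : Type*} [Field Fk₁] [Field Fk₂] [Algebra (ResidueField A) Fk₁]
  [Algebra (ResidueField A) Fk₂]
variable {V₁ V₂ : ValuationSubring F} {red₁ : ↥V₁.toSubring →+* Fk₁}
  {red₂ : ↥V₂.toSubring →+* Fk₂}

/-- an element with zero reduction is a constant of `𝔪_A ∖ 0` times an element of `V`, or zero. -/
theorem ttal_red_factor {Fk : Type*} [Field Fk] [Algebra (ResidueField A) Fk]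
    {V : ValuationSubring F} {red : ↥V.toSubring →+* Fk} (h : TtbRed A V.toSubring red)
    {e : F} (he0 : e ≠ 0) (he : e ∈ V.nonunits) :
    ∃ (π : K) (z : F), π ≠ 0 ∧ π ∈ A.nonunits ∧ z ∈ V ∧ e = algebraMap K F π * z := by
  have hred : red ⟨e, V.nonunits_subset he⟩ = 0 := (ttal_red_ker h _).mpr he
  obtain ⟨π, hπ, y, hy⟩ := h.ker _ hred
  have hy' : e = algebraMap K F (π : K) * (y : F) := hy
  refine ⟨(π : K), (y : F), ?_, ?_, y.2, hy'⟩
  · intro h0
    rw [h0, map_zero, zero_mul] at hy'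
    exact he0 hy'
  · rw [ValuationSubring.mem_nonunits_iff_exists_mem_maximalIdeal]
    exact ⟨π.2, hπ⟩

/-- **the idempotents**: `TtalIdem` from the reduction axioms and `e₁ + e₂ = 1`, `e₂ ∈ 𝔪_{V₁}`,
`e₁ ∈ 𝔪_{V₂}`. -/
theorem ttal_red_idem (h₁ : TtbRed A V₁.toSubring red₁) (h₂ : TtbRed A V₂.toSubring red₂)
    (e₁ e₂ : F) (he : e₁ + e₂ = 1) (he₂ : e₂ ∈ V₁.nonunits) (he₁ : e₁ ∈ V₂.nonunits) :
    TtalIdem A V₁ V₂ := by
  have hne₂ : e₂ ≠ 0 := by
    rintro rfl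
    rw [add_zero] at he
    rw [he] at he₁
    exact ((ValuationSubring.mem_nonunits_iff _).mp he₁).ne (map_one _)
  have hne₁ : e₁ ≠ 0 := by
    rintro rfl
    rw [zero_add] at he
    rw [he] at he₂
    exact ((ValuationSubring.mem_nonunits_iff _).mp he₂).ne (map_one _)
  obtain ⟨π₁, z₁, hπ₁0, hπ₁, hz₁, hez₁⟩ := ttal_red_factor h₁ hne₂ he₂
  obtain ⟨π₂, z₂, hπ₂0, hπ₂, hz₂, hez₂⟩ := ttal_red_factor h₂ hne₁ he₁
  exact
    { const₁ := fun a ha => h₁.const_mem ⟨a, ha⟩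
      const₂ := fun a ha => h₂.const_mem ⟨a, ha⟩
      max₁ := fun a ha => ttal_red_max h₁ a ha
      max₂ := fun a ha => ttal_red_max h₂ a ha
      idem := ⟨e₁, e₂, z₁, z₂, π₁, π₂, he, hπ₁0, hπ₂0, hπ₁, hπ₂, hz₁, hz₂, hez₁, hez₂⟩ }

/-- **`TtalBridge.scale`**: a constant multiple lies in both rings and is a unit of one. -/
theorem ttal_red_scale (h₁ : TtbRed A V₁.toSubring red₁) (h₂ : TtbRed A V₂.toSubring red₂)
    (f : F) (hf : f ≠ 0) :
    ∃ c : K, c ≠ 0 ∧ algebraMap K F c * f ∈ V₁ ∧ algebraMap K F c * f ∈ V₂ ∧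
      (algebraMap K F c * f ∉ V₁.nonunits ∨ algebraMap K F c * f ∉ V₂.nonunits) := by
  obtain ⟨c₁, hc₁, hm₁, hr₁⟩ := h₁.scale f hf
  obtain ⟨c₂, hc₂, hm₂, hr₂⟩ := h₂.scale f hf
  rcases le_total (A.valuation c₁) (A.valuation c₂) with hle | hle
  · have ha : c₁ / c₂ ∈ A := by
      rw [← A.valuation_le_one_iff, map_div₀]
      exact div_le_one_of_le₀ hle zero_le
    have hm : algebraMap K F c₁ * f ∈ V₂ := by
      have : algebraMap K F c₁ * f = algebraMap K F (c₁ / c₂) * (algebraMap K F c₂ * f) := by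
        rw [← mul_assoc, ← map_mul, div_mul_cancel₀ _ hc₂]
      rw [this]
      exact V₂.mul_mem _ _ (h₂.const_mem ⟨_, ha⟩) hm₂
    exact ⟨c₁, hc₁, hm₁, hm, Or.inl fun hcon => hr₁ ((ttal_red_ker h₁ _).mpr hcon)⟩
  · have ha : c₂ / c₁ ∈ A := by
      rw [← A.valuation_le_one_iff, map_div₀]
      exact div_le_one_of_le₀ hle zero_le
    have hm : algebraMap K F c₂ * f ∈ V₁ := by
      have : algebraMap K F c₂ * f = algebraMap K F (c₂ / c₁) * (algebraMap K F c₁ * f) := by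
        rw [← mul_assoc, ← map_mul, div_mul_cancel₀ _ hc₁]
      rw [this]
      exact V₁.mul_mem _ _ (h₁.const_mem ⟨_, ha⟩) hm₁
    exact ⟨c₂, hc₂, hm, hm₂, Or.inr fun hcon => hr₂ ((ttal_red_ker h₂ _).mpr hcon)⟩

/-- **`hnorm` of `ttal_alpha`** from the reduction axioms, the idempotents, roots and rank one. -/
theorem ttal_red_hnorm (h₁ : TtbRed A V₁.toSubring red₁) (h₂ : TtbRed A V₂.toSubring red₂)
    (e₁ e₂ : F) (he : e₁ + e₂ = 1) (he₂ : e₂ ∈ V₁.nonunits) (he₁ : e₁ ∈ V₂.nonunits)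
    (hroot : ∀ (a : K) (m : ℕ), a ≠ 0 → m ≠ 0 → ∃ a' : K, a' ^ m = a)
    (hrk : ∀ (c π₁ π₂ : K), c ≠ 0 → π₁ ≠ 0 → π₂ ≠ 0 → π₁ ∈ A.nonunits → π₂ ∈ A.nonunits →
      ∃ (m : ℕ) (d : K), m ≠ 0 ∧ d ^ m = c ∧ d * π₁ ∈ A.nonunits ∧ d⁻¹ * π₂ ∈ A.nonunits)
    (n : ℕ) (hn : n ≠ 0) (f : Fˣ) : ∃ g : Fˣ, f * g ^ n ∈ ttalUnits V₁ V₂ :=
  ttal_hnorm (ttal_red_idem h₁ h₂ e₁ e₂ he he₂ he₁) hroot hrk (ttal_red_hsc h₁) (ttal_red_hsc h₂)
    n hn f

end Two

end Fermat.Agent.TT
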