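import Mathlib
import Fermat.Agent.TT.Red2.GalAbs
import Fermat.Agent.TT.Alpha.OfRed

/-!
# Program TT (S33), leaves (α) + BRIDGE: the second valuation `V₂ = w⁻¹ V₁`

Owner: helper29.  Namespace `Fermat.Agent.TT`, prefix `ttal`.
Imports helper27's `TT/Red2/GalAbs.lean` (`ttrhV2`, `ttrhRed2`; `ttalRed2` is the same map with the `ValuationSubring` spelling of its source) and helper26's `TT/B2/Lattice.lean`.

`V₁` a valuation subring of `F`, `w : F ≃+* F` fixing the constants, `V₂ := ttalV2 V₁ w = w⁻¹ V₁`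
(as a `ValuationSubring`; its underlying subring is `ttrhV2 V₁ w`), `red₂ = ttrhRed2 V₁ w red₁`.

* `ttal_mem_V2`, `ttal_mem_V2_nonunits` : membership;
* `ttal_red_comap` : `TtbRed A V₁ red₁` ⟹ `TtbRed A V₂ red₂`;
* `ttal_idem_of_u` : the idempotents `e₁ = u₂/(u₁+u₂)`, `e₂ = u₁/(u₁+u₂)` from `w u₁ = -u₂`,
  `w u₂ = -u₁`, `red₁ u₁ = 0`, `red₁ u₂ ≠ 0`;
* `ttal_move_V2` : an automorphism commuting with `w` which moves `V₁` by `𝔪_{V₁}` moves `V₂` by
  `𝔪_{V₂}`.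
-/

set_option autoImplicit false
set_option linter.unusedSectionVars false
set_option linter.unusedVariables false

noncomputable section

namespace Fermat.Agent.TT

open IsLocalRing

variable {F : Type*} [Field F]

/-- `V₂ = w⁻¹ V₁` as a valuation subring. -/
def ttalV2 (V₁ : ValuationSubring F) (w : F ≃+* F) : ValuationSubring F :=
  V₁.comap (w : F →+* F)

theorem ttal_mem_V2 {V₁ : ValuationSubring F} {w : F ≃+* F} {x : F} :
    x ∈ ttalV2 V₁ w ↔ w x ∈ V₁ := Iff.rfl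

theorem ttalV2_toSubring (V₁ : ValuationSubring F) (w : F ≃+* F) :
    (ttalV2 V₁ w).toSubring = ttrhV2 V₁.toSubring w := rfl

theorem ttal_mem_V2_nonunits {V₁ : ValuationSubring F} {w : F ≃+* F} {x : F} :
    x ∈ (ttalV2 V₁ w).nonunits ↔ w x ∈ V₁.nonunits := by
  rw [ValuationSubring.mem_nonunits_iff_or, ValuationSubring.mem_nonunits_iff_or, ttal_mem_V2,
    map_inv₀]
  constructor
  · rintro (h | h)
    · left; rw [h, map_zero]
    · right; exact h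
  · rintro (h | h)
    · left; exact (map_eq_zero_iff w w.injective).mp h
    · right; exact h

/-- `red₂ = red₁ ∘ w` on `V₂` (definitionally helper27's `ttrhRed2 V₁.toSubring w red₁`). -/
def ttalRed2 {Fk : Type*} [Semiring Fk] (V₁ : ValuationSubring F) (w : F ≃+* F)
    (red₁ : ↥V₁.toSubring →+* Fk) : ↥(ttalV2 V₁ w).toSubring →+* Fk :=
  ttrhRed2 V₁.toSubring w red₁

theorem ttalRed2_apply {Fk : Type*} [Semiring Fk] (V₁ : ValuationSubring F) (w : F ≃+* F)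
    (red₁ : ↥V₁.toSubring →+* Fk) (x : ↥(ttalV2 V₁ w).toSubring) :
    ttalRed2 V₁ w red₁ x = red₁ ⟨w (x : F), x.2⟩ := rfl

variable {K : Type*} [Field K] {A : ValuationSubring K} [Algebra K F]
variable {Fk : Type*} [Field Fk] [Algebra (ResidueField A) Fk]

/-- **the reduction axioms of the second valuation.** -/
theorem ttal_red_comap {V₁ : ValuationSubring F} {red₁ : ↥V₁.toSubring →+* Fk}
    (h₁ : TtbRed A V₁.toSubring red₁) (w : F ≃+* F)
    (hwc : ∀ c : K, w (algebraMap K F c) = algebraMap K F c) :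
    TtbRed A (ttalV2 V₁ w).toSubring (ttalRed2 V₁ w red₁) where
  const_mem := fun a => by
    show w (algebraMap K F (a : K)) ∈ V₁
    rw [hwc]
    exact h₁.const_mem a
  red_const := fun a => by
    rw [ttalRed2_apply, ← h₁.red_const a]
    congr 1
    exact Subtype.ext (hwc _)
  ker := by
    intro x hx
    rw [ttalRed2_apply] at hx
    obtain ⟨π, hπ, y, hy⟩ := h₁.ker _ hx
    have hy' : w (x : F) = algebraMap K F (π : K) * (y : F) := hy
    refine ⟨π, hπ, ⟨w.symm (y : F), ?_⟩, ?_⟩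
    · show w (w.symm (y : F)) ∈ V₁
      rw [RingEquiv.apply_symm_apply]
      exact y.2
    · show (x : F) = algebraMap K F (π : K) * w.symm (y : F)
      apply w.injective
      rw [map_mul, RingEquiv.apply_symm_apply, hwc, hy']
  scale := by
    intro f hf
    obtain ⟨c, hc0, hm, hr⟩ := h₁.scale (w f) ((map_ne_zero_iff w w.injective).mpr hf)
    have e : w (algebraMap K F c * f) = algebraMap K F c * w f := by rw [map_mul, hwc]
    refine ⟨c, hc0, ?_, ?_⟩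
    · show w (algebraMap K F c * f) ∈ V₁
      rw [e]; exact hm
    · rw [ttalRed2_apply]
      intro h0
      apply hr
      rw [← h0]
      congr 1
      exact Subtype.ext e.symm

/-- **the idempotents** from `u₁, u₂`. -/
theorem ttal_idem_of_u {V₁ : ValuationSubring F} {red₁ : ↥V₁.toSubring →+* Fk}
    (h₁ : TtbRed A V₁.toSubring red₁) (w : F ≃+* F)
    {u₁ u₂ : F} (hwu₁ : w u₁ = -u₂) (hwu₂ : w u₂ = -u₁) (hu₁ : u₁ ∈ V₁) (hu₂ : u₂ ∈ V₁)
    (hr₁ : red₁ ⟨u₁, hu₁⟩ = 0) (hr₂ : red₁ ⟨u₂, hu₂⟩ ≠ 0) :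
    u₂ / (u₁ + u₂) + u₁ / (u₁ + u₂) = 1 ∧ u₁ / (u₁ + u₂) ∈ V₁.nonunits ∧
      u₂ / (u₁ + u₂) ∈ (ttalV2 V₁ w).nonunits := by
  have hs : u₁ + u₂ ∈ V₁ := V₁.add_mem _ _ hu₁ hu₂
  have hrs : red₁ ⟨u₁ + u₂, hs⟩ ≠ 0 := by
    have : (⟨u₁ + u₂, hs⟩ : ↥V₁.toSubring) = ⟨u₁, hu₁⟩ + ⟨u₂, hu₂⟩ := rfl
    rw [this, map_add, hr₁, zero_add]
    exact hr₂
  have hs0 : u₁ + u₂ ≠ 0 := by
    intro h0
    apply hrs
    have : (⟨u₁ + u₂, hs⟩ : ↥V₁.toSubring) = 0 := Subtype.ext h0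
    rw [this, map_zero]
  have hsi : (u₁ + u₂)⁻¹ ∈ V₁ := by
    by_contra hcon
    apply hrs
    rw [ttal_red_ker h₁, ValuationSubring.mem_nonunits_iff_or]
    exact Or.inr hcon
  have hu₁n : u₁ ∈ V₁.nonunits := (ttal_red_ker h₁ ⟨u₁, hu₁⟩).mp hr₁
  have he₂ : u₁ / (u₁ + u₂) ∈ V₁.nonunits := by
    rw [div_eq_mul_inv]
    exact ttal_nonunits_mul hu₁n hsi
  refine ⟨?_, he₂, ?_⟩
  · rw [← add_div, add_comm, div_self hs0]
  · rw [ttal_mem_V2_nonunits, map_div₀, map_add, hwu₁, hwu₂]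
    have : -u₁ / (-u₂ + -u₁) = u₁ / (u₁ + u₂) := by
      rw [show -u₂ + -u₁ = -(u₁ + u₂) by ring, neg_div_neg_eq]
    rw [this]
    exact he₂

/-- an automorphism `s` commuting with `w` and moving `V₁` by `𝔪_{V₁}` moves `V₂` by `𝔪_{V₂}`. -/
theorem ttal_move_V2 {V₁ : ValuationSubring F} (w : F ≃+* F) (s : F → F)
    (hsub : ∀ x y, s (x - y) = s x - s y)
    (hcomm : ∀ x, s (w x) = w (s x)) (h : ∀ x ∈ V₁, s x - x ∈ V₁.nonunits)
    (x : F) (hx : x ∈ ttalV2 V₁ w) : s x - x ∈ (ttalV2 V₁ w).nonunits := by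
  rw [ttal_mem_V2_nonunits, map_sub, ← hcomm]
  exact h _ hx

/-- an automorphism stabilising `V₁` and acting trivially on `red₁` moves `V₁` by `𝔪_{V₁}`. -/
theorem ttal_move_of_triv {V₁ : ValuationSubring F} {red₁ : ↥V₁.toSubring →+* Fk}
    (s : F → F) (hstab : ∀ x ∈ V₁, s x ∈ V₁)
    (htriv : ∀ (x : F) (hx : x ∈ V₁), red₁ ⟨s x, hstab x hx⟩ = red₁ ⟨x, hx⟩)
    (x : F) (hx : x ∈ V₁) : s x - x ∈ V₁.nonunits := by
  have h0 : red₁ (⟨s x, hstab x hx⟩ - ⟨x, hx⟩) = 0 := by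
    rw [map_sub, htriv x hx, sub_self]
  exact ttal_red_mem_nonunits h0

end Fermat.Agent.TT
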