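import Mathlib
import Fermat.Agent.TT.Nodal.Space

/-!
# Program TT (S33), leaf BRIDGE: the inputs (N) and (G) of `TtalBridge` on the nodal closed fibre

Owner: helper29.  Namespace `Fermat.Agent.TT`, prefix `ttal`.
Imports helper25's `TT/Nodal/Space.lean` (the spaces `ttnkL ν₁ ν₂ A₁ A₂` of the nodal curve).

* `ttal_rr_root`     : `a^n ∈ L(n D)` ⟹ `a ∈ L(D)` (`n ≠ 0`);
* `ttal_val_root`    : `a^n` has a value at a place of degree one ⟹ `a` has a value;
* `ttal_nodal_root`  : **(N)** `(a^n, b^n) ∈ L̃(n D̃)` ⟹ `(a, b) ∈ L̃(D̃)` when `x ↦ x^n` is injective on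
  the constants (a TRUE node: the two branches are glued by the values only);
* `ttal_pow_char_inj`: `x ↦ x^(p^k)` is injective in characteristic `p`;
* `ttal_nodal_gen`   : **(G)** `L̃(D̃) = K·1` ⟹ every section is a constant pair.
-/

set_option autoImplicit false
set_option linter.unusedSectionVars false
set_option linter.unusedVariables false

noncomputable section

namespace Fermat.Agent.TT

open AlgebraicCurve Fermat.Agent.G Fermat.Agent.FF

variable {K : Type*} [Field K]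

/-- `a^n ∈ L(n D)` implies `a ∈ L(D)`. -/
theorem ttal_rr_root {F : Type*} [Field F] [Algebra K F] {D : Divisor K F} {n : ℕ} (hn : n ≠ 0)
    {a : F} (h : a ^ n ∈ riemannRochSpace (n • D)) : a ∈ riemannRochSpace D := by
  by_cases ha : a = 0
  · rw [ha]; exact Submodule.zero_mem _
  rw [ffkm_mem_iff ha]
  intro v
  have h1 := (ffkm_mem_iff (pow_ne_zero n ha)).mp h v
  rw [← zpow_natCast, Place.ord_zpow, Finsupp.smul_apply, nsmul_eq_mul] at h1
  have hnpos : (0 : ℤ) < (n : ℤ) := by exact_mod_cast Nat.pos_of_ne_zero hn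
  have h2 : (n : ℤ) * (-D v) ≤ (n : ℤ) * v.ord a := by linarith
  exact le_of_mul_le_mul_left h2 hnpos

/-- values of powers. -/
theorem ttal_val_pow {F : Type*} [Field F] [Algebra K F] (P : Place K F) {x : F} {a : K}
    (hx : GrdVal P x a) (n : ℕ) : GrdVal P (x ^ n) (a ^ n) := by
  induction n with
  | zero => simpa using ttnk_val_one P
  | succ n ih =>
    rw [pow_succ, pow_succ]
    exact grdg_val_mul P ih hx

/-- if `a^n` is regular at a place of degree one, then `a` has a value there. -/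
theorem ttal_val_root {F : Type*} [Field F] [Algebra K F] (P : Place K F) (hP : P.deg = 1)
    {n : ℕ} (hn : n ≠ 0) {a : F} {c : K} (h : GrdVal P (a ^ n) c) :
    ∃ α : K, GrdVal P a α ∧ α ^ n = c := by
  have hmem : a ^ n ∈ P.toValuationSubring := grdg_val_mem P h
  have hamem : a ∈ P.toValuationSubring := by
    rw [← ValuationSubring.valuation_le_one_iff] at hmem ⊢
    rw [map_pow] at hmem
    by_contra hcon
    have : 1 < P.toValuationSubring.valuation a := not_le.mp hcon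
    exact absurd hmem (not_le.mpr (one_lt_pow₀ this hn))
  obtain ⟨α, hα⟩ := ttnk_val_exists P hP hamem
  exact ⟨α, hα, grdg_val_unique P (ttal_val_pow P hα n) h⟩

variable {F₁ F₂ : Type*} [Field F₁] [Field F₂] [Algebra K F₁] [Algebra K F₂]
  {ι : Type*} [Fintype ι] (ν₁ : ι → Place K F₁) (ν₂ : ι → Place K F₂)

/-- **(N)**: `n`-th roots of sections of the nodal curve. -/
theorem ttal_nodal_root (hdeg₁ : ∀ i, (ν₁ i).deg = 1) (hdeg₂ : ∀ i, (ν₂ i).deg = 1) {n : ℕ}
    (hn : n ≠ 0) (hinj : ∀ x y : K, x ^ n = y ^ n → x = y) (D₁ : Divisor K F₁)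
    (D₂ : Divisor K F₂) (a : F₁) (b : F₂)
    (h : (a ^ n, b ^ n) ∈ ttnkL ν₁ ν₂ (n • D₁) (n • D₂)) : (a, b) ∈ ttnkL ν₁ ν₂ D₁ D₂ := by
  obtain ⟨h1, h2, h3⟩ := h
  refine ⟨ttal_rr_root hn h1, ttal_rr_root hn h2, fun i => ?_⟩
  obtain ⟨c, hc1, hc2⟩ := h3 i
  obtain ⟨α, hα, hαc⟩ := ttal_val_root (ν₁ i) (hdeg₁ i) hn hc1
  obtain ⟨β, hβ, hβc⟩ := ttal_val_root (ν₂ i) (hdeg₂ i) hn hc2
  have : α = β := hinj α β (by rw [hαc, hβc])
  exact ⟨α, hα, this ▸ hβ⟩

/-- `x ↦ x^(p^k)` is injective in characteristic `p`. -/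
theorem ttal_pow_char_inj (p : ℕ) [Fact p.Prime] [CharP K p] (k : ℕ) (x y : K)
    (h : x ^ p ^ k = y ^ p ^ k) : x = y := by
  have h1 : (x - y) ^ p ^ k = 0 := by
    rw [sub_pow_char_pow, h, sub_self]
  exact sub_eq_zero.mp (pow_eq_zero_iff (pow_ne_zero k (Fact.out : p.Prime).ne_zero) |>.mp h1)

/-- **(G)**: if `L̃(D̃) = K·1`, every section is a constant pair. -/
theorem ttal_nodal_gen {D₁ : Divisor K F₁} {D₂ : Divisor K F₂}
    (h : ttnkL ν₁ ν₂ D₁ D₂ = Submodule.span K {(1 : F₁ × F₂)}) (q : F₁ × F₂)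
    (hq : q ∈ ttnkL ν₁ ν₂ D₁ D₂) : ∃ c : K, q = (algebraMap K F₁ c, algebraMap K F₂ c) := by
  rw [h, Submodule.mem_span_singleton] at hq
  obtain ⟨c, rfl⟩ := hq
  refine ⟨c, ?_⟩
  rw [Algebra.algebraMap_eq_smul_one, Algebra.algebraMap_eq_smul_one]
  rfl

end Fermat.Agent.TT
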