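import Mathlib
import Fermat.Agent.TT.Alpha.OfRed
import Fermat.Agent.TT.Alpha.NodalRoot

/-!
# Program TT (S33), leaf BRIDGE: the instance of `TtalBridge` (assembly, hypothesis-first)

Owner: helper29.  Namespace `Fermat.Agent.TT`, prefix `ttal`.

* `ttalCls T₁ T₂ r₁ r₂ : Place → Option (Q₁ ⊕ Q₂)` : THE residue class map (`T_j v` = "`v` is a
  good place of the component `j`", `r_j` the reduction of places; `none` at the bad places);
* `ttal_mapDomain_apply`, `ttal_cls_apply₁/₂` : the push-forward along `ttalCls` at a class is the sum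
  over the residue disc;
* `ttal_cls_push₁/₂` : equal classes ⟹ equal push-forwards `mapDomain r_j (D.filter T_j)`
  (the shape of helper23's `ttri_into`);
* `ttal_bridge_inst` : **`TtalBridge`** from the reduction axioms of `V₁, V₂`, the closed origin
  `L̃(D̃₀) = k·1`, (S) at `n D₀`, (V) at the bad places and (D) on every residue disc.
-/

set_option autoImplicit false
set_option linter.unusedSectionVars false
set_option linter.unusedVariables false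

noncomputable section

namespace Fermat.Agent.TT

open AlgebraicCurve IsLocalRing Classical

section Cls

variable {α β₁ β₂ : Type*}

/-- **the residue class map.** -/
def ttalCls (T₁ T₂ : α → Prop) (r₁ : α → β₁) (r₂ : α → β₂) (v : α) : Option (β₁ ⊕ β₂) :=
  if T₁ v then some (Sum.inl (r₁ v)) else if T₂ v then some (Sum.inr (r₂ v)) else none

theorem ttal_cls_eq_inl {T₁ T₂ : α → Prop} {r₁ : α → β₁} {r₂ : α → β₂} {v : α} {Q : β₁} :
    ttalCls T₁ T₂ r₁ r₂ v = some (Sum.inl Q) ↔ T₁ v ∧ r₁ v = Q := by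
  unfold ttalCls
  by_cases h1 : T₁ v
  · rw [if_pos h1]
    simp [h1]
  · rw [if_neg h1]
    by_cases h2 : T₂ v
    · rw [if_pos h2]; simp [h1]
    · rw [if_neg h2]; simp [h1]

theorem ttal_cls_eq_inr {T₁ T₂ : α → Prop} (hT : ∀ v, T₁ v → ¬ T₂ v) {r₁ : α → β₁}
    {r₂ : α → β₂} {v : α} {Q : β₂} :
    ttalCls T₁ T₂ r₁ r₂ v = some (Sum.inr Q) ↔ T₂ v ∧ r₂ v = Q := by
  unfold ttalCls
  by_cases h1 : T₁ v
  · rw [if_pos h1]
    have := hT v h1
    simp [this]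
  · rw [if_neg h1]
    by_cases h2 : T₂ v
    · rw [if_pos h2]; simp [h2]
    · rw [if_neg h2]; simp [h2]

/-- the push-forward of a divisor at a point is the sum over the fibre. -/
theorem ttal_mapDomain_apply {γ : Type*} (f : α → γ) (D : α →₀ ℤ) (b : γ)
    [DecidablePred fun v => f v = b] :
    Finsupp.mapDomain f D b = ∑ v ∈ D.support.filter (fun v => f v = b), D v := by
  rw [Finsupp.mapDomain, Finsupp.sum_apply, Finsupp.sum, Finset.sum_filter]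
  refine Finset.sum_congr rfl fun v _ => ?_
  by_cases h : f v = b
  · rw [if_pos h, h, Finsupp.single_eq_same]
  · rw [if_neg h, Finsupp.single_eq_of_ne (Ne.symm h)]

theorem ttal_cls_apply₁ (T₁ T₂ : α → Prop) (r₁ : α → β₁) (r₂ : α → β₂) (D : α →₀ ℤ) (Q : β₁) :
    Finsupp.mapDomain (ttalCls T₁ T₂ r₁ r₂) D (some (Sum.inl Q)) =
      ∑ v ∈ D.support.filter (fun v => T₁ v ∧ r₁ v = Q), D v := by
  rw [ttal_mapDomain_apply]
  refine Finset.sum_congr ?_ fun _ _ => rfl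
  ext v
  simp only [Finset.mem_filter, ttal_cls_eq_inl]

theorem ttal_cls_apply₂ (T₁ T₂ : α → Prop) (hT : ∀ v, T₁ v → ¬ T₂ v) (r₁ : α → β₁)
    (r₂ : α → β₂) (D : α →₀ ℤ) (Q : β₂) :
    Finsupp.mapDomain (ttalCls T₁ T₂ r₁ r₂) D (some (Sum.inr Q)) =
      ∑ v ∈ D.support.filter (fun v => T₂ v ∧ r₂ v = Q), D v := by
  rw [ttal_mapDomain_apply]
  refine Finset.sum_congr ?_ fun _ _ => rfl
  ext v
  simp only [Finset.mem_filter, ttal_cls_eq_inr hT]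

/-- the push-forward of the `T`-part of a divisor, evaluated at a point. -/
theorem ttal_mapDomain_filter_apply {β : Type*} (r : α → β) (T : α → Prop) (D : α →₀ ℤ) (Q : β) :
    Finsupp.mapDomain r (D.filter T) Q = ∑ v ∈ D.support.filter (fun v => T v ∧ r v = Q), D v := by
  rw [ttal_mapDomain_apply, Finsupp.support_filter, Finset.filter_filter]
  refine Finset.sum_congr rfl fun v hv => ?_
  rw [Finsupp.filter_apply_pos T D (Finset.mem_filter.1 hv).2.1]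

/-- equal residue classes give equal push-forwards on the first component. -/
theorem ttal_cls_push₁ (T₁ T₂ : α → Prop) (r₁ : α → β₁) (r₂ : α → β₂) {D D' : α →₀ ℤ}
    (h : Finsupp.mapDomain (ttalCls T₁ T₂ r₁ r₂) D = Finsupp.mapDomain (ttalCls T₁ T₂ r₁ r₂) D') :
    Finsupp.mapDomain r₁ (D.filter T₁) = Finsupp.mapDomain r₁ (D'.filter T₁) := by
  ext Q
  rw [ttal_mapDomain_filter_apply, ttal_mapDomain_filter_apply, ← ttal_cls_apply₁ T₁ T₂ r₁ r₂,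
    ← ttal_cls_apply₁ T₁ T₂ r₁ r₂, h]

/-- equal residue classes give equal push-forwards on the second component. -/
theorem ttal_cls_push₂ (T₁ T₂ : α → Prop) (hT : ∀ v, T₁ v → ¬ T₂ v) (r₁ : α → β₁)
    (r₂ : α → β₂) {D D' : α →₀ ℤ}
    (h : Finsupp.mapDomain (ttalCls T₁ T₂ r₁ r₂) D = Finsupp.mapDomain (ttalCls T₁ T₂ r₁ r₂) D') :
    Finsupp.mapDomain r₂ (D.filter T₂) = Finsupp.mapDomain r₂ (D'.filter T₂) := by
  ext Q
  rw [ttal_mapDomain_filter_apply, ttal_mapDomain_filter_apply,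
    ← ttal_cls_apply₂ T₁ T₂ hT r₁ r₂, ← ttal_cls_apply₂ T₁ T₂ hT r₁ r₂, h]

/-- a divisor vanishing at the bad places with all disc-sums zero has zero push-forward. -/
theorem ttal_cls_eq_zero (T₁ T₂ : α → Prop) (hT : ∀ v, T₁ v → ¬ T₂ v) (r₁ : α → β₁)
    (r₂ : α → β₂) (D : α →₀ ℤ) (hbad : ∀ v, ¬ T₁ v → ¬ T₂ v → D v = 0)
    (h₁ : ∀ Q : β₁, ∑ v ∈ D.support.filter (fun v => T₁ v ∧ r₁ v = Q), D v = 0)
    (h₂ : ∀ Q : β₂, ∑ v ∈ D.support.filter (fun v => T₂ v ∧ r₂ v = Q), D v = 0) :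
    Finsupp.mapDomain (ttalCls T₁ T₂ r₁ r₂) D = 0 := by
  ext q
  rw [Finsupp.zero_apply]
  rcases q with _ | (Q | Q)
  · rw [ttal_mapDomain_apply]
    refine Finset.sum_eq_zero fun v hv => ?_
    have hv' := (Finset.mem_filter.1 hv).2
    unfold ttalCls at hv'
    by_cases h1 : T₁ v
    · rw [if_pos h1] at hv'; exact absurd hv' (by simp)
    · rw [if_neg h1] at hv'
      by_cases h2 : T₂ v
      · rw [if_pos h2] at hv'; exact absurd hv' (by simp)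
      · exact hbad v h1 h2
  · rw [ttal_cls_apply₁]; exact h₁ Q
  · rw [ttal_cls_apply₂ T₁ T₂ hT]; exact h₂ Q

end Cls

section Inst

variable {K : Type*} [Field K] {A : ValuationSubring K} {F : Type*} [Field F] [Algebra K F]
variable {F₁ F₂ : Type*} [Field F₁] [Field F₂] [Algebra (ResidueField A) F₁]
  [Algebra (ResidueField A) F₂]
variable {ι : Type*} [Fintype ι]

/-- **THE INSTANCE OF THE BRIDGE** (assembly).  `n`-th powers are injective on the residue field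
(`n = p^k` in characteristic `p`: `ttal_pow_char_inj`). -/
theorem ttal_bridge_inst (V₁ V₂ : ValuationSubring F) (red₁ : ↥V₁.toSubring →+* F₁)
    (red₂ : ↥V₂.toSubring →+* F₂) (h₁ : TtbRed A V₁.toSubring red₁)
    (h₂ : TtbRed A V₂.toSubring red₂)
    (ν₁ : ι → Place (ResidueField A) F₁) (ν₂ : ι → Place (ResidueField A) F₂)
    (hdeg₁ : ∀ i, (ν₁ i).deg = 1) (hdeg₂ : ∀ i, (ν₂ i).deg = 1)
    {n : ℕ} (hn : n ≠ 0) (hinj : ∀ x y : ResidueField A, x ^ n = y ^ n → x = y)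
    (T₁ T₂ : Place K F → Prop) (hT : ∀ v, T₁ v → ¬ T₂ v)
    (r₁ : Place K F → Place (ResidueField A) F₁) (r₂ : Place K F → Place (ResidueField A) F₂)
    (D₀ : Divisor K F) (D₁ : Divisor (ResidueField A) F₁) (D₂ : Divisor (ResidueField A) F₂)
    (hbad₀ : ∀ v, ¬ T₁ v → ¬ T₂ v → D₀ v = 0)
    (hgen : ttnkL ν₁ ν₂ D₁ D₂ = Submodule.span (ResidueField A) {(1 : F₁ × F₂)})
    (hsec : ∀ (x : F) (hx₁ : x ∈ V₁) (hx₂ : x ∈ V₂), x ≠ 0 →
      (∀ v : Place K F, -((n : ℤ) * D₀ v) ≤ v.ord x) →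
      (red₁ ⟨x, hx₁⟩, red₂ ⟨x, hx₂⟩) ∈ ttnkL ν₁ ν₂ (n • D₁) (n • D₂))
    (hV : ∀ (x : F) (hx₁ : x ∈ V₁) (hx₂ : x ∈ V₂) (c : ResidueField A), c ≠ 0 → x ≠ 0 →
      red₁ ⟨x, hx₁⟩ = algebraMap (ResidueField A) F₁ c →
      red₂ ⟨x, hx₂⟩ = algebraMap (ResidueField A) F₂ c →
      ∀ v : Place K F, ¬ T₁ v → ¬ T₂ v → 0 ≤ v.ord x → v.ord x = 0)
    (hDiv₁ : ∀ (x : F) (hx₁ : x ∈ V₁) (hx₂ : x ∈ V₂) (c : ResidueField A), c ≠ 0 → x ≠ 0 →
      red₁ ⟨x, hx₁⟩ = algebraMap (ResidueField A) F₁ c →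
      red₂ ⟨x, hx₂⟩ = algebraMap (ResidueField A) F₂ c →
      ∀ Dx : Divisor K F, (∀ v : Place K F, Dx v = v.ord x) →
      ∀ Q : Place (ResidueField A) F₁,
        ∑ v ∈ Dx.support.filter (fun v => T₁ v ∧ r₁ v = Q), Dx v = 0)
    (hDiv₂ : ∀ (x : F) (hx₁ : x ∈ V₁) (hx₂ : x ∈ V₂) (c : ResidueField A), c ≠ 0 → x ≠ 0 →
      red₁ ⟨x, hx₁⟩ = algebraMap (ResidueField A) F₁ c →
      red₂ ⟨x, hx₂⟩ = algebraMap (ResidueField A) F₂ c →
      ∀ Dx : Divisor K F, (∀ v : Place K F, Dx v = v.ord x) →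
      ∀ Q : Place (ResidueField A) F₂,
        ∑ v ∈ Dx.support.filter (fun v => T₂ v ∧ r₂ v = Q), Dx v = 0) :
    TtalBridge (K := K) (k := ResidueField A) V₁ V₂ red₁ red₂ n D₀
      {v | ¬ T₁ v ∧ ¬ T₂ v} (ttalCls T₁ T₂ r₁ r₂)
      (↑(ttnkL ν₁ ν₂ (n • D₁) (n • D₂)) : Set (F₁ × F₂))
      (↑(ttnkL ν₁ ν₂ D₁ D₂) : Set (F₁ × F₂)) where
  ker₁ := ttal_red_ker h₁
  ker₂ := ttal_red_ker h₂
  scale := ttal_red_scale h₁ h₂
  sec := hsec
  root := fun a b hab => ttal_nodal_root ν₁ ν₂ hdeg₁ hdeg₂ hn hinj D₁ D₂ a b hab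
  gen := fun q hq => ttal_nodal_gen ν₁ ν₂ hgen q hq
  bad₀ := fun v hv => hbad₀ v hv.1 hv.2
  const := by
    intro x hx₁ hx₂ c hc hx0 hbad hr₁ hr₂ Dx hDx
    have hb : ∀ v, ¬ T₁ v → ¬ T₂ v → Dx v = 0 := fun v hv₁ hv₂ => by
      rw [hDx v]
      exact hV x hx₁ hx₂ c hc hx0 hr₁ hr₂ v hv₁ hv₂ (hbad v ⟨hv₁, hv₂⟩)
    refine ⟨fun v hv => hb v hv.1 hv.2, ?_⟩
    exact ttal_cls_eq_zero T₁ T₂ hT r₁ r₂ Dx hb
      (hDiv₁ x hx₁ hx₂ c hc hx0 hr₁ hr₂ Dx hDx) (hDiv₂ x hx₁ hx₂ c hc hx0 hr₁ hr₂ Dx hDx)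

end Inst

end Fermat.Agent.TT
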