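import Mathlib
import Fermat.Agent.TT.Red2.Into
import Fermat.Agent.TT.Alpha.BridgeInst

/-!
# Program TT (S33), leaf BRIDGE: `TtalBridge` from helper23's local packages `TtriPt`

Owner: helper29.  Namespace `Fermat.Agent.TT`, prefix `ttal`.
Imports helper23's `TT/Red2/Into.lean` (`TtriPt`, `ttri_into`, `TtriPt.ord_eq_of_unit`).

`O2 = V₁ ⊓ V₂`, `ttalRedO₁ red₁`, `ttalRedO₂ red₂` the two reductions restricted to `O2`.

* `ttal_sec_of_into`  : (S) at `n D₀` from `ttri_into` (`D₀ ≥ 0` supported on good places, with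
  push-forwards `D̃₁, D̃₂`);
* `ttal_div_of_unit`  : (D) on every residue disc from `TtriPt.ord_eq_of_unit` ((B3) as `hsimple`);
* `ttal_bridge_of_into` : **`TtalBridge`** from: `TtbRed` for `V₁, V₂`; the hypotheses of `ttri_into`
  (local packages at the one-branch points + (LOC)/(NODE) at the nodes); (B3); the closed origin
  `L̃(D̃₀) = k·1`; (V) at the bad places.
-/

set_option autoImplicit false
set_option linter.unusedSectionVars false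
set_option linter.unusedVariables false

noncomputable section

namespace Fermat.Agent.TT

open AlgebraicCurve IsLocalRing Classical Fermat.Agent.G Fermat.Agent.S24 Fermat.Agent.FF

variable {K : Type*} [Field K] {A : ValuationSubring K} {F : Type*} [Field F] [Algebra K F]
variable {F₁ F₂ : Type*} [Field F₁] [Field F₂] [Algebra (ResidueField A) F₁]
  [Algebra (ResidueField A) F₂]

/-- `red₁` restricted to `O2 = V₁ ⊓ V₂`. -/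
def ttalRedO₁ {V₁ V₂ : ValuationSubring F} (red₁ : ↥V₁.toSubring →+* F₁) :
    ↥(V₁.toSubring ⊓ V₂.toSubring) →+* F₁ :=
  red₁.comp (Subring.inclusion inf_le_left)

/-- `red₂` restricted to `O2 = V₁ ⊓ V₂`. -/
def ttalRedO₂ {V₁ V₂ : ValuationSubring F} (red₂ : ↥V₂.toSubring →+* F₂) :
    ↥(V₁.toSubring ⊓ V₂.toSubring) →+* F₂ :=
  red₂.comp (Subring.inclusion inf_le_right)

theorem ttalRedO₁_apply {V₁ V₂ : ValuationSubring F} (red₁ : ↥V₁.toSubring →+* F₁)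
    (x : ↥(V₁.toSubring ⊓ V₂.toSubring)) :
    ttalRedO₁ (V₂ := V₂) red₁ x = red₁ ⟨x.1, x.2.1⟩ := rfl

theorem ttalRedO₂_apply {V₁ V₂ : ValuationSubring F} (red₂ : ↥V₂.toSubring →+* F₂)
    (x : ↥(V₁.toSubring ⊓ V₂.toSubring)) :
    ttalRedO₂ (V₁ := V₁) red₂ x = red₂ ⟨x.1, x.2.2⟩ := rfl

variable {ι : Type*}

/-- **(S) from INTO**: the reduction of `L(n D₀) ∩ O2` lies in `L̃(n D̃₀)`. -/
theorem ttal_sec_of_into [Fintype ι] (V₁ V₂ : ValuationSubring F)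
    (red₁ : ↥V₁.toSubring →+* F₁) (red₂ : ↥V₂.toSubring →+* F₂)
    (T₁ T₂ : Place K F → Prop) (r₁ : Place K F → Place (ResidueField A) F₁)
    (r₂ : Place K F → Place (ResidueField A) F₂)
    (ν₁ : ι → Place (ResidueField A) F₁) (ν₂ : ι → Place (ResidueField A) F₂)
    (cenN : ι → Place K F → Prop)
    (hpt₁ : ∀ Q : Place (ResidueField A) F₁, (∃ i, ν₁ i = Q) ∨
      ∃ (B : Subring F) (hBO : B ≤ V₁.toSubring ⊓ V₂.toSubring),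
        TtriPt A (V₁.toSubring ⊓ V₂.toSubring) B hBO (ttalRedO₁ red₁)
          (fun v => T₁ v ∧ r₁ v = Q) Q)
    (hpt₂ : ∀ Q : Place (ResidueField A) F₂, (∃ i, ν₂ i = Q) ∨
      ∃ (B : Subring F) (hBO : B ≤ V₁.toSubring ⊓ V₂.toSubring),
        TtriPt A (V₁.toSubring ⊓ V₂.toSubring) B hBO (ttalRedO₂ red₂)
          (fun v => T₂ v ∧ r₂ v = Q) Q)
    (hN : ∀ i, ∃ (B : Subring F) (hBO : B ≤ V₁.toSubring ⊓ V₂.toSubring),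
      (∀ x ∈ V₁.toSubring ⊓ V₂.toSubring, (∀ v, cenN i v → x ∈ v.toValuationSubring) →
        ∃ s : B, ¬ GrdVal (ν₁ i) (ttalRedO₁ (V₂ := V₂) red₁ ⟨s, hBO s.2⟩) 0 ∧ (s : F) * x ∈ B) ∧
      ∀ b : B, ∃ c : ResidueField A,
        GrdVal (ν₁ i) (ttalRedO₁ (V₂ := V₂) red₁ ⟨b, hBO b.2⟩) c ∧
          GrdVal (ν₂ i) (ttalRedO₂ (V₁ := V₁) red₂ ⟨b, hBO b.2⟩) c)
    (hrν₁ : ∀ v i, T₁ v → r₁ v ≠ ν₁ i) (hrν₂ : ∀ v i, T₂ v → r₂ v ≠ ν₂ i)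
    (D₀ : Divisor K F) (hD₀ : 0 ≤ D₀) (hD₀N : ∀ i v, cenN i v → D₀ v = 0)
    (D₁ : Divisor (ResidueField A) F₁) (D₂ : Divisor (ResidueField A) F₂)
    (hpush₁ : Finsupp.mapDomain r₁ (D₀.filter T₁) = D₁)
    (hpush₂ : Finsupp.mapDomain r₂ (D₀.filter T₂) = D₂) (n : ℕ)
    (x : F) (hx₁ : x ∈ V₁) (hx₂ : x ∈ V₂) (hx0 : x ≠ 0)
    (hord : ∀ v : Place K F, -((n : ℤ) * D₀ v) ≤ v.ord x) :
    (red₁ ⟨x, hx₁⟩, red₂ ⟨x, hx₂⟩) ∈ ttnkL ν₁ ν₂ (n • D₁) (n • D₂) := by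
  have hx : x ∈ V₁.toSubring ⊓ V₂.toSubring := ⟨hx₁, hx₂⟩
  have hnD : ∀ v, (n • D₀) v = (n : ℤ) * D₀ v := fun v => by
    rw [Finsupp.smul_apply, nsmul_eq_mul]
  have hD₀v : ∀ v, 0 ≤ D₀ v := fun v => by
    have := hD₀ v
    simpa using this
  have hnD0 : ∀ v, 0 ≤ (n • D₀) v := fun v => by
    rw [hnD]; exact mul_nonneg (Int.natCast_nonneg n) (hD₀v v)
  obtain ⟨h1, h2, h3⟩ := ttri_into (A := A) (V₁.toSubring ⊓ V₂.toSubring) (ttalRedO₁ red₁)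
    (ttalRedO₂ red₂) T₁ T₂ r₁ r₂ ν₁ ν₂ cenN hpt₁ hpt₂ hN hrν₁ hrν₂ hx hx0 (n • D₀)
    (fun v => by rw [hnD]; exact hord v)
    (fun i v hv => by rw [hnD, hD₀N i v hv, mul_zero])
    (fun v _ => by have := hnD0 v; omega) (fun v _ => by have := hnD0 v; omega)
    (fun v w _ _ _ hv _ => absurd hv (not_lt.mpr (hnD0 v)))
    (fun v w _ _ _ hv _ => absurd hv (not_lt.mpr (hnD0 v)))
  rw [Finsupp.filter_smul, Finsupp.mapDomain_smul, hpush₁] at h1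
  rw [Finsupp.filter_smul, Finsupp.mapDomain_smul, hpush₂] at h2
  exact ⟨h1, h2, h3⟩

/-- **(D) from (DIV) for units**: on every residue disc the divisor of a function reducing to a
nonzero constant has degree zero. -/
theorem ttal_div_of_unit {Fk : Type*} [Field Fk] [Algebra (ResidueField A) Fk]
    (O2 : Subring F) (red : O2 →+* Fk) (T : Place K F → Prop)
    (r : Place K F → Place (ResidueField A) Fk) (ν : ι → Place (ResidueField A) Fk)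
    (hpt : ∀ Q : Place (ResidueField A) Fk, (∃ i, ν i = Q) ∨
      ∃ (B : Subring F) (hBO : B ≤ O2),
        TtriPt A O2 B hBO red (fun v => T v ∧ r v = Q) Q ∧
        ∀ v, (T v ∧ r v = Q) → ∃ z : B, v.ord (z : F) = 1 ∧
          (∀ w, (T w ∧ r w = Q) → w ≠ v → (z : F) ∉ w.toValuationSubring.nonunits) ∧
          Q.ord (red ⟨z, hBO z.2⟩) = 1 ∧ (z : F)⁻¹ ∈ O2)
    (hrν : ∀ v i, T v → r v ≠ ν i)
    {x : F} (hx : x ∈ O2) (hxi : x⁻¹ ∈ O2) (hx0 : x ≠ 0) (c : ResidueField A)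
    (hred : red ⟨x, hx⟩ = algebraMap (ResidueField A) Fk c)
    (Dx : Divisor K F) (hDx : ∀ v : Place K F, Dx v = v.ord x)
    (Q : Place (ResidueField A) Fk) :
    ∑ v ∈ Dx.support.filter (fun v => T v ∧ r v = Q), Dx v = 0 := by
  rcases hpt Q with ⟨i, rfl⟩ | ⟨B, hBO, hQ, hsimple⟩
  · have hempty : Dx.support.filter (fun v => T v ∧ r v = ν i) = ∅ := by
      rw [Finset.filter_eq_empty_iff]
      intro v _ hv
      exact hrν v i hv.1 hv.2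
    rw [hempty, Finset.sum_empty]
  · have := hQ.ord_eq_of_unit hsimple hx hxi hx0 Dx (fun v _ => hDx v)
    rw [hred, PlaceOrd.ord_algebraMap] at this
    convert this using 2

/-- a unit: nonzero reduction gives the inverse in the valuation ring. -/
theorem ttal_inv_mem_of_red {Fk : Type*} [Field Fk] [Algebra (ResidueField A) Fk]
    {V : ValuationSubring F} {red : ↥V.toSubring →+* Fk} (h : TtbRed A V.toSubring red)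
    {x : F} (hx : x ∈ V) (hne : red ⟨x, hx⟩ ≠ 0) : x⁻¹ ∈ V := by
  by_contra hinv
  apply hne
  rw [ttal_red_ker h, ValuationSubring.mem_nonunits_iff_or]
  exact Or.inr hinv

/-- **THE INSTANCE OF THE BRIDGE from helper23's local packages.** -/
theorem ttal_bridge_of_into [Fintype ι] (V₁ V₂ : ValuationSubring F)
    (red₁ : ↥V₁.toSubring →+* F₁) (red₂ : ↥V₂.toSubring →+* F₂)
    (h₁ : TtbRed A V₁.toSubring red₁) (h₂ : TtbRed A V₂.toSubring red₂)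
    (ν₁ : ι → Place (ResidueField A) F₁) (ν₂ : ι → Place (ResidueField A) F₂)
    (hdeg₁ : ∀ i, (ν₁ i).deg = 1) (hdeg₂ : ∀ i, (ν₂ i).deg = 1)
    {n : ℕ} (hn : n ≠ 0) (hinj : ∀ x y : ResidueField A, x ^ n = y ^ n → x = y)
    (T₁ T₂ : Place K F → Prop) (hT : ∀ v, T₁ v → ¬ T₂ v)
    (r₁ : Place K F → Place (ResidueField A) F₁) (r₂ : Place K F → Place (ResidueField A) F₂)
    (cenN : ι → Place K F → Prop) (hcenN : ∀ i v, cenN i v → ¬ T₁ v ∧ ¬ T₂ v)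
    (hpt₁ : ∀ Q : Place (ResidueField A) F₁, (∃ i, ν₁ i = Q) ∨
      ∃ (B : Subring F) (hBO : B ≤ V₁.toSubring ⊓ V₂.toSubring),
        TtriPt A (V₁.toSubring ⊓ V₂.toSubring) B hBO (ttalRedO₁ red₁)
          (fun v => T₁ v ∧ r₁ v = Q) Q ∧
        ∀ v, (T₁ v ∧ r₁ v = Q) → ∃ z : B, v.ord (z : F) = 1 ∧
          (∀ w, (T₁ w ∧ r₁ w = Q) → w ≠ v → (z : F) ∉ w.toValuationSubring.nonunits) ∧
          Q.ord (ttalRedO₁ (V₂ := V₂) red₁ ⟨z, hBO z.2⟩) = 1 ∧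
          (z : F)⁻¹ ∈ V₁.toSubring ⊓ V₂.toSubring)
    (hpt₂ : ∀ Q : Place (ResidueField A) F₂, (∃ i, ν₂ i = Q) ∨
      ∃ (B : Subring F) (hBO : B ≤ V₁.toSubring ⊓ V₂.toSubring),
        TtriPt A (V₁.toSubring ⊓ V₂.toSubring) B hBO (ttalRedO₂ red₂)
          (fun v => T₂ v ∧ r₂ v = Q) Q ∧
        ∀ v, (T₂ v ∧ r₂ v = Q) → ∃ z : B, v.ord (z : F) = 1 ∧
          (∀ w, (T₂ w ∧ r₂ w = Q) → w ≠ v → (z : F) ∉ w.toValuationSubring.nonunits) ∧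
          Q.ord (ttalRedO₂ (V₁ := V₁) red₂ ⟨z, hBO z.2⟩) = 1 ∧
          (z : F)⁻¹ ∈ V₁.toSubring ⊓ V₂.toSubring)
    (hN : ∀ i, ∃ (B : Subring F) (hBO : B ≤ V₁.toSubring ⊓ V₂.toSubring),
      (∀ x ∈ V₁.toSubring ⊓ V₂.toSubring, (∀ v, cenN i v → x ∈ v.toValuationSubring) →
        ∃ s : B, ¬ GrdVal (ν₁ i) (ttalRedO₁ (V₂ := V₂) red₁ ⟨s, hBO s.2⟩) 0 ∧ (s : F) * x ∈ B) ∧
      ∀ b : B, ∃ c : ResidueField A,
        GrdVal (ν₁ i) (ttalRedO₁ (V₂ := V₂) red₁ ⟨b, hBO b.2⟩) c ∧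
          GrdVal (ν₂ i) (ttalRedO₂ (V₁ := V₁) red₂ ⟨b, hBO b.2⟩) c)
    (hrν₁ : ∀ v i, T₁ v → r₁ v ≠ ν₁ i) (hrν₂ : ∀ v i, T₂ v → r₂ v ≠ ν₂ i)
    (D₀ : Divisor K F) (hD₀ : 0 ≤ D₀) (hbad₀ : ∀ v, ¬ T₁ v → ¬ T₂ v → D₀ v = 0)
    (D₁ : Divisor (ResidueField A) F₁) (D₂ : Divisor (ResidueField A) F₂)
    (hpush₁ : Finsupp.mapDomain r₁ (D₀.filter T₁) = D₁)
    (hpush₂ : Finsupp.mapDomain r₂ (D₀.filter T₂) = D₂)
    (hgen : ttnkL ν₁ ν₂ D₁ D₂ = Submodule.span (ResidueField A) {(1 : F₁ × F₂)})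
    (hV : ∀ (x : F) (hx₁ : x ∈ V₁) (hx₂ : x ∈ V₂) (c : ResidueField A), c ≠ 0 → x ≠ 0 →
      red₁ ⟨x, hx₁⟩ = algebraMap (ResidueField A) F₁ c →
      red₂ ⟨x, hx₂⟩ = algebraMap (ResidueField A) F₂ c →
      ∀ v : Place K F, ¬ T₁ v → ¬ T₂ v → 0 ≤ v.ord x → v.ord x = 0) :
    TtalBridge (K := K) (k := ResidueField A) V₁ V₂ red₁ red₂ n D₀
      {v | ¬ T₁ v ∧ ¬ T₂ v} (ttalCls T₁ T₂ r₁ r₂)
      (↑(ttnkL ν₁ ν₂ (n • D₁) (n • D₂)) : Set (F₁ × F₂))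
      (↑(ttnkL ν₁ ν₂ D₁ D₂) : Set (F₁ × F₂)) := by
  have hunit : ∀ (x : F) (hx₁ : x ∈ V₁) (hx₂ : x ∈ V₂) (c : ResidueField A), c ≠ 0 →
      red₁ ⟨x, hx₁⟩ = algebraMap (ResidueField A) F₁ c →
      red₂ ⟨x, hx₂⟩ = algebraMap (ResidueField A) F₂ c →
      x⁻¹ ∈ V₁.toSubring ⊓ V₂.toSubring := by
    intro x hx₁ hx₂ c hc hr₁ hr₂
    refine ⟨ttal_inv_mem_of_red h₁ hx₁ ?_, ttal_inv_mem_of_red h₂ hx₂ ?_⟩
    · rw [hr₁]; exact (map_ne_zero_iff _ (algebraMap (ResidueField A) F₁).injective).mpr hc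
    · rw [hr₂]; exact (map_ne_zero_iff _ (algebraMap (ResidueField A) F₂).injective).mpr hc
  refine ttal_bridge_inst V₁ V₂ red₁ red₂ h₁ h₂ ν₁ ν₂ hdeg₁ hdeg₂ hn hinj T₁ T₂ hT r₁ r₂ D₀ D₁ D₂
    hbad₀ hgen ?_ hV ?_ ?_
  · intro x hx₁ hx₂ hx0 hord
    exact ttal_sec_of_into V₁ V₂ red₁ red₂ T₁ T₂ r₁ r₂ ν₁ ν₂ cenN
      (fun Q => (hpt₁ Q).imp id fun ⟨B, hBO, hQ, _⟩ => ⟨B, hBO, hQ⟩)
      (fun Q => (hpt₂ Q).imp id fun ⟨B, hBO, hQ, _⟩ => ⟨B, hBO, hQ⟩)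
      hN hrν₁ hrν₂ D₀ hD₀ (fun i v hv => hbad₀ v (hcenN i v hv).1 (hcenN i v hv).2)
      D₁ D₂ hpush₁ hpush₂ n x hx₁ hx₂ hx0 hord
  · intro x hx₁ hx₂ c hc hx0 hr₁ hr₂ Dx hDx Q
    exact ttal_div_of_unit (A := A) (V₁.toSubring ⊓ V₂.toSubring) (ttalRedO₁ red₁) T₁ r₁ ν₁ hpt₁
      hrν₁ (⟨hx₁, hx₂⟩ : x ∈ V₁.toSubring ⊓ V₂.toSubring) (hunit x hx₁ hx₂ c hc hr₁ hr₂) hx0 c
      hr₁ Dx hDx Q
  · intro x hx₁ hx₂ c hc hx0 hr₁ hr₂ Dx hDx Q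
    exact ttal_div_of_unit (A := A) (V₁.toSubring ⊓ V₂.toSubring) (ttalRedO₂ red₂) T₂ r₂ ν₂ hpt₂
      hrν₂ (⟨hx₁, hx₂⟩ : x ∈ V₁.toSubring ⊓ V₂.toSubring) (hunit x hx₁ hx₂ c hc hr₁ hr₂) hx0 c
      hr₂ Dx hDx Q

end Fermat.Agent.TT
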