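import Mathlib
import Fermat.Agent.TT.Alpha.IntoChart
import Fermat.Agent.TT.Alpha.BridgeInto
import Fermat.Agent.TT.Red2.LocInputs
import Fermat.Agent.TT.Red2.Inst

/-!
# Program TT (S33), (R-in) = INTO : THE PACKAGES `TtriPt` AT LEVEL `M p`, closed (prefix `ttal`)

Owner: helper29 (TT-PM R37/R38: `ttal_pt_inst₁/₂`).  Namespace `Fermat.Agent.TT`.

The canonical terms of (RED2) (helper2 `Red2All.lean`): `V₁ := ttrV1 M 𝔸 hpM h𝔸`,
`V₂ := ttalV2 V₁ (ttrW M hpM)`, `red₁ := ttrRed1 M 𝔸 h𝔸`, `red₂ := ttalRed2 V₁ (ttrW M hpM) red₁`,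
`O2 := V₁.toSubring ⊓ V₂.toSubring`, `ttalRedO₁ red₁`, `ttalRedO₂ red₂` (the shape of helper24's
`ttg_into_of_ttri'`).  For EVERY chart `hc : GrdChart M 𝔸 υ` of level `M` and EVERY place `Q` of
`F_k(M)` with `ῡ ∈ 𝒪_Q` (no goodness):

* **`ttal_pt_inst₁`** : `TtriPt` at `Q` for the first component, chart ring
  `B = grdB (M p) 𝔸 (α υ_ℚ̄)`, centre = `ttruCen 𝔸 B (α υ_ℚ̄) 𝔫_Q`;
* **`ttal_pt_inst₂`** : the same for the second component in the `β`-chart
  `B = grdB (M p) 𝔸 (β υ_ℚ̄)` (so NO integrality of `β υ` over `𝔸[α υ]` is needed: the cusps of the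
  second component are covered by the chart `β (1/j)`);
* `ttal_cen_unique_inst₁/₂` : uniqueness of the centre;
* all inputs are discharged : helper15's `LocInputs` (`ttrli_breg`, `ttrli_sat_alpha/beta`,
  `ttrli_res`, `ttrli_chart`, `ttrli_le_alpha/beta`), helper12's `ttr_alpha_mem`, `ttrRed1_alpha`,
  `ttr_beta_mem₂`, `ttrRed2_beta`, main `grd_lift`.
-/

set_option autoImplicit false
set_option linter.unusedSectionVars false
set_option linter.unusedVariables false
set_option linter.style.haveILetI false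
set_option synthInstance.maxHeartbeats 400000

noncomputable section

namespace Fermat.Agent.TT

open ModularCurve AlgebraicCurve IsLocalRing Polynomial Fermat.Agent.S18 Fermat.Agent.S24
  Fermat.Agent.G Fermat.Agent.FF Fermat.Agent.SS

local notation "Qb" => AlgebraicClosure ℚ

variable (M : ℕ) [NeZero M] {p : ℕ} [Fact p.Prime] [NeZero p]
variable (A : ValuationSubring Qb) (hpM : ¬ p ∣ M) (hA : A.LiesOverPrime p)
variable {υ : LaurentSeries ℤ} (hc : GrdChart M A υ)

/-- `V₂` of (RED2). -/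
abbrev ttalIV2 : ValuationSubring (modularFunctionFieldBar (M * p)) :=
  ttalV2 (ttrV1 M A hpM hA) (ttrW M hpM)

/-- `O2 = V₁ ⊓ V₂` of (RED2). -/
abbrev ttalIO2 : Subring (modularFunctionFieldBar (M * p)) :=
  (ttrV1 M A hpM hA).toSubring ⊓ (ttalIV2 M A hpM hA).toSubring

/-- `red₁` of (RED2). -/
abbrev ttalIRed1 : ↥(ttrV1 M A hpM hA).toSubring →+*
    ↥(modularFunctionFieldFullC (ResidueField A) M) := ttrRed1 M A hA

/-- `red₂` of (RED2). -/
abbrev ttalIRed2 : ↥(ttalIV2 M A hpM hA).toSubring →+*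
    ↥(modularFunctionFieldFullC (ResidueField A) M) :=
  ttalRed2 (ttrV1 M A hpM hA) (ttrW M hpM) (ttrRed1 M A hA)

theorem ttalIO2_eq : ttalIO2 M A hpM hA = ttrO2 M A hpM := rfl

/-- integrality of values (the hypothesis `hvalA` of `ttal_pt_of_cen`) from helper15's
`ttrli_chart`. -/
theorem ttal_valA_inst (u : modularFunctionFieldBar (M * p))
    (v : Place Qb (modularFunctionFieldBar (M * p))) (hv : ∃ a : A, GrdVal v u (a : Qb))
    (b : ↥(grdB (M * p) A u)) (c : Qb)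
    (hbc : GrdVal v (b : modularFunctionFieldBar (M * p)) c) : c ∈ A := by
  obtain ⟨a, ha⟩ := ttrli_chart (M * p) A u v hv b b.2
  rw [grdg_val_unique v hbc ha]
  exact a.2

/-- **THE PACKAGE, FIRST COMPONENT**, at every place `Q` of the chart `ῡ`. -/
theorem ttal_pt_inst₁
    (Q : Place (ResidueField A) (modularFunctionFieldFullC (ResidueField A) M))
    (hQ : grdK M A hc.mem ∈ Q.toValuationSubring) :
    TtriPt A (ttalIO2 M A hpM hA) (grdB (M * p) A (heckeAlphaBar Qb M p (grdQ M hc.mem)))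
      (ttrli_le_alpha M A hpM hA hc)
      (ttalRedO₁ (V₂ := ttalIV2 M A hpM hA) (ttalIRed1 M A hpM hA))
      (ttruCen A (grdB (M * p) A (heckeAlphaBar Qb M p (grdQ M hc.mem)))
        (heckeAlphaBar Qb M p (grdQ M hc.mem))
        (ttalN (ttalIO2 M A hpM hA) (grdB (M * p) A (heckeAlphaBar Qb M p (grdQ M hc.mem)))
          (ttrli_le_alpha M A hpM hA hc)
          (ttalRedO₁ (V₂ := ttalIV2 M A hpM hA) (ttalIRed1 M A hpM hA)) Q)) Q :=
  ttal_pt_chart (heckeAlphaBar Qb M p) hc (ttrV1 M A hpM hA).toSubring (ttrRed1 M A hA)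
    (fun y hy => ttr_alpha_mem M A hy)
    (fun y hy => ttrRed1_alpha M A hA ⟨y, hy⟩)
    (fun x hx => (ttrli_le_alpha M A hpM hA hc hx).1)
    (ttalIO2 M A hpM hA) inf_le_left (ttrli_le_alpha M A hpM hA hc) hpM hA
    (ttrli_breg (M * p) A _) (ttrli_sat_alpha M A hpM hA hc)
    (fun v x hx => ttrli_res (M * p) v x hx)
    (fun v hv b c hbc => ttal_valA_inst M A _ v hv b c hbc) Q hQ

/-- **THE PACKAGE, SECOND COMPONENT**, at every place `Q` of the chart `ῡ`, in the `β`-chart. -/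
theorem ttal_pt_inst₂
    (Q : Place (ResidueField A) (modularFunctionFieldFullC (ResidueField A) M))
    (hQ : grdK M A hc.mem ∈ Q.toValuationSubring) :
    TtriPt A (ttalIO2 M A hpM hA) (grdB (M * p) A (heckeBetaBar Qb M p (grdQ M hc.mem)))
      (ttrli_le_beta M A hpM hA hc)
      (ttalRedO₂ (V₁ := ttrV1 M A hpM hA) (ttalIRed2 M A hpM hA))
      (ttruCen A (grdB (M * p) A (heckeBetaBar Qb M p (grdQ M hc.mem)))
        (heckeBetaBar Qb M p (grdQ M hc.mem))
        (ttalN (ttalIO2 M A hpM hA) (grdB (M * p) A (heckeBetaBar Qb M p (grdQ M hc.mem)))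
          (ttrli_le_beta M A hpM hA hc)
          (ttalRedO₂ (V₁ := ttrV1 M A hpM hA) (ttalIRed2 M A hpM hA)) Q)) Q :=
  ttal_pt_chart (heckeBetaBar Qb M p) hc (ttalIV2 M A hpM hA).toSubring (ttalIRed2 M A hpM hA)
    (fun y hy => ttr_beta_mem₂ M A hpM hy)
    (fun y hy => ttrRed2_beta M A hpM hA ⟨y, hy⟩)
    (fun x hx => (ttrli_le_beta M A hpM hA hc hx).2)
    (ttalIO2 M A hpM hA) inf_le_right (ttrli_le_beta M A hpM hA hc) hpM hA
    (ttrli_breg (M * p) A _) (ttrli_sat_beta M A hpM hA hc)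
    (fun v x hx => ttrli_res (M * p) v x hx)
    (fun v hv b c hbc => ttal_valA_inst M A _ v hv b c hbc) Q hQ

/-- uniqueness of the centre, first component. -/
theorem ttal_cen_unique_inst₁
    (Q Q' : Place (ResidueField A) (modularFunctionFieldFullC (ResidueField A) M))
    (hQ : grdK M A hc.mem ∈ Q.toValuationSubring)
    (hQ' : grdK M A hc.mem ∈ Q'.toValuationSubring)
    (v : Place Qb (modularFunctionFieldBar (M * p)))
    (hv : ttruCen A (grdB (M * p) A (heckeAlphaBar Qb M p (grdQ M hc.mem)))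
        (heckeAlphaBar Qb M p (grdQ M hc.mem))
        (ttalN (ttalIO2 M A hpM hA) (grdB (M * p) A (heckeAlphaBar Qb M p (grdQ M hc.mem)))
          (ttrli_le_alpha M A hpM hA hc)
          (ttalRedO₁ (V₂ := ttalIV2 M A hpM hA) (ttalIRed1 M A hpM hA)) Q) v)
    (hv' : ttruCen A (grdB (M * p) A (heckeAlphaBar Qb M p (grdQ M hc.mem)))
        (heckeAlphaBar Qb M p (grdQ M hc.mem))
        (ttalN (ttalIO2 M A hpM hA) (grdB (M * p) A (heckeAlphaBar Qb M p (grdQ M hc.mem)))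
          (ttrli_le_alpha M A hpM hA hc)
          (ttalRedO₁ (V₂ := ttalIV2 M A hpM hA) (ttalIRed1 M A hpM hA)) Q') v) : Q = Q' :=
  ttal_chart_cen_unique (heckeAlphaBar Qb M p) hc (ttrV1 M A hpM hA).toSubring (ttrRed1 M A hA)
    (fun y hy => ttr_alpha_mem M A hy)
    (fun y hy => ttrRed1_alpha M A hA ⟨y, hy⟩)
    (fun x hx => (ttrli_le_alpha M A hpM hA hc hx).1)
    (ttalIO2 M A hpM hA) inf_le_left (ttrli_le_alpha M A hpM hA hc) hpM hA Q Q' hQ hQ' v hv hv'

/-- uniqueness of the centre, second component. -/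
theorem ttal_cen_unique_inst₂
    (Q Q' : Place (ResidueField A) (modularFunctionFieldFullC (ResidueField A) M))
    (hQ : grdK M A hc.mem ∈ Q.toValuationSubring)
    (hQ' : grdK M A hc.mem ∈ Q'.toValuationSubring)
    (v : Place Qb (modularFunctionFieldBar (M * p)))
    (hv : ttruCen A (grdB (M * p) A (heckeBetaBar Qb M p (grdQ M hc.mem)))
        (heckeBetaBar Qb M p (grdQ M hc.mem))
        (ttalN (ttalIO2 M A hpM hA) (grdB (M * p) A (heckeBetaBar Qb M p (grdQ M hc.mem)))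
          (ttrli_le_beta M A hpM hA hc)
          (ttalRedO₂ (V₁ := ttrV1 M A hpM hA) (ttalIRed2 M A hpM hA)) Q) v)
    (hv' : ttruCen A (grdB (M * p) A (heckeBetaBar Qb M p (grdQ M hc.mem)))
        (heckeBetaBar Qb M p (grdQ M hc.mem))
        (ttalN (ttalIO2 M A hpM hA) (grdB (M * p) A (heckeBetaBar Qb M p (grdQ M hc.mem)))
          (ttrli_le_beta M A hpM hA hc)
          (ttalRedO₂ (V₁ := ttrV1 M A hpM hA) (ttalIRed2 M A hpM hA)) Q') v) : Q = Q' :=
  ttal_chart_cen_unique (heckeBetaBar Qb M p) hc (ttalIV2 M A hpM hA).toSubring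
    (ttalIRed2 M A hpM hA)
    (fun y hy => ttr_beta_mem₂ M A hpM hy)
    (fun y hy => ttrRed2_beta M A hpM hA ⟨y, hy⟩)
    (fun x hx => (ttrli_le_beta M A hpM hA hc hx).2)
    (ttalIO2 M A hpM hA) inf_le_right (ttrli_le_beta M A hpM hA hc) hpM hA Q Q' hQ hQ' v hv hv'

end Fermat.Agent.TT
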