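import Mathlib
import Fermat.Agent.TT.Alpha.PtInst
import Fermat.Agent.TT.Red2.RedPack
import Fermat.Agent.TT.Red2.Chart
import Fermat.Agent.TT.Red2.SpecB
import Fermat.Agent.G.Red.Atlas

/-!
# Program TT (S33), (R-in) = INTO : DOUBLE CENTRES (`hcross` of the assembly), prefix `ttal`

Owner: helper29.  Namespace `Fermat.Agent.TT`.

A place `v` of `F_ℚ̄(M p)` centred at a point `Q` of the first component AND at a point `Q'` of the
second component: in the finite charts `(Q, Q')` is a crossing pair of the chart ring (a node); in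
all the other chart combinations this is impossible.

Abstract : `ttal_N_isPrime`, `ttal_cross_pair`, `ttal_cross_chart_false`, `ttal_inv_val_zero`.
Level `M p` (`hat : GrdAtlas M 𝔸 τ τ'`, `hbe : β τ_ℚ̄ ∈ B(α τ_ℚ̄)`):
* `ttalCen₁ hc Q v`, `ttalCen₂ hc Q v` : the centre predicates of `ttal_pt_inst₁/₂`;
* `ttal_cross_ff` (finite-finite: the pair condition), `ttal_cross_fc`, `ttal_cross_cf`
  (finite-cusp: impossible), `ttal_cross_cc` (cusp-cusp: impossible, from (N-C));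
* **`ttal_mix12_f/_c`, `ttal_mix21_f/_c`** : the MIXED statements `hmix12`, `hmix21` of the assembly
  (helper23's review: `Cen₁ Q v → ¬ T₂' v`, `Cen₂ Q v → ¬ T₁' v` with `T_j' = TtrpGoodC ..`), in the
  finite chart (`_f`) and in the chart at infinity (`_c`).
-/

set_option autoImplicit false
set_option linter.unusedSectionVars false
set_option linter.unusedVariables false
set_option linter.style.haveILetI false
set_option synthInstance.maxHeartbeats 400000

noncomputable section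

namespace Fermat.Agent.TT

open ModularCurve AlgebraicCurve IsLocalRing Polynomial Fermat.Agent.S18 Fermat.Agent.S24
  Fermat.Agent.G Fermat.Agent.FF Fermat.Agent.SS

section Abstract

variable {K F : Type*} [Field K] [Field F] [Algebra K F] {A : ValuationSubring K}
  {Fk : Type*} [Field Fk] [Algebra (ResidueField A) Fk]

/-- the inverse of a function with a pole vanishes. -/
theorem ttal_inv_val_zero {k' F' : Type*} [Field k'] [Field F'] [Algebra k' F']
    (Q : Place k' F') (x x' : F') (h : x * x' = 1) (hx : x ∉ Q.toValuationSubring) :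
    GrdVal Q x' 0 := by
  rw [grdg_val_zero_iff, ValuationSubring.mem_nonunits_iff]
  by_contra h2
  rw [not_lt] at h2
  apply hx
  rw [← ValuationSubring.valuation_le_one_iff]
  have h3 : Q.toValuationSubring.valuation x * Q.toValuationSubring.valuation x' = 1 := by
    rw [← map_mul, h, map_one]
  calc Q.toValuationSubring.valuation x = Q.toValuationSubring.valuation x * 1 := (mul_one _).symm
    _ ≤ Q.toValuationSubring.valuation x * Q.toValuationSubring.valuation x' := by gcongr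
    _ = 1 := h3

/-- the closed point `𝔫_Q` is a prime ideal of the chart ring. -/
theorem ttal_N_isPrime (O2 B : Subring F) (hBO : B ≤ O2) (red : O2 →+* Fk)
    (Q : Place (ResidueField A) Fk)
    (hvalQ : ∀ b : ↥B, ∃ c : ResidueField A, GrdVal Q (red ⟨b, hBO b.2⟩) c) :
    (ttalN O2 B hBO red Q).IsPrime := by
  have hreg : ∀ b : ↥B, red ⟨b, hBO b.2⟩ ∈ Q.toValuationSubring := fun b => by
    obtain ⟨c, hc⟩ := hvalQ b
    exact grdg_val_mem Q hc
  refine Ideal.isPrime_iff.2 ⟨?_, ?_⟩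
  · rw [Ideal.ne_top_iff_one]
    intro h1
    have h2 := ttal_mem_N O2 B hBO red Q 1 h1
    have e : (⟨((1 : ↥B) : F), hBO (1 : ↥B).2⟩ : O2) = 1 := rfl
    rw [e, map_one] at h2
    exact one_ne_zero (grdg_val_unique Q (ttru_val_one Q) h2)
  · intro x y hxy
    have h0 := ttal_mem_N O2 B hBO red Q _ hxy
    obtain ⟨cx, hcx⟩ := hvalQ x
    obtain ⟨cy, hcy⟩ := hvalQ y
    have e : (⟨((x * y : ↥B) : F), hBO (x * y).2⟩ : O2) = ⟨x, hBO x.2⟩ * ⟨y, hBO y.2⟩ := rfl
    rw [e, map_mul] at h0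
    have h1 := grdg_val_unique Q (grdg_val_mul Q hcx hcy) h0
    rcases mul_eq_zero.1 h1 with h | h
    · left
      exact (ttal_mem_N_iff O2 B hBO red Q hreg x).2 (h ▸ hcx)
    · right
      exact (ttal_mem_N_iff O2 B hBO red Q hreg y).2 (h ▸ hcy)

/-- **a double centre is a crossing pair** : if `v` is centred at `𝔫_Q` (chart `B₁`, first
reduction) and at `𝔫_Q'` (chart `B₂ ⊇ B₁`, second reduction), every element of `B₁` has the same
value at `Q` and at `Q'`. -/
theorem ttal_cross_pair {Fk₂ : Type*} [Field Fk₂] [Algebra (ResidueField A) Fk₂]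
    (O2 B₁ B₂ : Subring F) (hBO₁ : B₁ ≤ O2) (hBO₂ : B₂ ≤ O2) (h12 : B₁ ≤ B₂)
    (red₁ : O2 →+* Fk) (red₂ : O2 →+* Fk₂)
    (Q : Place (ResidueField A) Fk) (Q' : Place (ResidueField A) Fk₂) (u₁ u₂ : F)
    (hconst₁ : ∀ a : A, algebraMap K F (a : K) ∈ B₁)
    (hconst₂ : ∀ a : A, algebraMap K F (a : K) ∈ B₂)
    (hrc₁ : ∀ (a : A) (h : algebraMap K F (a : K) ∈ O2),
      red₁ ⟨algebraMap K F (a : K), h⟩ = algebraMap (ResidueField A) Fk (residue A a))
    (hrc₂ : ∀ (a : A) (h : algebraMap K F (a : K) ∈ O2),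
      red₂ ⟨algebraMap K F (a : K), h⟩ = algebraMap (ResidueField A) Fk₂ (residue A a))
    (hvalQ : ∀ b : ↥B₁, ∃ c : ResidueField A, GrdVal Q (red₁ ⟨b, hBO₁ b.2⟩) c)
    (hvalQ' : ∀ b : ↥B₂, ∃ c : ResidueField A, GrdVal Q' (red₂ ⟨b, hBO₂ b.2⟩) c)
    (v : Place K F) (hv₁ : ttruCen A B₁ u₁ (ttalN O2 B₁ hBO₁ red₁ Q) v)
    (hv₂ : ttruCen A B₂ u₂ (ttalN O2 B₂ hBO₂ red₂ Q') v) (b : ↥B₁) :
    ∃ c : ResidueField A, GrdVal Q (red₁ ⟨b, hBO₁ b.2⟩) c ∧ GrdVal Q' (red₂ ⟨b, hBO₁ b.2⟩) c := by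
  obtain ⟨a, hav, haQ⟩ := ttal_cen_val O2 B₁ hBO₁ red₁ Q u₁ hconst₁ hrc₁ hvalQ v hv₁ b
  obtain ⟨a', hav', haQ'⟩ := ttal_cen_val O2 B₂ hBO₂ red₂ Q' u₂ hconst₂ hrc₂ hvalQ' v hv₂
    ⟨b, h12 b.2⟩
  have h1 : (a : K) = a' := grdg_val_unique v hav hav'
  have h2 : a = a' := Subtype.ext h1
  exact ⟨residue A a, haQ, by rw [h2]; exact haQ'⟩

/-- **no centre in the chart of `u'` if `u = u'⁻¹` has a value in `𝔸`** at `v`, for a point `Q'`
with `ū'(Q') = 0`. -/
theorem ttal_cross_chart_false (O2 B' : Subring F) (hBO' : B' ≤ O2) (red : O2 →+* Fk)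
    (Q' : Place (ResidueField A) Fk) (u u' : F) (huu' : u * u' = 1) (hu' : u' ∈ B')
    (hreg : ∀ b : ↥B', red ⟨b, hBO' b.2⟩ ∈ Q'.toValuationSubring)
    (hu'Q : GrdVal Q' (red ⟨u', hBO' hu'⟩) 0) (v : Place K F)
    (hv' : ttruCen A B' u' (ttalN O2 B' hBO' red Q') v) (a : A) (hva : GrdVal v u (a : K)) :
    False := by
  have hN : (⟨u', hu'⟩ : ↥B') ∈ ttalN O2 B' hBO' red Q' :=
    (ttal_mem_N_iff O2 B' hBO' red Q' hreg _).2 hu'Q
  obtain ⟨m, hm, hmv⟩ := hv'.2 _ hN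
  have h1 := grdg_val_mul v hva hmv
  rw [huu'] at h1
  have h2 : ((a : K) * (m : K)) = 1 := grdg_val_unique v h1 (ttru_val_one v)
  have h3 : a * m = 1 := Subtype.ext h2
  have h4 : IsUnit m := IsUnit.of_mul_eq_one a (by rw [mul_comm]; exact h3)
  rw [mem_maximalIdeal, mem_nonunits_iff] at hm
  exact hm h4

end Abstract

section Inst

local notation "Qb" => AlgebraicClosure ℚ

variable (M : ℕ) [NeZero M] {p : ℕ} [Fact p.Prime] [NeZero p]
variable (A : ValuationSubring Qb) (hpM : ¬ p ∣ M) (hA : A.LiesOverPrime p)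
variable {υ : LaurentSeries ℤ} (hc : GrdChart M A υ)

/-- the centre predicate of `ttal_pt_inst₁` : `v` is centred at the point `Q` of the first
component, in the `α`-chart of `hc`. -/
abbrev ttalCen₁ (Q : Place (ResidueField A) (modularFunctionFieldFullC (ResidueField A) M))
    (v : Place Qb (modularFunctionFieldBar (M * p))) : Prop :=
  ttruCen A (grdB (M * p) A (heckeAlphaBar Qb M p (grdQ M hc.mem)))
    (heckeAlphaBar Qb M p (grdQ M hc.mem))
    (ttalN (ttalIO2 M A hpM hA) (grdB (M * p) A (heckeAlphaBar Qb M p (grdQ M hc.mem)))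
      (ttrli_le_alpha M A hpM hA hc)
      (ttalRedO₁ (V₂ := ttalIV2 M A hpM hA) (ttalIRed1 M A hpM hA)) Q) v

/-- the centre predicate of `ttal_pt_inst₂` : `v` is centred at the point `Q` of the second
component, in the `β`-chart of `hc`. -/
abbrev ttalCen₂ (Q : Place (ResidueField A) (modularFunctionFieldFullC (ResidueField A) M))
    (v : Place Qb (modularFunctionFieldBar (M * p))) : Prop :=
  ttruCen A (grdB (M * p) A (heckeBetaBar Qb M p (grdQ M hc.mem)))
    (heckeBetaBar Qb M p (grdQ M hc.mem))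
    (ttalN (ttalIO2 M A hpM hA) (grdB (M * p) A (heckeBetaBar Qb M p (grdQ M hc.mem)))
      (ttrli_le_beta M A hpM hA hc)
      (ttalRedO₂ (V₁ := ttrV1 M A hpM hA) (ttalIRed2 M A hpM hA)) Q) v

/-- values of `red₁ B_α` at the places of the chart. -/
theorem ttal_valQ_inst₁
    (Q : Place (ResidueField A) (modularFunctionFieldFullC (ResidueField A) M))
    (hQ : grdK M A hc.mem ∈ Q.toValuationSubring)
    (b : ↥(grdB (M * p) A (heckeAlphaBar Qb M p (grdQ M hc.mem)))) :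
    ∃ c : ResidueField A, GrdVal Q
      (ttalRedO₁ (V₂ := ttalIV2 M A hpM hA) (ttalIRed1 M A hpM hA)
        ⟨b, ttrli_le_alpha M A hpM hA hc b.2⟩) c :=
  ttal_chart_valQ (heckeAlphaBar Qb M p) hc (ttrV1 M A hpM hA).toSubring (ttrRed1 M A hA)
    (fun y hy => ttr_alpha_mem M A hy) (fun y hy => ttrRed1_alpha M A hA ⟨y, hy⟩)
    (fun x hx => (ttrli_le_alpha M A hpM hA hc hx).1) Q hQ b

/-- values of `red₂ B_β` at the places of the chart. -/
theorem ttal_valQ_inst₂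
    (Q : Place (ResidueField A) (modularFunctionFieldFullC (ResidueField A) M))
    (hQ : grdK M A hc.mem ∈ Q.toValuationSubring)
    (b : ↥(grdB (M * p) A (heckeBetaBar Qb M p (grdQ M hc.mem)))) :
    ∃ c : ResidueField A, GrdVal Q
      (ttalRedO₂ (V₁ := ttrV1 M A hpM hA) (ttalIRed2 M A hpM hA)
        ⟨b, ttrli_le_beta M A hpM hA hc b.2⟩) c :=
  ttal_chart_valQ (heckeBetaBar Qb M p) hc (ttalIV2 M A hpM hA).toSubring (ttalIRed2 M A hpM hA)
    (fun y hy => ttr_beta_mem₂ M A hpM hy) (fun y hy => ttrRed2_beta M A hpM hA ⟨y, hy⟩)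
    (fun x hx => (ttrli_le_beta M A hpM hA hc hx).2) Q hQ b

/-- `red₁` of a constant. -/
theorem ttal_rc_inst₁ (a : A)
    (h : algebraMap Qb (modularFunctionFieldBar (M * p)) (a : Qb) ∈ ttalIO2 M A hpM hA) :
    ttalRedO₁ (V₂ := ttalIV2 M A hpM hA) (ttalIRed1 M A hpM hA)
      ⟨algebraMap Qb (modularFunctionFieldBar (M * p)) (a : Qb), h⟩ =
      algebraMap (ResidueField A) (modularFunctionFieldFullC (ResidueField A) M)
        (residue A a) :=
  ttal_chart_rc (heckeAlphaBar Qb M p) (ttrV1 M A hpM hA).toSubring (ttrRed1 M A hA)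
    (fun y hy => ttr_alpha_mem M A hy) (fun y hy => ttrRed1_alpha M A hA ⟨y, hy⟩) a h.1

/-- `red₂` of a constant. -/
theorem ttal_rc_inst₂ (a : A)
    (h : algebraMap Qb (modularFunctionFieldBar (M * p)) (a : Qb) ∈ ttalIO2 M A hpM hA) :
    ttalRedO₂ (V₁ := ttrV1 M A hpM hA) (ttalIRed2 M A hpM hA)
      ⟨algebraMap Qb (modularFunctionFieldBar (M * p)) (a : Qb), h⟩ =
      algebraMap (ResidueField A) (modularFunctionFieldFullC (ResidueField A) M)
        (residue A a) :=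
  ttal_chart_rc (heckeBetaBar Qb M p) (ttalIV2 M A hpM hA).toSubring (ttalIRed2 M A hpM hA)
    (fun y hy => ttr_beta_mem₂ M A hpM hy) (fun y hy => ttrRed2_beta M A hpM hA ⟨y, hy⟩) a h.2

/-- `red₁ (α υ_ℚ̄) = ῡ`. -/
theorem ttal_red_u_inst₁
    (h : heckeAlphaBar Qb M p (grdQ M hc.mem) ∈ ttalIO2 M A hpM hA) :
    ttalRedO₁ (V₂ := ttalIV2 M A hpM hA) (ttalIRed1 M A hpM hA)
      ⟨heckeAlphaBar Qb M p (grdQ M hc.mem), h⟩ = grdK M A hc.mem := by
  rw [← grdRed_grdQ M A hc.mem]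
  exact ttrRed1_alpha M A hA ⟨grdQ M hc.mem, grdQ_mem_grdO M A hc.mem⟩

/-- `red₂ (β υ_ℚ̄) = ῡ`. -/
theorem ttal_red_u_inst₂
    (h : heckeBetaBar Qb M p (grdQ M hc.mem) ∈ ttalIO2 M A hpM hA) :
    ttalRedO₂ (V₁ := ttrV1 M A hpM hA) (ttalIRed2 M A hpM hA)
      ⟨heckeBetaBar Qb M p (grdQ M hc.mem), h⟩ = grdK M A hc.mem := by
  rw [← grdRed_grdQ M A hc.mem]
  exact ttrRed2_beta M A hpM hA ⟨grdQ M hc.mem, grdQ_mem_grdO M A hc.mem⟩

include hpM in
/-- `α υ ∈ B(β υ)` from `β υ ∈ B(α υ)` (apply `w`). -/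
theorem ttal_hal_of_hbe
    (hbe : heckeBetaBar Qb M p (grdQ M hc.mem) ∈
      grdB (M * p) A (heckeAlphaBar Qb M p (grdQ M hc.mem))) :
    heckeAlphaBar Qb M p (grdQ M hc.mem) ∈
      grdB (M * p) A (heckeBetaBar Qb M p (grdQ M hc.mem)) := by
  have h := ttr_isInt_w M A hpM hbe
  rwa [ttrW_alpha, ttrW_beta] at h

/-- **(X1) finite-finite** : a place centred at `Q` (first component) and at `Q'` (second
component) in the SAME chart `hc` with `β υ ∈ B(α υ)` : `(Q, Q')` is a crossing pair of `B_α`. -/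
theorem ttal_cross_ff
    (hbe : heckeBetaBar Qb M p (grdQ M hc.mem) ∈
      grdB (M * p) A (heckeAlphaBar Qb M p (grdQ M hc.mem)))
    (Q Q' : Place (ResidueField A) (modularFunctionFieldFullC (ResidueField A) M))
    (hQ : grdK M A hc.mem ∈ Q.toValuationSubring)
    (hQ' : grdK M A hc.mem ∈ Q'.toValuationSubring)
    (v : Place Qb (modularFunctionFieldBar (M * p)))
    (hv₁ : ttalCen₁ M A hpM hA hc Q v) (hv₂ : ttalCen₂ M A hpM hA hc Q' v)
    (b : ↥(grdB (M * p) A (heckeAlphaBar Qb M p (grdQ M hc.mem)))) :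
    ∃ c : ResidueField A,
      GrdVal Q (ttalRedO₁ (V₂ := ttalIV2 M A hpM hA) (ttalIRed1 M A hpM hA)
        ⟨b, ttrli_le_alpha M A hpM hA hc b.2⟩) c ∧
      GrdVal Q' (ttalRedO₂ (V₁ := ttrV1 M A hpM hA) (ttalIRed2 M A hpM hA)
        ⟨b, ttrli_le_alpha M A hpM hA hc b.2⟩) c := by
  have hal := ttal_hal_of_hbe M A hpM hc hbe
  have h12 : grdB (M * p) A (heckeAlphaBar Qb M p (grdQ M hc.mem)) ≤
      grdB (M * p) A (heckeBetaBar Qb M p (grdQ M hc.mem)) := fun x hx =>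
    ttrc_isIntegralElem_map (grdInclA (M * p) A) (grdInclA (M * p) A) (RingHom.id _)
      (fun r => rfl) (heckeAlphaBar Qb M p (grdQ M hc.mem))
      (heckeBetaBar Qb M p (grdQ M hc.mem)) hal hx
  exact ttal_cross_pair (ttalIO2 M A hpM hA) _ _ (ttrli_le_alpha M A hpM hA hc)
    (ttrli_le_beta M A hpM hA hc) h12 _ _ Q Q' _ _
    (ttrli_const (M * p) A _) (ttrli_const (M * p) A _)
    (ttal_rc_inst₁ M A hpM hA) (ttal_rc_inst₂ M A hpM hA)
    (ttal_valQ_inst₁ M A hpM hA hc Q hQ) (ttal_valQ_inst₂ M A hpM hA hc Q' hQ') v hv₁ hv₂ b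

section Atlas

variable {τ τ' : LaurentSeries ℤ} (hat : GrdAtlas M A τ τ')

/-- `α τ · α τ' = 1`. -/
theorem ttal_alpha_mul_inv :
    heckeAlphaBar Qb M p (grdQ M hat.c.mem) * heckeAlphaBar Qb M p (grdQ M hat.c'.mem) = 1 := by
  rw [← map_mul, grda_grdQ_mul M A hat, map_one]

/-- `β τ · β τ' = 1`. -/
theorem ttal_beta_mul_inv :
    heckeBetaBar Qb M p (grdQ M hat.c.mem) * heckeBetaBar Qb M p (grdQ M hat.c'.mem) = 1 := by
  rw [← map_mul, grda_grdQ_mul M A hat, map_one]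

/-- a pole of `τ̄` is a zero of `τ̄'`. -/
theorem ttal_cusp_val_zero
    (Q : Place (ResidueField A) (modularFunctionFieldFullC (ResidueField A) M))
    (hQ : grdK M A hat.c.mem ∉ Q.toValuationSubring) : GrdVal Q (grdK M A hat.c'.mem) 0 :=
  ttal_inv_val_zero Q _ _ (grda_grdK_mul M A hat) hQ

/-- a pole of `τ̄` lies in the chart of `τ̄'`. -/
theorem ttal_cusp_mem
    (Q : Place (ResidueField A) (modularFunctionFieldFullC (ResidueField A) M))
    (hQ : grdK M A hat.c.mem ∉ Q.toValuationSubring) :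
    grdK M A hat.c'.mem ∈ Q.toValuationSubring :=
  grdg_val_mem Q (ttal_cusp_val_zero M A hat Q hQ)

/-- **(X2) finite-cusp** : a place centred at a point of the first component in the finite chart
is centred at no pole `Q'` of `τ̄` on the second component. -/
theorem ttal_cross_fc
    (hbe : heckeBetaBar Qb M p (grdQ M hat.c.mem) ∈
      grdB (M * p) A (heckeAlphaBar Qb M p (grdQ M hat.c.mem)))
    (Q Q' : Place (ResidueField A) (modularFunctionFieldFullC (ResidueField A) M))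
    (hQ' : grdK M A hat.c.mem ∉ Q'.toValuationSubring)
    (v : Place Qb (modularFunctionFieldBar (M * p)))
    (hv₁ : ttalCen₁ M A hpM hA hat.c Q v) (hv₂ : ttalCen₂ M A hpM hA hat.c' Q' v) : False := by
  obtain ⟨a, ha⟩ := ttrli_chart (M * p) A _ v hv₁.1 _ hbe
  have hQ'' := ttal_cusp_mem M A hat Q' hQ'
  refine ttal_cross_chart_false (ttalIO2 M A hpM hA) _ (ttrli_le_beta M A hpM hA hat.c') _ Q'
    (heckeBetaBar Qb M p (grdQ M hat.c.mem)) (heckeBetaBar Qb M p (grdQ M hat.c'.mem))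
    (ttal_beta_mul_inv M A hat) (ttrli_u_mem (M * p) A _) (fun b => ?_) ?_ v hv₂ a ha
  · obtain ⟨c, hc⟩ := ttal_valQ_inst₂ M A hpM hA hat.c' Q' hQ'' b
    exact grdg_val_mem Q' hc
  · rw [ttal_red_u_inst₂ M A hpM hA hat.c']
    exact ttal_cusp_val_zero M A hat Q' hQ'

/-- **(X3) cusp-finite** : a place centred at a point of the second component in the finite chart
is centred at no pole `Q` of `τ̄` on the first component. -/
theorem ttal_cross_cf
    (hbe : heckeBetaBar Qb M p (grdQ M hat.c.mem) ∈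
      grdB (M * p) A (heckeAlphaBar Qb M p (grdQ M hat.c.mem)))
    (Q Q' : Place (ResidueField A) (modularFunctionFieldFullC (ResidueField A) M))
    (hQ : grdK M A hat.c.mem ∉ Q.toValuationSubring)
    (v : Place Qb (modularFunctionFieldBar (M * p)))
    (hv₁ : ttalCen₁ M A hpM hA hat.c' Q v) (hv₂ : ttalCen₂ M A hpM hA hat.c Q' v) : False := by
  have hal := ttal_hal_of_hbe M A hpM hat.c hbe
  obtain ⟨a, ha⟩ := ttrli_chart (M * p) A _ v hv₂.1 _ hal
  have hQ'' := ttal_cusp_mem M A hat Q hQ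
  refine ttal_cross_chart_false (ttalIO2 M A hpM hA) _ (ttrli_le_alpha M A hpM hA hat.c') _ Q
    (heckeAlphaBar Qb M p (grdQ M hat.c.mem)) (heckeAlphaBar Qb M p (grdQ M hat.c'.mem))
    (ttal_alpha_mul_inv M A hat) (ttrli_u_mem (M * p) A _) (fun b => ?_) ?_ v hv₁ a ha
  · obtain ⟨c, hc⟩ := ttal_valQ_inst₁ M A hpM hA hat.c' Q hQ'' b
    exact grdg_val_mem Q hc
  · rw [ttal_red_u_inst₁ M A hpM hA hat.c']
    exact ttal_cusp_val_zero M A hat Q hQ

/-- **(X4) cusp-cusp** : a place is not centred at a pole `Q` of `τ̄` on the first component and at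
a pole `Q'` of `τ̄` on the second component, by (N-C) for the chart `t' = α τ'` : the centre of `v`
on `B' = grdB (M p) 𝔸 t'` is a prime under both components containing `t'`.  [`b ∈ B'` with
`red₂ b = 0` has no pole on the whole disc of `Q'`, since `β τ ∈ B(α τ)` : `TtriPt.val_ext` of
`ttal_pt_inst₂` applies.] -/
theorem ttal_cross_cc
    (hbe : heckeBetaBar Qb M p (grdQ M hat.c.mem) ∈
      grdB (M * p) A (heckeAlphaBar Qb M p (grdQ M hat.c.mem)))
    (hNC : ∀ 𝔫' : Ideal ↥(grdB (M * p) A (heckeAlphaBar Qb M p (grdQ M hat.c'.mem))),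
      𝔫'.IsPrime →
      (∀ x : ↥(grdB (M * p) A (heckeAlphaBar Qb M p (grdQ M hat.c'.mem))),
        (x : modularFunctionFieldBar (M * p)) ∈ (ttrV1 M A hpM hA).nonunits → x ∈ 𝔫') →
      (∀ x : ↥(grdB (M * p) A (heckeAlphaBar Qb M p (grdQ M hat.c'.mem))),
        (x : modularFunctionFieldBar (M * p)) ∈ (ttalIV2 M A hpM hA).nonunits → x ∈ 𝔫') →
      (∀ h : heckeAlphaBar Qb M p (grdQ M hat.c'.mem) ∈
          grdB (M * p) A (heckeAlphaBar Qb M p (grdQ M hat.c'.mem)),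
        (⟨heckeAlphaBar Qb M p (grdQ M hat.c'.mem), h⟩ :
          ↥(grdB (M * p) A (heckeAlphaBar Qb M p (grdQ M hat.c'.mem)))) ∈ 𝔫') → False)
    (Q Q' : Place (ResidueField A) (modularFunctionFieldFullC (ResidueField A) M))
    (hQ : grdK M A hat.c.mem ∉ Q.toValuationSubring)
    (hQ' : grdK M A hat.c.mem ∉ Q'.toValuationSubring)
    (v : Place Qb (modularFunctionFieldBar (M * p)))
    (hv₁ : ttalCen₁ M A hpM hA hat.c' Q v) (hv₂ : ttalCen₂ M A hpM hA hat.c' Q' v) : False := by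
  have hQc := ttal_cusp_mem M A hat Q hQ
  have hQc' := ttal_cusp_mem M A hat Q' hQ'
  have hvalQ := ttal_valQ_inst₁ M A hpM hA hat.c' Q hQc
  have hreg : ∀ b : ↥(grdB (M * p) A (heckeAlphaBar Qb M p (grdQ M hat.c'.mem))),
      ttalRedO₁ (V₂ := ttalIV2 M A hpM hA) (ttalIRed1 M A hpM hA)
        ⟨b, ttrli_le_alpha M A hpM hA hat.c' b.2⟩ ∈ Q.toValuationSubring := fun b => by
    obtain ⟨c, hc⟩ := hvalQ b
    exact grdg_val_mem Q hc
  have hreg' : ∀ b : ↥(grdB (M * p) A (heckeBetaBar Qb M p (grdQ M hat.c'.mem))),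
      ttalRedO₂ (V₁ := ttrV1 M A hpM hA) (ttalIRed2 M A hpM hA)
        ⟨b, ttrli_le_beta M A hpM hA hat.c' b.2⟩ ∈ Q'.toValuationSubring := fun b => by
    obtain ⟨c, hc⟩ := ttal_valQ_inst₂ M A hpM hA hat.c' Q' hQc' b
    exact grdg_val_mem Q' hc
  refine hNC (ttalN (ttalIO2 M A hpM hA) _ (ttrli_le_alpha M A hpM hA hat.c')
    (ttalRedO₁ (V₂ := ttalIV2 M A hpM hA) (ttalIRed1 M A hpM hA)) Q)
    (ttal_N_isPrime _ _ _ _ Q hvalQ) ?_ ?_ ?_
  · -- under the first component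
    intro x hx
    refine (ttal_mem_N_iff _ _ _ _ Q hreg x).2 ?_
    have h0 : ttrRed1 M A hA ⟨x, (ttrli_le_alpha M A hpM hA hat.c' x.2).1⟩ = 0 :=
      (ttal_red_ker (ttrvp_tb1' M A hpM hA) ⟨x, (ttrli_le_alpha M A hpM hA hat.c' x.2).1⟩).2 hx
    show GrdVal Q (ttrRed1 M A hA ⟨x, (ttrli_le_alpha M A hpM hA hat.c' x.2).1⟩) 0
    rw [h0]
    exact (grdg_val_zero_iff Q 0).2 (zero_mem _)
  · -- under the second component
    intro x hx
    refine (ttal_mem_N_iff _ _ _ _ Q hreg x).2 ?_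
    have hxO : (x : modularFunctionFieldBar (M * p)) ∈ ttalIO2 M A hpM hA :=
      ttrli_le_alpha M A hpM hA hat.c' x.2
    have h0 : ttalIRed2 M A hpM hA ⟨x, hxO.2⟩ = 0 :=
      (ttal_red_ker (ttal_red_comap (ttrvp_tb1' M A hpM hA) (ttrW M hpM) (ttrW_const M hpM))
        ⟨x, hxO.2⟩).2 hx
    -- no pole on the disc of `Q'`
    have hdisc : ∀ v' : Place Qb (modularFunctionFieldBar (M * p)),
        ttalCen₂ M A hpM hA hat.c' Q' v' →
          (x : modularFunctionFieldBar (M * p)) ∈ v'.toValuationSubring := by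
      intro v' hv'
      refine ttrli_breg (M * p) A _ x x.2 v' ?_
      by_contra hJ'
      have hJ0 : GrdVal v' (heckeAlphaBar Qb M p (grdQ M hat.c.mem)) 0 :=
        ttal_inv_val_zero v' _ _ ((mul_comm _ _).trans (ttal_alpha_mul_inv M A hat)) hJ'
      obtain ⟨a, ha⟩ := ttrli_chart (M * p) A _ v' ⟨0, hJ0⟩ _ hbe
      refine ttal_cross_chart_false (ttalIO2 M A hpM hA) _ (ttrli_le_beta M A hpM hA hat.c') _ Q'
        (heckeBetaBar Qb M p (grdQ M hat.c.mem)) (heckeBetaBar Qb M p (grdQ M hat.c'.mem))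
        (ttal_beta_mul_inv M A hat) (ttrli_u_mem (M * p) A _) hreg' ?_ v' hv' a ha
      rw [ttal_red_u_inst₂ M A hpM hA hat.c']
      exact ttal_cusp_val_zero M A hat Q' hQ'
    obtain ⟨a, hav, haQ⟩ := (ttal_pt_inst₂ M A hpM hA hat.c' Q' hQc').val_ext hxO hdisc hv₂
    have haQ' : GrdVal Q' (ttalIRed2 M A hpM hA ⟨x, hxO.2⟩) (residue A a) := haQ
    rw [h0] at haQ'
    have ha0 : residue A a = 0 :=
      grdg_val_unique Q' haQ' ((grdg_val_zero_iff Q' 0).2 (zero_mem _))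
    obtain ⟨a₁, ha₁v, ha₁Q⟩ := ttal_cen_val (ttalIO2 M A hpM hA) _
      (ttrli_le_alpha M A hpM hA hat.c')
      (ttalRedO₁ (V₂ := ttalIV2 M A hpM hA) (ttalIRed1 M A hpM hA)) Q
      (heckeAlphaBar Qb M p (grdQ M hat.c'.mem)) (ttrli_const (M * p) A _)
      (ttal_rc_inst₁ M A hpM hA) hvalQ v hv₁ x
    have h1 : (a₁ : Qb) = a := grdg_val_unique v ha₁v hav
    have h2 : a₁ = a := Subtype.ext h1
    rw [h2, ha0] at ha₁Q
    exact ha₁Q
  · -- over `t' = 0`
    intro h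
    refine (ttal_mem_N_iff _ _ _ _ Q hreg _).2 ?_
    show GrdVal Q (ttalRedO₁ (V₂ := ttalIV2 M A hpM hA) (ttalIRed1 M A hpM hA)
      ⟨heckeAlphaBar Qb M p (grdQ M hat.c'.mem), ttrli_le_alpha M A hpM hA hat.c' h⟩) 0
    rw [ttal_red_u_inst₁ M A hpM hA hat.c']
    exact ttal_cusp_val_zero M A hat Q hQ

end Atlas

/-! ### the mixed statements `hmix12`, `hmix21` -/

section Mix

/-- **`hmix12`, finite chart** : a place centred at a point of the FIRST component (chart `hc`)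
is not a good place of the second kind, for any `v₂ ∈ B_α` with `red₁ v₂ = 0`. -/
theorem ttal_mix12_f (v₂ : modularFunctionFieldBar (M * p))
    (hv₂ : v₂ ∈ grdB (M * p) A (heckeAlphaBar Qb M p (grdQ M hc.mem)))
    (hr : ttrRed1 M A hA ⟨v₂, (ttrli_le_alpha M A hpM hA hc hv₂).1⟩ = 0)
    (u₂ : modularFunctionFieldBar (M * p))
    (Q : Place (ResidueField A) (modularFunctionFieldFullC (ResidueField A) M))
    (v : Place Qb (modularFunctionFieldBar (M * p)))
    (hv : ttalCen₁ M A hpM hA hc Q v) : ¬ TtrpGoodC M p A u₂ v₂ v := by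
  rintro ⟨-, hgood⟩
  obtain ⟨a, ha⟩ := ttrli_chart (M * p) A _ v hv.1 v₂ hv₂
  refine ttal_not_cen_of_unit (ttalIO2 M A hpM hA) _ (ttrli_le_alpha M A hpM hA hc)
    (ttalRedO₁ (V₂ := ttalIV2 M A hpM hA) (ttalIRed1 M A hpM hA)) Q _ v ⟨v₂, hv₂⟩ hr a ha ?_ hv
  intro hm
  exact hgood ⟨(a : Qb), (ValuationSubring.mem_nonunits_iff_exists_mem_maximalIdeal).2 ⟨a.2, hm⟩,
    ha⟩

/-- **`hmix21`, finite chart** : a place centred at a point of the SECOND component (chart `hc`)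
is not a good place of the first kind, for any `v₁ ∈ B_β` with `red₂ v₁ = 0`. -/
theorem ttal_mix21_f (v₁ : modularFunctionFieldBar (M * p))
    (hv₁ : v₁ ∈ grdB (M * p) A (heckeBetaBar Qb M p (grdQ M hc.mem)))
    (hr : ttalIRed2 M A hpM hA ⟨v₁, (ttrli_le_beta M A hpM hA hc hv₁).2⟩ = 0)
    (u₁ : modularFunctionFieldBar (M * p))
    (Q : Place (ResidueField A) (modularFunctionFieldFullC (ResidueField A) M))
    (v : Place Qb (modularFunctionFieldBar (M * p)))
    (hv : ttalCen₂ M A hpM hA hc Q v) : ¬ TtrpGoodC M p A u₁ v₁ v := by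
  rintro ⟨-, hgood⟩
  obtain ⟨a, ha⟩ := ttrli_chart (M * p) A _ v hv.1 v₁ hv₁
  refine ttal_not_cen_of_unit (ttalIO2 M A hpM hA) _ (ttrli_le_beta M A hpM hA hc)
    (ttalRedO₂ (V₁ := ttrV1 M A hpM hA) (ttalIRed2 M A hpM hA)) Q _ v ⟨v₁, hv₁⟩ hr a ha ?_ hv
  intro hm
  exact hgood ⟨(a : Qb), (ValuationSubring.mem_nonunits_iff_exists_mem_maximalIdeal).2 ⟨a.2, hm⟩,
    ha⟩

variable {τ τ' : LaurentSeries ℤ} (hat : GrdAtlas M A τ τ')

/-- **`hmix12`, chart at infinity** : a place centred at a pole `Q` of `τ̄` on the first component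
does not lie in the finite `β`-chart. -/
theorem ttal_mix12_c
    (hbe : heckeBetaBar Qb M p (grdQ M hat.c.mem) ∈
      grdB (M * p) A (heckeAlphaBar Qb M p (grdQ M hat.c.mem)))
    (v₂ : modularFunctionFieldBar (M * p))
    (Q : Place (ResidueField A) (modularFunctionFieldFullC (ResidueField A) M))
    (hQ : grdK M A hat.c.mem ∉ Q.toValuationSubring)
    (v : Place Qb (modularFunctionFieldBar (M * p)))
    (hv : ttalCen₁ M A hpM hA hat.c' Q v) :
    ¬ TtrpGoodC M p A (heckeBetaBar Qb M p (grdQ M hat.c.mem)) v₂ v := by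
  rintro ⟨hchart, -⟩
  have hal := ttal_hal_of_hbe M A hpM hat.c hbe
  obtain ⟨a, ha⟩ := ttrli_chart (M * p) A _ v hchart _ hal
  have hQ'' := ttal_cusp_mem M A hat Q hQ
  refine ttal_cross_chart_false (ttalIO2 M A hpM hA) _ (ttrli_le_alpha M A hpM hA hat.c') _ Q
    (heckeAlphaBar Qb M p (grdQ M hat.c.mem)) (heckeAlphaBar Qb M p (grdQ M hat.c'.mem))
    (ttal_alpha_mul_inv M A hat) (ttrli_u_mem (M * p) A _) (fun b => ?_) ?_ v hv a ha
  · obtain ⟨c, hc⟩ := ttal_valQ_inst₁ M A hpM hA hat.c' Q hQ'' b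
    exact grdg_val_mem Q hc
  · rw [ttal_red_u_inst₁ M A hpM hA hat.c']
    exact ttal_cusp_val_zero M A hat Q hQ

/-- **`hmix21`, chart at infinity** : a place centred at a pole `Q` of `τ̄` on the second
component does not lie in the finite `α`-chart. -/
theorem ttal_mix21_c
    (hbe : heckeBetaBar Qb M p (grdQ M hat.c.mem) ∈
      grdB (M * p) A (heckeAlphaBar Qb M p (grdQ M hat.c.mem)))
    (v₁ : modularFunctionFieldBar (M * p))
    (Q : Place (ResidueField A) (modularFunctionFieldFullC (ResidueField A) M))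
    (hQ : grdK M A hat.c.mem ∉ Q.toValuationSubring)
    (v : Place Qb (modularFunctionFieldBar (M * p)))
    (hv : ttalCen₂ M A hpM hA hat.c' Q v) :
    ¬ TtrpGoodC M p A (heckeAlphaBar Qb M p (grdQ M hat.c.mem)) v₁ v := by
  rintro ⟨hchart, -⟩
  obtain ⟨a, ha⟩ := ttrli_chart (M * p) A _ v hchart _ hbe
  have hQ'' := ttal_cusp_mem M A hat Q hQ
  refine ttal_cross_chart_false (ttalIO2 M A hpM hA) _ (ttrli_le_beta M A hpM hA hat.c') _ Q
    (heckeBetaBar Qb M p (grdQ M hat.c.mem)) (heckeBetaBar Qb M p (grdQ M hat.c'.mem))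
    (ttal_beta_mul_inv M A hat) (ttrli_u_mem (M * p) A _) (fun b => ?_) ?_ v hv a ha
  · obtain ⟨c, hc⟩ := ttal_valQ_inst₂ M A hpM hA hat.c' Q hQ'' b
    exact grdg_val_mem Q hc
  · rw [ttal_red_u_inst₂ M A hpM hA hat.c']
    exact ttal_cusp_val_zero M A hat Q hQ

end Mix

end Inst

end Fermat.Agent.TT
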