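/-
Program TT (S33), leaf ALPHA / assembly field `TtgModel.const` (= `TtalBridge.const`), part (D) and
the assembly (V) + (D), ABSTRACT FORM.

Owner: helper15.  Prefix `ttalv`.  Imports Mathlib + main `G/Red/Val`, `S24/PlaceOrd`.

* `ttalv_disc` : **the divisor formula of a residue disc, for units** : `V, V'` two valuation rings
  of `F`, `red : V → Fk` with kernel the maximal ideal, `Q` a place of `Fk`, `C` a set of places of
  `F` (the residue disc of `Q`).  Inputs : (LS) an element of `V ∩ V'` without pole on `C` has a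
  reduction regular at `Q`; (HW) every `P ∈ C` is the unique zero on `C`, simple, of some
  `w ∈ V ∩ V'ˣ` whose reduction is a uniformiser at `Q`.  Then for every common unit `x` of
  `V, V'` : `Σ_{P ∈ C} ord_P x = ord_Q (red x)`.
  (Proof : `z := Π_P w_P^{ord_P x}`; `x / z` and `z / x` have no pole on `C`, so `red (x / z)` is
  a unit at `Q`.)
* `ttalv_const` : the field `const` of `TtgModel` / `TtalBridge`, VERBATIM, from `ker_j`, `val_j`
  (= (LS)), (HW_j) and (V) at the bad places.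
-/
import Mathlib
import Fermat.Agent.G.Red.Val
import Fermat.Agent.S24.PlaceOrd

set_option autoImplicit false
set_option linter.unusedSectionVars false
set_option linter.unusedVariables false

noncomputable section

namespace Fermat.Agent.TT

open AlgebraicCurve IsLocalRing Fermat.Agent.G Fermat.Agent.S24

/-! ### units of a valuation subring -/

section Unit

variable {F : Type*} [Field F]

/-- `y` is a unit of the valuation ring `V`. -/
def TtalvU (V : ValuationSubring F) (y : F) : Prop := y ≠ 0 ∧ y ∈ V ∧ y⁻¹ ∈ V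

theorem ttalv_u_one (V : ValuationSubring F) : TtalvU V 1 :=
  ⟨one_ne_zero, V.one_mem, by rw [inv_one]; exact V.one_mem⟩

theorem ttalv_u_mul {V : ValuationSubring F} {y z : F} (hy : TtalvU V y) (hz : TtalvU V z) :
    TtalvU V (y * z) :=
  ⟨mul_ne_zero hy.1 hz.1, V.mul_mem _ _ hy.2.1 hz.2.1,
    by rw [mul_inv]; exact V.mul_mem _ _ hy.2.2 hz.2.2⟩

theorem ttalv_u_inv {V : ValuationSubring F} {y : F} (hy : TtalvU V y) : TtalvU V y⁻¹ :=
  ⟨inv_ne_zero hy.1, hy.2.2, by rw [inv_inv]; exact hy.2.1⟩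

theorem ttalv_u_pow {V : ValuationSubring F} {y : F} (hy : TtalvU V y) (n : ℕ) :
    TtalvU V (y ^ n) :=
  ⟨pow_ne_zero n hy.1, V.pow_mem hy.2.1 n, by rw [← inv_pow]; exact V.pow_mem hy.2.2 n⟩

theorem ttalv_u_prod {V : ValuationSubring F} {ι : Type*} (s : Finset ι) (f : ι → F)
    (h : ∀ i ∈ s, TtalvU V (f i)) : TtalvU V (∏ i ∈ s, f i) := by
  classical
  induction s using Finset.induction_on with
  | empty => simpa using ttalv_u_one V
  | insert a s ha ih =>
    rw [Finset.prod_insert ha]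
    exact ttalv_u_mul (h a (Finset.mem_insert_self a s))
      (ih fun i hi => h i (Finset.mem_insert_of_mem hi))

theorem ttalv_u_of_not_nonunits {V : ValuationSubring F} {y : F} (hy : y ∈ V)
    (h : y ∉ V.nonunits) : TtalvU V y := by
  refine ⟨?_, hy, ?_⟩
  · rintro rfl
    exact h ((ValuationSubring.mem_nonunits_iff_or V).2 (Or.inl rfl))
  · by_contra hn
    exact h ((ValuationSubring.mem_nonunits_iff_or V).2 (Or.inr hn))

theorem ttalv_u_not_nonunits {V : ValuationSubring F} {y : F} (hy : TtalvU V y) :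
    y ∉ V.nonunits := by
  intro h
  rcases (ValuationSubring.mem_nonunits_iff_or V).1 h with h0 | h1
  · exact hy.1 h0
  · exact h1 hy.2.2

end Unit

/-! ### orders of products -/

section Ord

variable {K F : Type*} [Field K] [Field F] [Algebra K F]

theorem ttalv_ord_pow (v : Place K F) (f : F) (n : ℕ) : v.ord (f ^ n) = (n : ℤ) * v.ord f := by
  rw [← zpow_natCast, v.ord_zpow]

theorem ttalv_ord_prod_pow (v : Place K F) {ι : Type*} (s : Finset ι) (f : ι → F) (e : ι → ℕ)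
    (hf : ∀ i ∈ s, f i ≠ 0) :
    v.ord (∏ i ∈ s, f i ^ e i) = ∑ i ∈ s, (e i : ℤ) * v.ord (f i) := by
  classical
  induction s using Finset.induction_on with
  | empty => simp
  | insert a s ha ih =>
    have h1 : f a ^ e a ≠ 0 := pow_ne_zero _ (hf a (Finset.mem_insert_self a s))
    have h2 : ∏ i ∈ s, f i ^ e i ≠ 0 :=
      Finset.prod_ne_zero_iff.2 fun i hi => pow_ne_zero _ (hf i (Finset.mem_insert_of_mem hi))
    rw [Finset.prod_insert ha, Finset.sum_insert ha, v.ord_mul h1 h2, ttalv_ord_pow,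
      ih fun i hi => hf i (Finset.mem_insert_of_mem hi)]

end Ord

/-! ### the divisor formula of a residue disc, for units -/

section Disc

variable {K F : Type*} [Field K] [Field F] [Algebra K F]
variable {k Fk : Type*} [Field k] [Field Fk] [Algebra k Fk]

/-- **THE DIVISOR FORMULA OF A RESIDUE DISC, FOR UNITS.** -/
theorem ttalv_disc (V V' : ValuationSubring F) (red : V →+* Fk)
    (hker : ∀ y : V, red y = 0 ↔ (y : F) ∈ V.nonunits)
    (Q : Place k Fk) (C : Set (Place K F))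
    (hLS : ∀ (y : F) (hy : y ∈ V), y ∈ V' → (∀ P' ∈ C, 0 ≤ P'.ord y) →
      red ⟨y, hy⟩ ∈ Q.toValuationSubring)
    (hW : ∀ P ∈ C, ∃ w : V, TtalvU V' (w : F) ∧ Q.ord (red w) = 1 ∧ P.ord (w : F) = 1 ∧
      ∀ P' ∈ C, P' ≠ P → P'.ord (w : F) = 0)
    (x : F) (hxV : TtalvU V x) (hxV' : TtalvU V' x)
    (T : Finset (Place K F)) (hTC : ∀ P ∈ T, P ∈ C) (hT : ∀ P ∈ C, P.ord x ≠ 0 → P ∈ T) :
    ∑ P ∈ T, P.ord x = Q.ord (red ⟨x, hxV.2.1⟩) := by
  classical
  choose! w hw using hW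
  -- the exponents
  set a : Place K F → ℕ := fun P => (P.ord x).toNat with ha
  set b : Place K F → ℕ := fun P => (-(P.ord x)).toNat with hb
  have hab : ∀ P, ((a P : ℤ)) - (b P : ℤ) = P.ord x := fun P => Int.toNat_sub_toNat_neg _
  -- facts on the `w P`
  have hwred : ∀ P ∈ T, red (w P) ≠ 0 := by
    intro P hP h0
    have := (hw P (hTC P hP)).2.1
    rw [h0, Place.ord_zero] at this
    exact zero_ne_one this
  have hwU : ∀ P ∈ T, TtalvU V ((w P : V) : F) := fun P hP =>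
    ttalv_u_of_not_nonunits (w P).2 fun h => hwred P hP ((hker _).2 h)
  have hwU' : ∀ P ∈ T, TtalvU V' ((w P : V) : F) := fun P hP => (hw P (hTC P hP)).1
  have hw0 : ∀ P ∈ T, ((w P : V) : F) ≠ 0 := fun P hP => (hwU P hP).1
  -- the two products
  set Zp : V := ∏ P ∈ T, w P ^ a P with hZp
  set Zm : V := ∏ P ∈ T, w P ^ b P with hZm
  have hZpF : (Zp : F) = ∏ P ∈ T, ((w P : V) : F) ^ a P := by
    rw [hZp]
    simp only [← ValuationSubring.subtype_apply, map_prod, map_pow]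
  have hZmF : (Zm : F) = ∏ P ∈ T, ((w P : V) : F) ^ b P := by
    rw [hZm]
    simp only [← ValuationSubring.subtype_apply, map_prod, map_pow]
  have hZpU : TtalvU V (Zp : F) := by
    rw [hZpF]; exact ttalv_u_prod _ _ fun P hP => ttalv_u_pow (hwU P hP) _
  have hZmU : TtalvU V (Zm : F) := by
    rw [hZmF]; exact ttalv_u_prod _ _ fun P hP => ttalv_u_pow (hwU P hP) _
  have hZpU' : TtalvU V' (Zp : F) := by
    rw [hZpF]; exact ttalv_u_prod _ _ fun P hP => ttalv_u_pow (hwU' P hP) _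
  have hZmU' : TtalvU V' (Zm : F) := by
    rw [hZmF]; exact ttalv_u_prod _ _ fun P hP => ttalv_u_pow (hwU' P hP) _
  -- orders of the products on `C`
  have hordw : ∀ P' ∈ C, ∀ P ∈ T, P'.ord ((w P : V) : F) = if P = P' then 1 else 0 := by
    intro P' hP' P hP
    by_cases h : P = P'
    · subst h
      rw [if_pos rfl]
      exact (hw P (hTC P hP)).2.2.1
    · rw [if_neg h]
      exact (hw P (hTC P hP)).2.2.2 P' hP' (fun h' => h h'.symm)
  have hordZ : ∀ (e : Place K F → ℕ), ∀ P' ∈ C,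
      P'.ord (∏ P ∈ T, ((w P : V) : F) ^ e P) = if P' ∈ T then (e P' : ℤ) else 0 := by
    intro e P' hP'
    rw [ttalv_ord_prod_pow P' T _ e hw0]
    rw [Finset.sum_congr rfl (fun P hP => by rw [hordw P' hP' P hP])]
    simp only [mul_ite, mul_one, mul_zero]
    rw [Finset.sum_ite_eq' T P' (fun P => (e P : ℤ))]
  -- the quotient
  set y : F := x * (Zm : F) * (Zp : F)⁻¹ with hy
  have hyU : TtalvU V y := ttalv_u_mul (ttalv_u_mul hxV hZmU) (ttalv_u_inv hZpU)
  have hyU' : TtalvU V' y := ttalv_u_mul (ttalv_u_mul hxV' hZmU') (ttalv_u_inv hZpU')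
  have hyord : ∀ P' ∈ C, P'.ord y = 0 := by
    intro P' hP'
    rw [hy, P'.ord_mul (mul_ne_zero hxV.1 hZmU.1) (inv_ne_zero hZpU.1),
      P'.ord_mul hxV.1 hZmU.1, P'.ord_inv, hZmF, hZpF, hordZ b P' hP', hordZ a P' hP']
    by_cases hP'T : P' ∈ T
    · rw [if_pos hP'T, if_pos hP'T]
      have := hab P'
      omega
    · rw [if_neg hP'T, if_neg hP'T]
      have : P'.ord x = 0 := by
        by_contra hne
        exact hP'T (hT P' hP' hne)
      omega
  have hyinvord : ∀ P' ∈ C, P'.ord y⁻¹ = 0 := by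
    intro P' hP'
    rw [P'.ord_inv, hyord P' hP', neg_zero]
  -- (LS) for `y` and `y⁻¹`
  have h1 := hLS y hyU.2.1 hyU'.2.1 (fun P' hP' => (hyord P' hP').ge)
  have h2 := hLS y⁻¹ hyU.2.2 hyU'.2.2 (fun P' hP' => (hyinvord P' hP').ge)
  have hmul : red ⟨y, hyU.2.1⟩ * red ⟨y⁻¹, hyU.2.2⟩ = 1 := by
    rw [← map_mul]
    have : (⟨y, hyU.2.1⟩ : V) * ⟨y⁻¹, hyU.2.2⟩ = 1 := Subtype.ext (mul_inv_cancel₀ hyU.1)
    rw [this, map_one]
  have hry0 : red ⟨y, hyU.2.1⟩ ≠ 0 := left_ne_zero_of_mul_eq_one hmul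
  have hryi0 : red ⟨y⁻¹, hyU.2.2⟩ ≠ 0 := right_ne_zero_of_mul_eq_one hmul
  have hordy : Q.ord (red ⟨y, hyU.2.1⟩) = 0 := by
    have e1 := Q.ord_mul hry0 hryi0
    rw [hmul, Place.ord_one] at e1
    have e2 := (PlaceOrd.mem_iff_ord_nonneg Q hry0).1 h1
    have e3 := (PlaceOrd.mem_iff_ord_nonneg Q hryi0).1 h2
    omega
  -- the relation `y Zp = x Zm` and its reduction
  have hrel : (⟨y, hyU.2.1⟩ : V) * Zp = ⟨x, hxV.2.1⟩ * Zm := by
    apply Subtype.ext
    show y * (Zp : F) = x * (Zm : F)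
    rw [hy]
    field_simp [hZpU.1]
  have hredrel := congrArg red hrel
  rw [map_mul, map_mul] at hredrel
  have hrx0 : red ⟨x, hxV.2.1⟩ ≠ 0 := fun h0 =>
    ttalv_u_not_nonunits hxV ((hker _).1 h0)
  have hredZ : ∀ e : Place K F → ℕ, red (∏ P ∈ T, w P ^ e P) = ∏ P ∈ T, red (w P) ^ e P := by
    intro e
    simp only [map_prod, map_pow]
  have hordredZ : ∀ e : Place K F → ℕ,
      Q.ord (red (∏ P ∈ T, w P ^ e P)) = ∑ P ∈ T, (e P : ℤ) := by
    intro e
    rw [hredZ e, ttalv_ord_prod_pow Q T _ e hwred]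
    refine Finset.sum_congr rfl fun P hP => ?_
    rw [(hw P (hTC P hP)).2.1, mul_one]
  have hrZp0 : red Zp ≠ 0 := by
    rw [hZp, hredZ a]
    exact Finset.prod_ne_zero_iff.2 fun P hP => pow_ne_zero _ (hwred P hP)
  have hrZm0 : red Zm ≠ 0 := by
    rw [hZm, hredZ b]
    exact Finset.prod_ne_zero_iff.2 fun P hP => pow_ne_zero _ (hwred P hP)
  have e4 := congrArg Q.ord hredrel
  rw [Q.ord_mul hry0 hrZp0, Q.ord_mul hrx0 hrZm0, hordy, hZp, hZm, hordredZ a, hordredZ b] at e4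
  have e5 : ∑ P ∈ T, P.ord x = ∑ P ∈ T, (a P : ℤ) - ∑ P ∈ T, (b P : ℤ) := by
    rw [← Finset.sum_sub_distrib]
    exact Finset.sum_congr rfl fun P _ => (hab P).symm
  rw [e5]
  omega

end Disc

/-! ### the field `const` of the abstract two-valuation model -/

section Const

variable {K : Type*} [Field K] (A : ValuationSubring K) {F : Type*} [Field F] [Algebra K F]
variable {F₁ F₂ : Type*} [Field F₁] [Field F₂] [Algebra (ResidueField A) F₁]
  [Algebra (ResidueField A) F₂]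

/-- the class sums of a finitely supported function. -/
theorem ttalv_mapDomain_apply {α β : Type*} [DecidableEq β] (f : α → β) (D : α →₀ ℤ) (i : β) :
    Finsupp.mapDomain f D i = ∑ v ∈ D.support.filter (fun v => f v = i), D v := by
  classical
  rw [Finsupp.mapDomain, Finsupp.sum_apply, Finsupp.sum, Finset.sum_filter]
  refine Finset.sum_congr rfl fun v _ => ?_
  rw [Finsupp.single_apply]

/-- **THE FIELD `const` OF `TtgModel` / `TtalBridge`** (V) + (D), from the fields `ker_j`,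
`val_j` (= (LS)) of the model, the uniformiser data (HW_j) of the residue discs
(`w = t_Q - t_Q(P)`, `t_Q` the image of a level-`M` uniformiser lift : (B3) "simple zero, unique in
the disc"), and (V) at the bad places. -/
theorem ttalv_const (V₁ V₂ : ValuationSubring F) (red₁ : V₁ →+* F₁) (red₂ : V₂ →+* F₂)
    (cls : Place K F → Option (Place (ResidueField A) F₁ ⊕ Place (ResidueField A) F₂))
    (ker₁ : ∀ x : V₁, red₁ x = 0 ↔ (x : F) ∈ V₁.nonunits)
    (ker₂ : ∀ x : V₂, red₂ x = 0 ↔ (x : F) ∈ V₂.nonunits)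
    (val₁ : ∀ (P : Place K F) (Q : Place (ResidueField A) F₁), cls P = some (Sum.inl Q) →
      ∀ (x : F) (h₁ : x ∈ V₁) (h₂ : x ∈ V₂),
        (∀ P' : Place K F, cls P' = some (Sum.inl Q) → 0 ≤ P'.ord x) →
        ∃ α : A, GrdVal P x (α : K) ∧ GrdVal Q (red₁ ⟨x, h₁⟩) (residue A α))
    (val₂ : ∀ (P : Place K F) (Q : Place (ResidueField A) F₂), cls P = some (Sum.inr Q) →
      ∀ (x : F) (h₁ : x ∈ V₁) (h₂ : x ∈ V₂),
        (∀ P' : Place K F, cls P' = some (Sum.inr Q) → 0 ≤ P'.ord x) →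
        ∃ α : A, GrdVal P x (α : K) ∧ GrdVal Q (red₂ ⟨x, h₂⟩) (residue A α))
    (hW₁ : ∀ (P : Place K F) (Q : Place (ResidueField A) F₁), cls P = some (Sum.inl Q) →
      ∃ (w : F) (h₁ : w ∈ V₁) (h₂ : w ∈ V₂), Q.ord (red₁ ⟨w, h₁⟩) = 1 ∧ red₂ ⟨w, h₂⟩ ≠ 0 ∧
        P.ord w = 1 ∧ ∀ P' : Place K F, cls P' = some (Sum.inl Q) → P' ≠ P → P'.ord w = 0)
    (hW₂ : ∀ (P : Place K F) (Q : Place (ResidueField A) F₂), cls P = some (Sum.inr Q) →
      ∃ (w : F) (h₁ : w ∈ V₁) (h₂ : w ∈ V₂), Q.ord (red₂ ⟨w, h₂⟩) = 1 ∧ red₁ ⟨w, h₁⟩ ≠ 0 ∧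
        P.ord w = 1 ∧ ∀ P' : Place K F, cls P' = some (Sum.inr Q) → P' ≠ P → P'.ord w = 0)
    (hV : ∀ (x : F) (h₁ : x ∈ V₁) (h₂ : x ∈ V₂) (c : ResidueField A), c ≠ 0 → x ≠ 0 →
      (∀ v : Place K F, cls v = none → 0 ≤ v.ord x) →
      red₁ ⟨x, h₁⟩ = algebraMap (ResidueField A) F₁ c →
      red₂ ⟨x, h₂⟩ = algebraMap (ResidueField A) F₂ c →
      ∀ v : Place K F, cls v = none → v.ord x = 0) :
    ∀ (x : F) (h₁ : x ∈ V₁) (h₂ : x ∈ V₂) (c : ResidueField A), c ≠ 0 → x ≠ 0 →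
      (∀ v : Place K F, cls v = none → 0 ≤ v.ord x) →
      red₁ ⟨x, h₁⟩ = algebraMap (ResidueField A) F₁ c →
      red₂ ⟨x, h₂⟩ = algebraMap (ResidueField A) F₂ c →
      ∀ Dx : Divisor K F, (∀ v : Place K F, Dx v = v.ord x) →
        (∀ v : Place K F, cls v = none → Dx v = 0) ∧ Finsupp.mapDomain cls Dx = 0 := by
  classical
  intro x h₁ h₂ c hc hx0 hbad hr₁ hr₂ Dx hDx
  have hVx := hV x h₁ h₂ c hc hx0 hbad hr₁ hr₂
  -- `x` is a unit of both valuation rings
  have hc₁ : algebraMap (ResidueField A) F₁ c ≠ 0 := fun h0 =>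
    hc ((algebraMap (ResidueField A) F₁).injective (by rw [h0, map_zero]))
  have hc₂ : algebraMap (ResidueField A) F₂ c ≠ 0 := fun h0 =>
    hc ((algebraMap (ResidueField A) F₂).injective (by rw [h0, map_zero]))
  have hxU₁ : TtalvU V₁ x := ttalv_u_of_not_nonunits h₁ fun h =>
    hc₁ (by rw [← hr₁]; exact (ker₁ ⟨x, h₁⟩).2 h)
  have hxU₂ : TtalvU V₂ x := ttalv_u_of_not_nonunits h₂ fun h =>
    hc₂ (by rw [← hr₂]; exact (ker₂ ⟨x, h₂⟩).2 h)
  refine ⟨fun v hv => by rw [hDx v]; exact hVx v hv, ?_⟩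
  ext i
  rw [ttalv_mapDomain_apply, Finsupp.coe_zero, Pi.zero_apply]
  rcases i with _ | (Q | Q)
  · -- the bad class
    refine Finset.sum_eq_zero fun v hv => ?_
    rw [hDx v]
    exact hVx v (Finset.mem_filter.1 hv).2
  · -- a disc of the first kind
    rw [Finset.sum_congr rfl (fun v _ => hDx v)]
    by_cases hne : ∃ P₀ : Place K F, cls P₀ = some (Sum.inl Q)
    · obtain ⟨P₀, hP₀⟩ := hne
      have key := ttalv_disc (K := K) V₁ V₂ red₁ ker₁ Q {P | cls P = some (Sum.inl Q)}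
        (fun y hy hy' hord => by
          obtain ⟨α, -, hα⟩ := val₁ P₀ Q hP₀ y hy hy' hord
          exact grdg_val_mem Q hα)
        (fun P hP => by
          obtain ⟨w, hw₁, hw₂, hwQ, hwr, hwP, hwP'⟩ := hW₁ P Q hP
          exact ⟨⟨w, hw₁⟩, ttalv_u_of_not_nonunits hw₂ fun h => hwr ((ker₂ ⟨w, hw₂⟩).2 h), hwQ,
            hwP, hwP'⟩)
        x hxU₁ hxU₂ (Dx.support.filter (fun v => cls v = some (Sum.inl Q)))
        (fun P hP => (Finset.mem_filter.1 hP).2)
        (fun P hP hne => Finset.mem_filter.2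
          ⟨Finsupp.mem_support_iff.2 (by rw [hDx P]; exact hne), hP⟩)
      rw [key, hr₁]
      exact PlaceOrd.ord_algebraMap Q c
    · refine Finset.sum_eq_zero fun v hv => ?_
      exact absurd ⟨v, (Finset.mem_filter.1 hv).2⟩ hne
  · -- a disc of the second kind
    rw [Finset.sum_congr rfl (fun v _ => hDx v)]
    by_cases hne : ∃ P₀ : Place K F, cls P₀ = some (Sum.inr Q)
    · obtain ⟨P₀, hP₀⟩ := hne
      have key := ttalv_disc (K := K) V₂ V₁ red₂ ker₂ Q {P | cls P = some (Sum.inr Q)}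
        (fun y hy hy' hord => by
          obtain ⟨α, -, hα⟩ := val₂ P₀ Q hP₀ y hy' hy hord
          exact grdg_val_mem Q hα)
        (fun P hP => by
          obtain ⟨w, hw₁, hw₂, hwQ, hwr, hwP, hwP'⟩ := hW₂ P Q hP
          exact ⟨⟨w, hw₂⟩, ttalv_u_of_not_nonunits hw₁ fun h => hwr ((ker₁ ⟨w, hw₁⟩).2 h), hwQ,
            hwP, hwP'⟩)
        x hxU₂ hxU₁ (Dx.support.filter (fun v => cls v = some (Sum.inr Q)))
        (fun P hP => (Finset.mem_filter.1 hP).2)
        (fun P hP hne => Finset.mem_filter.2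
          ⟨Finsupp.mem_support_iff.2 (by rw [hDx P]; exact hne), hP⟩)
      rw [key, hr₂]
      exact PlaceOrd.ord_algebraMap Q c
    · refine Finset.sum_eq_zero fun v hv => ?_
      exact absurd ⟨v, (Finset.mem_filter.1 hv).2⟩ hne

end Const

end Fermat.Agent.TT
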