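import Mathlib
import Fermat.Agent.TT.Spec
import Fermat.Agent.TT.Alpha.Norm
import Fermat.Agent.V.Div.Modular

/-!
# Program TT (S33), leaf (α): the subgroup `Γ0` of `J₀(N)[n]`, its stability and (α)

Owner: helper29.  Namespace `Fermat.Agent.TT`, prefix `ttal`.

`V₁ V₂` are two valuation subrings of the function field `ℚ̄(X₀(N))` (the two components of the
special fibre at `p ∥ N`).  `Γ0 := ttalGam N m n V₁ V₂` is the subgroup of `J₀(N)[m]` (`m = n` as an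
integer) of the classes `[D]` with `n D = div f`, `f ≡ 1` modulo both maximal ideals.

Inputs (all about the two valuation rings):
* `hI₁ hI₂` : every `σ ∈ I` moves every element of `V_i` by an element of the maximal ideal
  (`σ` stabilises `V_i` and acts trivially on its residue field);
* `hnorm`   : every function is a common unit of `V₁, V₂` up to an `n`-th power (`ttal_hnorm`).

Outputs:
* `ttal_gam_stable` : `Γ0` is `I`-stable;
* `ttal_gam_alpha`  : **(α)** `(σ - 1) J₀(N)[m] ⊆ Γ0` for `σ ∈ I`;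
* `ttal_gam_mem`    : membership, in the form consumed by the bridge `ttal_bridge_all`;
* `ttal_geom_of`    : `TtGeomSpec N p k 𝔸` from a connected order on `Γ0`.
-/

set_option autoImplicit false
set_option linter.unusedSectionVars false
set_option linter.unusedVariables false
set_option linter.style.haveILetI false

noncomputable section

namespace Fermat.Agent.TT

open AlgebraicCurve ModularCurve Fermat.Agent.FF

/-- **`Γ0`**: the Kummer subgroup of the one-units of `V₁, V₂`, inside `J₀(N)[m]`. -/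
def ttalGam (N : ℕ) (m : ℤ) (n : ℕ) (V₁ V₂ : ValuationSubring ↥(modularFunctionFieldBar N)) :
    AddSubgroup ↥(Submodule.torsionBy ℤ (JZero N) m) :=
  (ttalKum (K := AlgebraicClosure ℚ) (ttalOne V₁ V₂) n).comap
    (Submodule.torsionBy ℤ (JZero N) m).subtype.toAddMonoidHom

theorem ttal_gam_mem {N : ℕ} {m : ℤ} {n : ℕ} {V₁ V₂ : ValuationSubring ↥(modularFunctionFieldBar N)}
    {x : ↥(Submodule.torsionBy ℤ (JZero N) m)} :
    x ∈ ttalGam N m n V₁ V₂ ↔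
      (x : JZero N) ∈ ttalKum (K := AlgebraicClosure ℚ) (ttalOne V₁ V₂) n := Iff.rfl

/-- an automorphism moving every element of `V₁, V₂` by an element of the maximal ideal preserves
the one-units. -/
theorem ttal_one_smul {K F : Type*} [Field K] [Field F] [Algebra K F]
    {V₁ V₂ : ValuationSubring F} (s : SemilinearAut K F)
    (h₁ : ∀ x ∈ V₁, s • x - x ∈ V₁.nonunits) (h₂ : ∀ x ∈ V₂, s • x - x ∈ V₂.nonunits)
    (f : Fˣ) (hf : f ∈ ttalOne V₁ V₂) : ttalUnitMap s f ∈ ttalOne V₁ V₂ := by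
  obtain ⟨hf1, hf2⟩ := hf
  have key : ∀ V : ValuationSubring F, (∀ x ∈ V, s • x - x ∈ V.nonunits) →
      (f : F) - 1 ∈ V.nonunits → ((ttalUnitMap s f : Fˣ) : F) - 1 ∈ V.nonunits := by
    intro V h hf
    have e : ((ttalUnitMap s f : Fˣ) : F) - 1 =
        (s • ((f : F) - 1) - ((f : F) - 1)) + ((f : F) - 1) := by
      rw [ttalUnitMap_coe, smul_sub, smul_one]
      ring
    rw [e]
    exact ttal_nonunits_add (h _ (ttal_nonunits_mem hf)) hf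
  exact ⟨key V₁ h₁ hf1, key V₂ h₂ hf2⟩

variable {N : ℕ} {m : ℤ} {n : ℕ} {V₁ V₂ : ValuationSubring ↥(modularFunctionFieldBar N)}

/-- **`Γ0` is stable** under every `σ` moving `V₁, V₂` by the maximal ideals. -/
theorem ttal_gam_stable_one (σ : FfGal)
    (h₁ : ∀ x ∈ V₁, arithmeticGalois (modularFunctionFieldFull N) σ • x - x ∈ V₁.nonunits)
    (h₂ : ∀ x ∈ V₂, arithmeticGalois (modularFunctionFieldFull N) σ • x - x ∈ V₂.nonunits)
    (x : ↥(Submodule.torsionBy ℤ (JZero N) m)) (hx : x ∈ ttalGam N m n V₁ V₂) :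
    ffTorsAct N m σ x ∈ ttalGam N m n V₁ V₂ := by
  rw [ttal_gam_mem, ffTorsAct_coe, galois_smul_pic0_def]
  exact ttal_kum_smul _ (ttal_one_smul _ h₁ h₂) (ttal_gam_mem.mp hx)

/-- **(α)** for one `σ`. -/
theorem ttal_gam_alpha_one [NeZero N] (hm : (n : ℤ) = m)
    (hnorm : ∀ f : (↥(modularFunctionFieldBar N))ˣ, ∃ g : (↥(modularFunctionFieldBar N))ˣ,
      f * g ^ n ∈ ttalUnits V₁ V₂) (σ : FfGal)
    (h₁ : ∀ x ∈ V₁, arithmeticGalois (modularFunctionFieldFull N) σ • x - x ∈ V₁.nonunits)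
    (h₂ : ∀ x ∈ V₂, arithmeticGalois (modularFunctionFieldFull N) σ • x - x ∈ V₂.nonunits)
    (x : ↥(Submodule.torsionBy ℤ (JZero N) m)) :
    ffTorsAct N m σ x - x ∈ ttalGam N m n V₁ V₂ := by
  haveI := Fermat.Agent.V.v27dv_isCurveOver_modular N
  haveI : HasPrincipalDivisors (AlgebraicClosure ℚ) ↥(modularFunctionFieldBar N) :=
    IsCurveOver.hasPrincipalDivisors
  rw [ttal_gam_mem, Submodule.coe_sub, ffTorsAct_coe, galois_smul_pic0_def]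
  refine ttal_alpha (ttalOne V₁ V₂) (ttalUnits V₁ V₂) n hnorm _
    (fun u hu => ttal_one_of_units _ h₁ h₂ u hu) _ ?_
  rw [hm]
  exact (Submodule.mem_torsionBy_iff _ _).mp x.2

/-- `Γ0` is `I`-stable. -/
theorem ttal_gam_stable (𝔸 : ValuationSubring FfQb)
    (hI₁ : ∀ σ : ↥(ffI 𝔸), ∀ x ∈ V₁,
      arithmeticGalois (modularFunctionFieldFull N) (σ : FfGal) • x - x ∈ V₁.nonunits)
    (hI₂ : ∀ σ : ↥(ffI 𝔸), ∀ x ∈ V₂,
      arithmeticGalois (modularFunctionFieldFull N) (σ : FfGal) • x - x ∈ V₂.nonunits)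
    (σ : ↥(ffI 𝔸)) (x : ↥(Submodule.torsionBy ℤ (JZero N) m)) (hx : x ∈ ttalGam N m n V₁ V₂) :
    ttTorsAct 𝔸 N m σ x ∈ ttalGam N m n V₁ V₂ :=
  ttal_gam_stable_one (σ : FfGal) (hI₁ σ) (hI₂ σ) x hx

/-- **(α)**: `(σ - 1) J₀(N)[m] ⊆ Γ0` for `σ ∈ I`. -/
theorem ttal_gam_alpha [NeZero N] (𝔸 : ValuationSubring FfQb) (hm : (n : ℤ) = m)
    (hnorm : ∀ f : (↥(modularFunctionFieldBar N))ˣ, ∃ g : (↥(modularFunctionFieldBar N))ˣ,
      f * g ^ n ∈ ttalUnits V₁ V₂)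
    (hI₁ : ∀ σ : ↥(ffI 𝔸), ∀ x ∈ V₁,
      arithmeticGalois (modularFunctionFieldFull N) (σ : FfGal) • x - x ∈ V₁.nonunits)
    (hI₂ : ∀ σ : ↥(ffI 𝔸), ∀ x ∈ V₂,
      arithmeticGalois (modularFunctionFieldFull N) (σ : FfGal) • x - x ∈ V₂.nonunits)
    (σ : ↥(ffI 𝔸)) (x : ↥(Submodule.torsionBy ℤ (JZero N) m)) :
    ttTorsAct 𝔸 N m σ x - x ∈ ttalGam N m n V₁ V₂ :=
  ttal_gam_alpha_one hm hnorm (σ : FfGal) (hI₁ σ) (hI₂ σ) x

/-- **(A) from a connected order on `Γ0`**: the assembly literal. -/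
theorem ttal_geom_of (N p k : ℕ) [NeZero N] (𝔸 : ValuationSubring FfQb)
    (V₁ V₂ : ValuationSubring ↥(modularFunctionFieldBar N))
    (hnorm : ∀ f : (↥(modularFunctionFieldBar N))ˣ, ∃ g : (↥(modularFunctionFieldBar N))ˣ,
      f * g ^ (p ^ k) ∈ ttalUnits V₁ V₂)
    (hI₁ : ∀ σ : ↥(ffI 𝔸), ∀ x ∈ V₁,
      arithmeticGalois (modularFunctionFieldFull N) (σ : FfGal) • x - x ∈ V₁.nonunits)
    (hI₂ : ∀ σ : ↥(ffI 𝔸), ∀ x ∈ V₂,
      arithmeticGalois (modularFunctionFieldFull N) (σ : FfGal) • x - x ∈ V₂.nonunits)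
    (hconn : ∀ h : ∀ σ : ↥(ffI 𝔸), ∀ x ∈ ttalGam N ((p : ℤ) ^ k) (p ^ k) V₁ V₂,
        ttTorsAct 𝔸 N ((p : ℤ) ^ k) σ x ∈ ttalGam N ((p : ℤ) ^ k) (p ^ k) V₁ V₂,
      TtConnOut 𝔸 ↥(ttalGam N ((p : ℤ) ^ k) (p ^ k) V₁ V₂)
        (ttResAct (ttTorsAct 𝔸 N ((p : ℤ) ^ k)) (ttalGam N ((p : ℤ) ^ k) (p ^ k) V₁ V₂) h)) :
    TtGeomSpec N p k 𝔸 := by
  have hm : ((p ^ k : ℕ) : ℤ) = (p : ℤ) ^ k := by push_cast; rfl
  have hst : ∀ σ : ↥(ffI 𝔸), ∀ x ∈ ttalGam N ((p : ℤ) ^ k) (p ^ k) V₁ V₂,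
      ttTorsAct 𝔸 N ((p : ℤ) ^ k) σ x ∈ ttalGam N ((p : ℤ) ^ k) (p ^ k) V₁ V₂ :=
    fun σ x hx => ttal_gam_stable 𝔸 hI₁ hI₂ σ x hx
  exact ⟨ttalGam N ((p : ℤ) ^ k) (p ^ k) V₁ V₂, hst,
    fun σ x => ttal_gam_alpha 𝔸 hm hnorm hI₁ hI₂ σ x, hconn hst⟩

end Fermat.Agent.TT
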