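import Mathlib

/-!
# Program TT (S33), leaf (α): a place of `ℚ̄` over `p` has rank one

Owner: helper29.  Namespace `Fermat.Agent.TT`, prefix `ttal`.  Mathlib only.

`A` a valuation subring of a field `K` of characteristic `0`, algebraic over `ℚ`, with `p ∈ 𝔪_A`.

* `ttal_val_int_eq_one` : integers prime to `p` are units of `A`;
* `ttal_rank_pow`  : `π ∈ 𝔪_A ∖ 0` ⟹ `π^j ∈ p A` for some `j ≥ 1` (Newton polygon);
* `ttal_rank_arch` : `c ∈ K` ⟹ `p^e c ∈ A` for some `e`;
* `ttal_rank_lt`   : `x ≠ 0`, `π ∈ 𝔪_A ∖ 0` ⟹ `x π^m ∈ 𝔪_A` for all large `m`;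
* `ttal_hrk`       : the hypothesis `hrk` of `ttal_approx` / `ttal_hnorm`;
* `ttal_hrk_qbar`, `ttal_hroot_qbar` : the same for `K = ℚ̄`.
-/

set_option autoImplicit false
set_option linter.unusedSectionVars false
set_option linter.unusedVariables false

namespace Fermat.Agent.TT

open Polynomial

variable {K : Type*} [Field K] (A : ValuationSubring K)

theorem ttal_val_int_le (a : ℤ) : A.valuation (a : K) ≤ 1 :=
  (A.valuation_le_one_iff _).mpr (intCast_mem A a)

theorem ttal_val_nat_le (a : ℕ) : A.valuation (a : K) ≤ 1 :=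
  (A.valuation_le_one_iff _).mpr (natCast_mem A a)

/-- integers prime to `p` are units of `A`. -/
theorem ttal_val_int_eq_one {p : ℕ} (hp : p.Prime) (hA : (p : K) ∈ A.nonunits) (a : ℤ)
    (ha : ¬ (p : ℤ) ∣ a) : A.valuation (a : K) = 1 := by
  have hcop : IsCoprime (p : ℤ) a :=
    ((Nat.prime_iff_prime_int.mp hp).irreducible.coprime_iff_not_dvd).mpr ha
  obtain ⟨u, w, huw⟩ := hcop
  have h1 : (w : K) * (a : K) = 1 - (u : K) * (p : K) := by
    have := congrArg (fun z : ℤ => (z : K)) huw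
    push_cast at this
    linear_combination this
  have h2 : A.valuation ((u : K) * (p : K)) < 1 := by
    rw [map_mul]
    calc A.valuation (u : K) * A.valuation (p : K) ≤ 1 * A.valuation (p : K) :=
          mul_le_mul_left (ttal_val_int_le A u) _
      _ < 1 := by rw [one_mul]; exact hA
  have h3 : A.valuation ((w : K) * (a : K)) = 1 := by
    rw [h1]; exact Valuation.map_one_sub_of_lt _ h2
  rw [map_mul] at h3
  refine le_antisymm (ttal_val_int_le A a) ?_
  calc (1 : A.ValueGroup) = A.valuation (w : K) * A.valuation (a : K) := h3.symm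
    _ ≤ 1 * A.valuation (a : K) := mul_le_mul_left (ttal_val_int_le A w) _
    _ = A.valuation (a : K) := one_mul _

/-- a non-zero integer has valuation `≥ v(p)^e` for some `e`. -/
theorem ttal_val_int_ge {p : ℕ} (hp : p.Prime) (hA : (p : K) ∈ A.nonunits) (b : ℤ) (hb : b ≠ 0) :
    ∃ e : ℕ, A.valuation (b : K) = A.valuation (p : K) ^ e := by
  have hb' : b.natAbs ≠ 0 := Int.natAbs_ne_zero.mpr hb
  obtain ⟨e, n', hn', hbn⟩ := Nat.exists_eq_pow_mul_and_not_dvd hb' p hp.ne_one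
  have hn'' : ¬ (p : ℤ) ∣ (n' : ℤ) := fun h => hn' (Int.natCast_dvd_natCast.mp h)
  have h1 : A.valuation ((n' : ℤ) : K) = 1 := ttal_val_int_eq_one A hp hA _ hn''
  have habs : A.valuation (b : K) = A.valuation ((b.natAbs : ℕ) : K) := by
    rcases Int.natAbs_eq b with h | h
    · conv_lhs => rw [h]
      simp
    · conv_lhs => rw [h]
      rw [Int.cast_neg, Valuation.map_neg]
      simp
  refine ⟨e, ?_⟩
  rw [habs, hbn]
  push_cast
  rw [map_mul, map_pow]
  have : A.valuation (n' : K) = 1 := by simpa using h1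
  rw [this, mul_one]

variable [CharZero K]

/-- **Newton polygon**: a non-zero element of the maximal ideal has a power divisible by `p`. -/
theorem ttal_rank_pow {p : ℕ} (hp : p.Prime) (hA : (p : K) ∈ A.nonunits) {π : K} (hπ0 : π ≠ 0)
    (hπ : π ∈ A.nonunits) (halg : IsAlgebraic ℤ π) :
    ∃ j : ℕ, j ≠ 0 ∧ A.valuation π ^ j ≤ A.valuation (p : K) := by
  classical
  obtain ⟨P0, hP0, hP0e⟩ := halg
  set P := P0.primPart with hPdef
  have hPprim : P.IsPrimitive := isPrimitive_primPart P0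
  have hPe : aeval π P = 0 := aeval_primPart_eq_zero hP0 hP0e
  have hex : ∃ j, ¬ (p : ℤ) ∣ P.coeff j := by
    by_contra hcon
    have hall : ∀ i, (p : ℤ) ∣ P.coeff i := fun i => by
      by_contra hi
      exact hcon ⟨i, hi⟩
    have := hPprim (p : ℤ) ((C_dvd_iff_dvd_coeff _ _).mpr hall)
    exact (Nat.prime_iff_prime_int.mp hp).not_isUnit this
  set j := Nat.find hex with hjdef
  have hj : ¬ (p : ℤ) ∣ P.coeff j := Nat.find_spec hex
  have hlt : ∀ i < j, (p : ℤ) ∣ P.coeff i := fun i hi => not_not.mp (Nat.find_min hex hi)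
  have hvπ : A.valuation π < 1 := hπ
  have hvπ0 : A.valuation π ≠ 0 := (Valuation.ne_zero_iff _).mpr hπ0
  have hvπpos : 0 < A.valuation π := zero_lt_iff.mpr hvπ0
  have hvp : A.valuation (p : K) < 1 := hA
  -- the sum
  have hsum : ∑ i ∈ Finset.range (P.natDegree + 1), ((P.coeff i : ℤ) : K) * π ^ i = 0 := by
    rw [← hPe, aeval_eq_sum_range]
    refine Finset.sum_congr rfl fun i _ => ?_
    rw [zsmul_eq_mul]
  have hjmem : j ∈ Finset.range (P.natDegree + 1) := by
    rw [Finset.mem_range, Nat.lt_succ_iff]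
    refine le_natDegree_of_ne_zero ?_
    intro h0
    exact hj (h0 ▸ dvd_zero _)
  rw [← Finset.add_sum_erase _ _ hjmem] at hsum
  have htj : ((P.coeff j : ℤ) : K) * π ^ j =
      -∑ i ∈ (Finset.range (P.natDegree + 1)).erase j, ((P.coeff i : ℤ) : K) * π ^ i :=
    eq_neg_of_add_eq_zero_left hsum
  have hvtj : A.valuation (((P.coeff j : ℤ) : K) * π ^ j) = A.valuation π ^ j := by
    rw [map_mul, map_pow, ttal_val_int_eq_one A hp hA _ hj, one_mul]
  have hbound : A.valuation (-∑ i ∈ (Finset.range (P.natDegree + 1)).erase j,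
      ((P.coeff i : ℤ) : K) * π ^ i) ≤ max (A.valuation (p : K)) (A.valuation π ^ (j + 1)) := by
    rw [Valuation.map_neg]
    refine Valuation.map_sum_le _ fun i hi => ?_
    have hij : i ≠ j := (Finset.mem_erase.mp hi).1
    rcases lt_or_gt_of_ne hij with h | h
    · -- `i < j`
      obtain ⟨b, hb⟩ := hlt i h
      refine le_trans ?_ (le_max_left _ _)
      rw [hb]
      push_cast
      rw [map_mul, map_mul, map_pow]
      calc A.valuation (p : K) * A.valuation (b : K) * A.valuation π ^ i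
          ≤ A.valuation (p : K) * 1 * 1 := by
            refine mul_le_mul' (mul_le_mul' le_rfl (ttal_val_int_le A b)) ?_
            exact pow_le_one₀ (le_of_lt hvπpos) hvπ.le
        _ = A.valuation (p : K) := by rw [mul_one, mul_one]
    · -- `j < i`
      refine le_trans ?_ (le_max_right _ _)
      rw [map_mul, map_pow]
      calc A.valuation ((P.coeff i : ℤ) : K) * A.valuation π ^ i
          ≤ 1 * A.valuation π ^ i := mul_le_mul_left (ttal_val_int_le A _) _
        _ = A.valuation π ^ i := one_mul _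
        _ ≤ A.valuation π ^ (j + 1) :=
            pow_le_pow_of_le_one (le_of_lt hvπpos) hvπ.le h
  rw [← htj, hvtj] at hbound
  rcases le_max_iff.mp hbound with h | h
  · refine ⟨j, ?_, h⟩
    intro hj0
    rw [hj0, pow_zero] at h
    exact absurd hvp (not_lt.mpr h)
  · exfalso
    have : A.valuation π ^ (j + 1) < A.valuation π ^ j := by
      rw [pow_succ]
      calc A.valuation π ^ j * A.valuation π < A.valuation π ^ j * 1 :=
            mul_lt_mul_of_pos_left hvπ (pow_pos hvπpos j)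
        _ = A.valuation π ^ j := mul_one _
    exact absurd this (not_lt.mpr h)

/-- every element becomes integral after multiplication by a power of `p`. -/
theorem ttal_rank_arch {p : ℕ} (hp : p.Prime) (hA : (p : K) ∈ A.nonunits) (c : K)
    (halg : IsAlgebraic ℤ c) : ∃ e : ℕ, A.valuation (p : K) ^ e * A.valuation c ≤ 1 := by
  classical
  by_cases hc1 : A.valuation c ≤ 1
  · exact ⟨0, by rw [pow_zero, one_mul]; exact hc1⟩
  have hc1' : 1 < A.valuation c := not_le.mp hc1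
  have hvc0 : A.valuation c ≠ 0 := ne_of_gt (lt_trans zero_lt_one hc1')
  have hvcpos : 0 < A.valuation c := lt_trans zero_lt_one hc1'
  obtain ⟨P, hP0, hPe⟩ := halg
  set n := P.natDegree with hn
  have hlc : P.coeff n ≠ 0 := by
    rw [hn, coeff_natDegree]; exact leadingCoeff_ne_zero.mpr hP0
  have hsum : ∑ i ∈ Finset.range (n + 1), ((P.coeff i : ℤ) : K) * c ^ i = 0 := by
    rw [← hPe, aeval_eq_sum_range]
    refine Finset.sum_congr rfl fun i _ => ?_
    rw [zsmul_eq_mul]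
  rw [Finset.sum_range_succ] at hsum
  have htn : ((P.coeff n : ℤ) : K) * c ^ n =
      -∑ i ∈ Finset.range n, ((P.coeff i : ℤ) : K) * c ^ i :=
    eq_neg_of_add_eq_zero_right hsum
  have hbound : A.valuation (-∑ i ∈ Finset.range n, ((P.coeff i : ℤ) : K) * c ^ i) ≤
      A.valuation c ^ n / A.valuation c := by
    rw [Valuation.map_neg]
    refine Valuation.map_sum_le _ fun i hi => ?_
    have hin : i < n := Finset.mem_range.mp hi
    rw [map_mul, map_pow, le_div_iff₀ hvcpos]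
    calc A.valuation ((P.coeff i : ℤ) : K) * A.valuation c ^ i * A.valuation c
        ≤ 1 * A.valuation c ^ i * A.valuation c :=
          mul_le_mul_left (mul_le_mul_left (ttal_val_int_le A _) _) _
      _ = A.valuation c ^ (i + 1) := by rw [one_mul, pow_succ]
      _ ≤ A.valuation c ^ n := pow_le_pow_right₀ hc1'.le hin
  rw [← htn, map_mul, map_pow, le_div_iff₀ hvcpos] at hbound
  obtain ⟨e, he⟩ := ttal_val_int_ge A hp hA (P.coeff n) hlc
  refine ⟨e, ?_⟩
  rw [← he]
  have hpow : 0 < A.valuation c ^ n := pow_pos hvcpos n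
  have h3 : A.valuation ((P.coeff n : ℤ) : K) * A.valuation c * A.valuation c ^ n ≤
      1 * A.valuation c ^ n := by
    rw [one_mul]
    calc A.valuation ((P.coeff n : ℤ) : K) * A.valuation c * A.valuation c ^ n
        = A.valuation ((P.coeff n : ℤ) : K) * A.valuation c ^ n * A.valuation c := by
          rw [mul_assoc, mul_assoc, mul_comm (A.valuation c)]
      _ ≤ A.valuation c ^ n := hbound
  exact le_of_mul_le_mul_right h3 hpow

/-- **rank one**: `x π^m ∈ 𝔪_A` for all large `m`. -/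
theorem ttal_rank_lt {p : ℕ} (hp : p.Prime) (hA : (p : K) ∈ A.nonunits)
    (halg : ∀ x : K, IsAlgebraic ℤ x) (x : K) {π : K} (hπ0 : π ≠ 0) (hπ : π ∈ A.nonunits) :
    ∃ M : ℕ, ∀ m : ℕ, M ≤ m → A.valuation x * A.valuation π ^ m < 1 := by
  obtain ⟨e, he⟩ := ttal_rank_arch A hp hA x (halg x)
  obtain ⟨j, hj0, hj⟩ := ttal_rank_pow A hp hA hπ0 hπ (halg π)
  have hvπ : A.valuation π < 1 := hπ
  have hvπ0 : A.valuation π ≠ 0 := (Valuation.ne_zero_iff _).mpr hπ0
  have hvπpos : 0 < A.valuation π := zero_lt_iff.mpr hvπ0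
  have hvp : A.valuation (p : K) < 1 := hA
  refine ⟨j * (e + 1), fun m hm => ?_⟩
  calc A.valuation x * A.valuation π ^ m
      ≤ A.valuation x * A.valuation π ^ (j * (e + 1)) :=
        mul_le_mul_right (pow_le_pow_of_le_one (le_of_lt hvπpos) hvπ.le hm) _
    _ = A.valuation x * (A.valuation π ^ j) ^ (e + 1) := by rw [pow_mul]
    _ ≤ A.valuation x * A.valuation (p : K) ^ (e + 1) :=
        mul_le_mul_right (pow_le_pow_left₀ (le_of_lt (pow_pos hvπpos j)) hj _) _
    _ = (A.valuation (p : K) ^ e * A.valuation x) * A.valuation (p : K) := by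
        rw [pow_succ, ← mul_assoc, mul_comm (A.valuation x)]
    _ ≤ 1 * A.valuation (p : K) := mul_le_mul_left he _
    _ < 1 := by rw [one_mul]; exact hvp

/-- **the hypothesis `hrk`** of `ttal_approx` / `ttal_hnorm`. -/
theorem ttal_hrk {p : ℕ} (hp : p.Prime) (hA : (p : K) ∈ A.nonunits)
    (halg : ∀ x : K, IsAlgebraic ℤ x)
    (hroot : ∀ (a : K) (m : ℕ), a ≠ 0 → m ≠ 0 → ∃ a' : K, a' ^ m = a)
    (c π₁ π₂ : K) (hc : c ≠ 0) (h1 : π₁ ≠ 0) (h2 : π₂ ≠ 0) (hπ₁ : π₁ ∈ A.nonunits)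
    (hπ₂ : π₂ ∈ A.nonunits) :
    ∃ (m : ℕ) (d : K), m ≠ 0 ∧ d ^ m = c ∧ d * π₁ ∈ A.nonunits ∧ d⁻¹ * π₂ ∈ A.nonunits := by
  obtain ⟨M₁, hM₁⟩ := ttal_rank_lt A hp hA halg c h1 hπ₁
  obtain ⟨M₂, hM₂⟩ := ttal_rank_lt A hp hA halg c⁻¹ h2 hπ₂
  set m := max (max M₁ M₂) 1 with hm
  have hm0 : m ≠ 0 := by
    have : 1 ≤ m := le_max_right _ _
    omega
  obtain ⟨d, hd⟩ := hroot c m hc hm0
  refine ⟨m, d, hm0, hd, ?_, ?_⟩
  · rw [ValuationSubring.mem_nonunits_iff]
    by_contra hcon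
    have h1le : 1 ≤ A.valuation (d * π₁) := not_lt.mp hcon
    have : 1 ≤ A.valuation (d * π₁) ^ m := one_le_pow₀ h1le
    rw [← map_pow, mul_pow, hd, map_mul, map_pow] at this
    exact absurd (hM₁ m (le_trans (le_max_left _ _) (le_max_left _ _))) (not_lt.mpr this)
  · rw [ValuationSubring.mem_nonunits_iff]
    by_contra hcon
    have h1le : 1 ≤ A.valuation (d⁻¹ * π₂) := not_lt.mp hcon
    have : 1 ≤ A.valuation (d⁻¹ * π₂) ^ m := one_le_pow₀ h1le
    rw [← map_pow, mul_pow, inv_pow, hd, map_mul, map_pow] at this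
    exact absurd (hM₂ m (le_trans (le_max_right _ _) (le_max_left _ _))) (not_lt.mpr this)

/-- `m`-th roots in `ℚ̄`. -/
theorem ttal_hroot_qbar (a : AlgebraicClosure ℚ) (m : ℕ) (ha : a ≠ 0) (hm : m ≠ 0) :
    ∃ a' : AlgebraicClosure ℚ, a' ^ m = a :=
  IsAlgClosed.exists_pow_nat_eq a (Nat.pos_of_ne_zero hm)

theorem ttal_isAlgebraic_int_qbar (x : AlgebraicClosure ℚ) : IsAlgebraic ℤ x := by
  haveI halg : Algebra.IsAlgebraic ℚ (AlgebraicClosure ℚ) := AlgebraicClosure.isAlgebraic ℚ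
  have h : IsAlgebraic ℚ x := Algebra.IsAlgebraic.isAlgebraic x
  exact (IsFractionRing.isAlgebraic_iff ℤ ℚ (AlgebraicClosure ℚ)).mpr h

/-- `hrk` for a place of `ℚ̄` over `p`. -/
theorem ttal_hrk_qbar (A : ValuationSubring (AlgebraicClosure ℚ)) {p : ℕ} (hp : p.Prime)
    (hA : (p : AlgebraicClosure ℚ) ∈ A.nonunits)
    (c π₁ π₂ : AlgebraicClosure ℚ) (hc : c ≠ 0) (h1 : π₁ ≠ 0) (h2 : π₂ ≠ 0)
    (hπ₁ : π₁ ∈ A.nonunits) (hπ₂ : π₂ ∈ A.nonunits) :
    ∃ (m : ℕ) (d : AlgebraicClosure ℚ), m ≠ 0 ∧ d ^ m = c ∧ d * π₁ ∈ A.nonunits ∧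
      d⁻¹ * π₂ ∈ A.nonunits :=
  ttal_hrk A hp hA ttal_isAlgebraic_int_qbar ttal_hroot_qbar c π₁ π₂ hc h1 h2 hπ₁ hπ₂

end Fermat.Agent.TT
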