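import Mathlib
import Fermat.Agent.TT.Geom.Spec
import Fermat.Agent.TT.Alpha.Gam
import Fermat.Agent.TT.Alpha.Rank

/-!
# Program TT (S33), LEAF (ALPHA): `ttal_alphaSpec : TtgAlphaSpec`

Owner: helper29.  Namespace `Fermat.Agent.TT`, prefix `ttal`.
Imports helper24's `TT/Geom/Spec.lean` (`TtgModel`, `TtgAlphaSpec`).

For the abstract two-valuation model the Kummer subgroup `Γ₀ = ttalKum (ttalOne V₁ V₂) (p^j)` is
inertia-stable (`ttal_kum_smul` + `move₁`, `move₂`) and carries (α) (`ttal_alpha` with `hnorm` from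
`ttal_hnorm` [fields `idem`, `sc₁`, `sc₂`; `ℚ̄` algebraically closed; `𝔸` of rank one] and `hs` from
`ttal_one_of_units` [fields `move₁`, `move₂`]).
-/

set_option autoImplicit false
set_option linter.unusedSectionVars false
set_option linter.unusedVariables false
set_option linter.style.haveILetI false

noncomputable section

namespace Fermat.Agent.TT

open AlgebraicCurve IsLocalRing Fermat.Agent.FF Fermat.Agent.V.RR

/-- **LEAF (ALPHA).** -/
theorem ttal_alphaSpec : TtgAlphaSpec := by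
  intro p hp 𝔸 h𝔸 F _ _ F₁ F₂ _ _ _ _ g g₁ g₂ RR hdeg V₁ V₂ red₁ red₂ ρ hρ cls S _ ν₁ ν₂ T₁ T₂
    hMod j
  haveI : HasPrincipalDivisors FfQb F := RR.hasDiv
  have hn : p ^ j ≠ 0 := pow_ne_zero j hp.ne_zero
  have hnorm : ∀ f : Fˣ, ∃ g : Fˣ, f * g ^ (p ^ j) ∈ ttalUnits V₁ V₂ :=
    ttal_hnorm hMod.idem ttal_hroot_qbar (ttal_hrk_qbar 𝔸 hp h𝔸) hMod.sc₁ hMod.sc₂ (p ^ j) hn
  refine ⟨fun σ x hx => ?_, fun σ x hx => ?_⟩
  · exact ttal_kum_smul (ρ σ)
      (ttal_one_smul (ρ σ) (fun y hy => hMod.move₁ σ y hy) (fun y hy => hMod.move₂ σ y hy)) hx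
  · exact ttal_alpha (ttalOne V₁ V₂) (ttalUnits V₁ V₂) (p ^ j) hnorm (ρ σ)
      (fun u hu => ttal_one_of_units (ρ σ) (fun y hy => hMod.move₁ σ y hy)
        (fun y hy => hMod.move₂ σ y hy) u hu) x hx

end Fermat.Agent.TT
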